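import Mathlib
import Fermat.Prelude.Def_ModularCurve_PeriodMap
import Fermat.Agent.S21.GroupBound

set_option autoImplicit false
set_option linter.unusedSectionVars false
open ModularCurve.Period
open scoped MatrixGroups
open Fermat.Agent.S21.GroupBound (Orb omk omk_smul omk_surj kel kel_mul kel_one coe_kel_of_fixed
  x0 smul_x0 out_smul_x0 x0_out_mem mem_smul_x0 S_pow_four ST_pow_six)

namespace Fermat.Agent.S16.GroupBoundF

section Abstract

variable {G X : Type*} [Group G] [MulAction G X]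
variable {F : Type*} [Field F]

theorem omk_pow_smul (a : G) (i : ℕ) (x : X) : omk a (a ^ i • x) = omk a x := by
  induction i with
  | zero => simp
  | succ i ih => rw [pow_succ', mul_smul, omk_smul, ih]

variable [Fintype X]

theorem minimalPeriod_pos (a : G) (x₀ : X) : 0 < Function.minimalPeriod (a • ·) x₀ := by
  classical
  apply Function.minimalPeriod_pos_of_mem_periodicPts
  refine ⟨orderOf (MulAction.toPermHom G X a), orderOf_pos _, ?_⟩
  rw [MulAction.isPeriodicPt_smul_iff]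
  have h1 : (MulAction.toPermHom G X a) ^ orderOf (MulAction.toPermHom G X a) = 1 :=
    pow_orderOf_eq_one _
  rw [← map_pow] at h1
  have h2 := congrArg (fun e : Equiv.Perm X => e x₀) h1
  simpa using h2

theorem fiber_eq [DecidableEq X] (a : G) [DecidableEq (Orb X a)] (x₀ : X) :
    (Finset.univ.filter fun x => omk a x = omk a x₀) =
      (Finset.range (Function.minimalPeriod (a • ·) x₀)).image (fun i => a ^ i • x₀) := by
  ext x
  simp only [Finset.mem_filter, Finset.mem_univ, true_and, Finset.mem_image, Finset.mem_range]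
  constructor
  · intro h
    have h1 : x ∈ MulAction.orbit (Subgroup.zpowers a) x₀ := Quotient.exact' h
    obtain ⟨⟨g, k, rfl⟩, rfl⟩ := h1
    have hm := minimalPeriod_pos a x₀
    refine ⟨(k % (Function.minimalPeriod (a • ·) x₀ : ℤ)).toNat, ?_, ?_⟩
    · have := Int.emod_lt_of_pos k (by exact_mod_cast hm : (0:ℤ) < Function.minimalPeriod (a • ·) x₀)
      have h0 := Int.emod_nonneg k (by exact_mod_cast hm.ne' : (Function.minimalPeriod (a • ·) x₀ : ℤ) ≠ 0)
      omega
    · have h0 := Int.emod_nonneg k (by exact_mod_cast hm.ne' : (Function.minimalPeriod (a • ·) x₀ : ℤ) ≠ 0)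
      rw [← zpow_natCast, Int.toNat_of_nonneg h0, MulAction.zpow_smul_mod_minimalPeriod]
      rfl
  · rintro ⟨i, -, rfl⟩
    exact omk_pow_smul a i x₀

theorem sum_mul_eq_zero_of_orbit (a : G) (t h : X → F) (hh : ∀ x, h (a • x) = h x)
    (ht : ∀ (n : ℕ) (x : X), a ^ n • x = x → ∑ i ∈ Finset.range n, t (a ^ i • x) = 0) :
    ∑ x, h x * t x = 0 := by
  classical
  have : Fintype (Orb X a) := Fintype.ofFinite _
  rw [← Finset.sum_fiberwise Finset.univ (omk a)]
  refine Finset.sum_eq_zero fun q _ => ?_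
  obtain ⟨x₀, rfl⟩ := omk_surj a q
  rw [fiber_eq, Finset.sum_image]
  · have hhpow : ∀ (i : ℕ), h (a ^ i • x₀) = h x₀ := by
      intro i
      induction i with
      | zero => simp
      | succ i ih => rw [pow_succ', mul_smul, hh, ih]
    simp only [hhpow]
    rw [← Finset.mul_sum, ht _ x₀ (MulAction.pow_smul_eq_iff_minimalPeriod_dvd.mpr dvd_rfl), mul_zero]
  · intro i hi j hj hij
    simp only [Finset.coe_range, Set.mem_Iio] at hi hj
    have h1 : (a • ·)^[i] x₀ = (a • ·)^[j] x₀ := by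
      simpa [smul_iterate] using hij
    exact (Function.iterate_eq_iterate_iff_of_lt_minimalPeriod hi hj).mp h1

/-- the pairing between orbit functions and pairs of functions -/
noncomputable def pairing (S T U : G) :
    ((Orb X S → F) × (Orb X U → F) × (Orb X T → F)) →ₗ[F] Module.Dual F ((X → F) × (X → F)) :=
  LinearMap.mk₂ F (fun d e => ∑ x, (d.1 (omk S x) * e.1 x + d.2.1 (omk U x) * e.2 x
      + d.2.2 (omk T x) * (e.2 x - e.1 (T • x))))
    (by
      intro d d' e
      rw [← Finset.sum_add_distrib]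
      refine Finset.sum_congr rfl fun x _ => ?_
      simp only [Prod.fst_add, Prod.snd_add, Pi.add_apply]
      ring)
    (by
      intro c d e
      rw [smul_eq_mul, Finset.mul_sum]
      refine Finset.sum_congr rfl fun x _ => ?_
      simp only [Prod.smul_fst, Prod.smul_snd, Pi.smul_apply, smul_eq_mul]
      ring)
    (by
      intro d e e'
      rw [← Finset.sum_add_distrib]
      refine Finset.sum_congr rfl fun x _ => ?_
      simp only [Prod.fst_add, Prod.snd_add, Pi.add_apply]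
      ring)
    (by
      intro c d e
      rw [smul_eq_mul, Finset.mul_sum]
      refine Finset.sum_congr rfl fun x _ => ?_
      simp only [Prod.smul_fst, Prod.smul_snd, Pi.smul_apply, smul_eq_mul]
      ring)

theorem pairing_apply (S T U : G) (d : (Orb X S → F) × (Orb X U → F) × (Orb X T → F))
    (e : (X → F) × (X → F)) :
    pairing S T U d e = ∑ x, (d.1 (omk S x) * e.1 x + d.2.1 (omk U x) * e.2 x
      + d.2.2 (omk T x) * (e.2 x - e.1 (T • x))) := rfl

/-- the constraint space -/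
noncomputable def Wsub (S T U : G) : Submodule F ((X → F) × (X → F)) :=
  (LinearMap.range (pairing (F := F) (X := X) S T U)).dualCoannihilator

theorem mem_Wsub_of (S T U : G) (α β : X → F)
    (hS : ∀ h : X → F, (∀ x, h (S • x) = h x) → ∑ x, h x * α x = 0)
    (hU : ∀ h : X → F, (∀ x, h (U • x) = h x) → ∑ x, h x * β x = 0)
    (hT : ∀ h : X → F, (∀ x, h (T • x) = h x) → ∑ x, h x * (β x - α (T • x)) = 0) :
    (α, β) ∈ Wsub S T U := by
  rw [Wsub, Submodule.mem_dualCoannihilator]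
  rintro _ ⟨d, rfl⟩
  rw [pairing_apply, Finset.sum_add_distrib, Finset.sum_add_distrib,
    hS (fun x => d.1 (omk S x)) (fun x => by simp only [omk_smul]),
    hU (fun x => d.2.1 (omk U x)) (fun x => by simp only [omk_smul]),
    hT (fun x => d.2.2 (omk T x)) (fun x => by simp only [omk_smul])]
  simp

theorem pairing_ker_aux [DecidableEq X] (S T U : G)
    (d : (Orb X S → F) × (Orb X U → F) × (Orb X T → F)) (hd : pairing S T U d = 0) (y : X) :
    d.1 (omk S y) = d.2.2 (omk T y) ∧ d.2.1 (omk U y) = - d.2.2 (omk T y) := by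
  constructor
  · have h := LinearMap.congr_fun hd (Pi.single y 1, 0)
    rw [pairing_apply] at h
    simp only [Pi.zero_apply, mul_zero, add_zero, zero_sub, mul_neg, LinearMap.zero_apply,
      Finset.sum_add_distrib, Finset.sum_neg_distrib] at h
    have h1 : ∑ x, d.1 (omk S x) * (Pi.single y (1:F) : X → F) x = d.1 (omk S y) := by
      simp [Pi.single_apply]
    have h2 : ∑ x, d.2.2 (omk T x) * (Pi.single y (1:F) : X → F) (T • x) = d.2.2 (omk T y) := by
      rw [← Equiv.sum_comp (MulAction.toPerm T⁻¹)]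
      simp only [MulAction.toPerm_apply, smul_inv_smul]
      have : ∀ x : X, omk T (T⁻¹ • x) = omk T x := fun x => by
        conv_rhs => rw [← smul_inv_smul T x, omk_smul]
      simp [Pi.single_apply, this]
    rw [h1, h2] at h
    linear_combination h
  · have h := LinearMap.congr_fun hd (0, Pi.single y 1)
    rw [pairing_apply] at h
    simp only [Pi.zero_apply, mul_zero, zero_add, sub_zero, LinearMap.zero_apply,
      Finset.sum_add_distrib] at h
    have h1 : ∑ x, d.2.1 (omk U x) * (Pi.single y (1:F) : X → F) x = d.2.1 (omk U y) := by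
      simp [Pi.single_apply]
    have h2 : ∑ x, d.2.2 (omk T x) * (Pi.single y (1:F) : X → F) x = d.2.2 (omk T y) := by
      simp [Pi.single_apply]
    rw [h1, h2] at h
    linear_combination h

theorem finrank_ker_pairing_le (S T U : G) (x₀ : X)
    (hconst : ∀ n : X → F, (∀ x, n (S • x) = n x) → (∀ x, n (T • x) = n x) → ∀ x, n x = n x₀) :
    Module.finrank F (LinearMap.ker (pairing (F := F) (X := X) S T U)) ≤ 1 := by
  classical
  let ev : LinearMap.ker (pairing (F := F) (X := X) S T U) →ₗ[F] F :=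
    { toFun := fun d => d.1.2.2 (omk T x₀)
      map_add' := fun d d' => rfl
      map_smul' := fun c d => rfl }
  have hinj : Function.Injective ev := by
    rw [← LinearMap.ker_eq_bot, LinearMap.ker_eq_bot']
    rintro ⟨d, hd⟩ h0
    rw [LinearMap.mem_ker] at hd
    have h0' : d.2.2 (omk T x₀) = 0 := h0
    have haux := pairing_ker_aux S T U d hd
    have hn : ∀ x, d.2.2 (omk T x) = 0 := by
      intro x
      rw [hconst (fun x => d.2.2 (omk T x)) (fun x => by
        rw [← (haux (S • x)).1, ← (haux x).1, omk_smul]) (fun x => by simp only [omk_smul]) x, h0']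
    apply Subtype.ext
    show d = 0
    refine Prod.ext ?_ (Prod.ext ?_ ?_)
    · funext o
      obtain ⟨x, rfl⟩ := omk_surj S o
      rw [(haux x).1, hn]; rfl
    · funext o
      obtain ⟨x, rfl⟩ := omk_surj U o
      rw [(haux x).2, hn]; simp
    · funext o
      obtain ⟨x, rfl⟩ := omk_surj T o
      rw [hn]; rfl
  have := LinearMap.finrank_le_finrank_of_injective hinj
  simpa using this

theorem finrank_Wsub_le (S T U : G) (x₀ : X)
    (hconst : ∀ n : X → F, (∀ x, n (S • x) = n x) → (∀ x, n (T • x) = n x) → ∀ x, n x = n x₀) :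
    Module.finrank F (Wsub (F := F) (X := X) S T U) + (Nat.card (Orb X S) + Nat.card (Orb X U)
      + Nat.card (Orb X T)) ≤ 2 * Nat.card X + 1 := by
  classical
  have : Fintype (Orb X S) := Fintype.ofFinite _
  have : Fintype (Orb X U) := Fintype.ofFinite _
  have : Fintype (Orb X T) := Fintype.ofFinite _
  have h1 := Subspace.finrank_add_finrank_dualCoannihilator_eq
    (LinearMap.range (pairing (F := F) (X := X) S T U))
  have h2 := LinearMap.finrank_range_add_finrank_ker (pairing (F := F) (X := X) S T U)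
  have h3 := finrank_ker_pairing_le S T U x₀ hconst
  rw [Module.finrank_prod, Module.finrank_fintype_fun_eq_card] at h1
  rw [Module.finrank_prod, Module.finrank_prod, Module.finrank_fintype_fun_eq_card,
    Module.finrank_fintype_fun_eq_card, Module.finrank_fintype_fun_eq_card] at h2
  simp only [Nat.card_eq_fintype_card]
  have h4 : Module.finrank F (Wsub (F := F) (X := X) S T U)
    = Module.finrank F (LinearMap.range (pairing (F := F) (X := X) S T U)).dualCoannihilator := rfl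
  omega

end Abstract

variable {F : Type*} [Field F]
variable (Γ : Subgroup SL(2, ℤ))

/-- the (Shapiro) cocycle attached to `ψ` -/
noncomputable def coc (ψ : Additive Γ →+ F) (a : SL(2, ℤ)) (x : SL(2, ℤ) ⧸ Γ) : F :=
  ψ (Additive.ofMul (kel Γ a x))

theorem coc_mul (ψ : Additive Γ →+ F) (a b : SL(2, ℤ)) (x : SL(2, ℤ) ⧸ Γ) :
    coc Γ ψ (a * b) x = coc Γ ψ a (b • x) + coc Γ ψ b x := by
  simp only [coc, kel_mul, ofMul_mul, map_add]

theorem coc_one (ψ : Additive Γ →+ F) (x : SL(2, ℤ) ⧸ Γ) : coc Γ ψ 1 x = 0 := by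
  simp only [coc, kel_one, ofMul_one, map_zero]

theorem coc_pow (ψ : Additive Γ →+ F) (a : SL(2, ℤ)) (n : ℕ) (x : SL(2, ℤ) ⧸ Γ) :
    coc Γ ψ (a ^ n) x = ∑ i ∈ Finset.range n, coc Γ ψ a (a ^ i • x) := by
  induction n with
  | zero => simp [coc_one]
  | succ n ih => rw [pow_succ', coc_mul, ih, Finset.sum_range_succ, add_comm]


theorem coc_T_pow_eq_zero {ψ : Additive Γ →+ F} (hψ : IsParabolicHom Γ ψ) (n : ℕ)
    {x : SL(2, ℤ) ⧸ Γ} (hx : ModularGroup.T ^ n • x = x) : coc Γ ψ (ModularGroup.T ^ n) x = 0 := by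
  apply hψ
  rw [coe_kel_of_fixed Γ hx]
  have h1 : ((x.out⁻¹ * ModularGroup.T ^ n * x.out : SL(2, ℤ)) : Matrix (Fin 2) (Fin 2) ℤ).trace
      = ((ModularGroup.T ^ n : SL(2, ℤ)) : Matrix (Fin 2) (Fin 2) ℤ).trace := by
    rw [Matrix.SpecialLinearGroup.coe_mul, Matrix.trace_mul_comm,
      ← Matrix.SpecialLinearGroup.coe_mul, mul_inv_cancel_left]
  rw [h1, ← zpow_natCast, ModularGroup.coe_T_zpow]
  simp [Matrix.trace_fin_two]



/-- the cocycle attached to `ψ`, twisted by the coboundary of `v` -/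
noncomputable def tw (ψ : Additive Γ →+ F) (v : SL(2, ℤ) ⧸ Γ → F) (a : SL(2, ℤ))
    (x : SL(2, ℤ) ⧸ Γ) : F :=
  coc Γ ψ a x + (v (a • x) - v x)

theorem tw_mul (ψ : Additive Γ →+ F) (v : SL(2, ℤ) ⧸ Γ → F) (a b : SL(2, ℤ))
    (x : SL(2, ℤ) ⧸ Γ) : tw Γ ψ v (a * b) x = tw Γ ψ v a (b • x) + tw Γ ψ v b x := by
  simp only [tw, coc_mul, mul_smul]
  ring

theorem tw_one (ψ : Additive Γ →+ F) (v : SL(2, ℤ) ⧸ Γ → F) (x : SL(2, ℤ) ⧸ Γ) :
    tw Γ ψ v 1 x = 0 := by
  simp [tw, coc_one]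

theorem tw_pow (ψ : Additive Γ →+ F) (v : SL(2, ℤ) ⧸ Γ → F) (a : SL(2, ℤ)) (n : ℕ)
    (x : SL(2, ℤ) ⧸ Γ) :
    tw Γ ψ v (a ^ n) x = ∑ i ∈ Finset.range n, tw Γ ψ v a (a ^ i • x) := by
  induction n with
  | zero => simp [tw_one]
  | succ n ih => rw [pow_succ', tw_mul, ih, Finset.sum_range_succ, add_comm]

theorem tw_eq_zero_of_gen {ψ : Additive Γ →+ F} {v : SL(2, ℤ) ⧸ Γ → F}
    (hS : ∀ x, tw Γ ψ v ModularGroup.S x = 0) (hT : ∀ x, tw Γ ψ v ModularGroup.T x = 0)
    (a : SL(2, ℤ)) (x : SL(2, ℤ) ⧸ Γ) : tw Γ ψ v a x = 0 := by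
  have ha : a ∈ Subgroup.closure {ModularGroup.S, ModularGroup.T} := by
    rw [SpecialLinearGroup.SL2Z_generators]; trivial
  induction ha using Subgroup.closure_induction generalizing x with
  | mem y hy =>
    rcases hy with rfl | hy
    · exact hS x
    · rw [Set.mem_singleton_iff] at hy
      subst hy
      exact hT x
  | one => exact tw_one Γ ψ v x
  | mul a b _ _ iha ihb => rw [tw_mul, iha, ihb, add_zero]
  | inv a _ iha =>
    have h := tw_mul Γ ψ v a a⁻¹ x
    rw [mul_inv_cancel, tw_one, iha, zero_add] at h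
    exact h.symm

theorem coc_mem_x0 (ψ : Additive Γ →+ F) (γ : Γ) :
    coc Γ ψ (γ : SL(2, ℤ)) (x0 Γ) = ψ (Additive.ofMul γ) := by
  have hk : kel Γ (γ : SL(2, ℤ)) (x0 Γ)
      = (⟨(x0 Γ).out, x0_out_mem Γ⟩ : Γ)⁻¹ * γ * ⟨(x0 Γ).out, x0_out_mem Γ⟩ := by
    apply Subtype.ext
    rw [coe_kel_of_fixed Γ (mem_smul_x0 Γ γ)]
    rfl
  rw [coc, hk, ofMul_mul, ofMul_mul, ofMul_inv, map_add, map_add, map_neg]
  ring

theorem eq_zero_of_tw_eq_zero {ψ : Additive Γ →+ F} {v : SL(2, ℤ) ⧸ Γ → F}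
    (h : ∀ a x, tw Γ ψ v a x = 0) : ψ = 0 ∧ ∀ x, v x = v (x0 Γ) := by
  have hψ : ψ = 0 := by
    ext γ
    have h1 := h (γ : SL(2, ℤ)) (x0 Γ)
    rw [tw, mem_smul_x0, sub_self, add_zero, coc_mem_x0] at h1
    simpa using h1
  refine ⟨hψ, fun x => ?_⟩
  have h1 := h x.out (x0 Γ)
  rw [tw, out_smul_x0, hψ] at h1
  simp only [coc, AddMonoidHom.zero_apply, zero_add] at h1
  linear_combination h1

theorem const_of_invariant (n : SL(2, ℤ) ⧸ Γ → F) (hS : ∀ x, n (ModularGroup.S • x) = n x)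
    (hT : ∀ x, n (ModularGroup.T • x) = n x) (x : SL(2, ℤ) ⧸ Γ) : n x = n (x0 Γ) := by
  have key : ∀ (a : SL(2, ℤ)) (y : SL(2, ℤ) ⧸ Γ), n (a • y) = n y := by
    intro a
    have ha : a ∈ Subgroup.closure {ModularGroup.S, ModularGroup.T} := by
      rw [SpecialLinearGroup.SL2Z_generators]; trivial
    induction ha using Subgroup.closure_induction with
    | mem y hy =>
      rcases hy with rfl | hy
      · exact hS
      · rw [Set.mem_singleton_iff] at hy
        subst hy
        exact hT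
    | one => intro y; rw [one_smul]
    | mul a b _ _ iha ihb => intro y; rw [mul_smul, iha, ihb]
    | inv a _ iha => intro y; rw [← iha (a⁻¹ • y), smul_inv_smul]
  rw [← key x.out (x0 Γ), out_smul_x0]

theorem tw_add (ψ ψ' : Additive Γ →+ F) (v v' : SL(2, ℤ) ⧸ Γ → F) (a : SL(2, ℤ)) :
    tw Γ (ψ + ψ') (v + v') a = tw Γ ψ v a + tw Γ ψ' v' a := by
  funext x
  simp only [tw, coc, AddMonoidHom.add_apply, Pi.add_apply]
  ring

theorem tw_smul (c : F) (ψ : Additive Γ →+ F) (v : SL(2, ℤ) ⧸ Γ → F) (a : SL(2, ℤ)) :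
    tw Γ (c • ψ) (c • v) a = c • tw Γ ψ v a := by
  funext x
  simp only [tw, coc, AddMonoidHom.smul_apply, Pi.smul_apply, smul_eq_mul]
  ring


/-- homomorphisms killing the parabolic elements and the elements of finite order. -/
def cuspHoms (R : Type*) [Semiring R] (Γ : Subgroup SL(2, ℤ)) (A : Type*) [AddCommGroup A]
    [Module R A] : Submodule R (Additive Γ →+ A) where
  carrier := {φ | IsParabolicHom Γ φ ∧ ∀ γ : Γ, IsOfFinOrder γ → φ (Additive.ofMul γ) = 0}
  zero_mem' := ⟨fun _ _ => rfl, fun _ _ => rfl⟩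
  add_mem' := by
    rintro φ ψ ⟨hφ, hφ'⟩ ⟨hψ, hψ'⟩
    refine ⟨fun γ hγ => ?_, fun γ hγ => ?_⟩
    · show φ (Additive.ofMul γ) + ψ (Additive.ofMul γ) = 0
      rw [hφ γ hγ, hψ γ hγ, add_zero]
    · show φ (Additive.ofMul γ) + ψ (Additive.ofMul γ) = 0
      rw [hφ' γ hγ, hψ' γ hγ, add_zero]
  smul_mem' := by
    rintro c φ ⟨hφ, hφ'⟩
    refine ⟨fun γ hγ => ?_, fun γ hγ => ?_⟩
    · show c • φ (Additive.ofMul γ) = 0
      rw [hφ γ hγ, smul_zero]
    · show c • φ (Additive.ofMul γ) = 0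
      rw [hφ' γ hγ, smul_zero]

theorem coc_eq_zero_of_torsion {ψ : Additive Γ →+ F}
    (hψ : ∀ γ : Γ, IsOfFinOrder γ → ψ (Additive.ofMul γ) = 0) {a : SL(2, ℤ)} {m : ℕ} (hm : 0 < m)
    (ham : a ^ m = 1) {x : SL(2, ℤ) ⧸ Γ} (hx : a • x = x) : coc Γ ψ a x = 0 := by
  have hk : (kel Γ a x) ^ m = 1 := by
    apply Subtype.ext
    rw [Subgroup.coe_pow, coe_kel_of_fixed Γ hx]
    have : x.out⁻¹ * a * x.out = x.out⁻¹ * a * (x.out⁻¹)⁻¹ := by rw [inv_inv]
    rw [this, conj_pow, ham]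
    simp
  exact hψ _ (isOfFinOrder_iff_pow_eq_one.mpr ⟨m, hm, hk⟩)

section Final

variable [Fintype (SL(2, ℤ) ⧸ Γ)]

theorem sum_mul_tw_eq_zero (ψ : Additive Γ →+ F) (v : SL(2, ℤ) ⧸ Γ → F) (a : SL(2, ℤ))
    (hfix : ∀ (n : ℕ) (x : SL(2, ℤ) ⧸ Γ), a ^ n • x = x → coc Γ ψ (a ^ n) x = 0)
    (h : SL(2, ℤ) ⧸ Γ → F) (hh : ∀ x, h (a • x) = h x) :
    ∑ x, h x * tw Γ ψ v a x = 0 := by
  refine sum_mul_eq_zero_of_orbit a _ h hh fun n x hx => ?_
  rw [← tw_pow, tw, hfix n x hx, hx, sub_self, add_zero]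

theorem tw_pair_mem {ψ : Additive Γ →+ F} (hψ : ψ ∈ cuspHoms F Γ F) (v : SL(2, ℤ) ⧸ Γ → F) :
    (tw Γ ψ v ModularGroup.S, tw Γ ψ v (ModularGroup.S * ModularGroup.T)) ∈
      Wsub (F := F) (X := SL(2, ℤ) ⧸ Γ) ModularGroup.S ModularGroup.T
        (ModularGroup.S * ModularGroup.T) := by
  apply mem_Wsub_of
  · intro h hh
    refine sum_mul_tw_eq_zero Γ ψ v _ (fun n x hx => ?_) h hh
    exact coc_eq_zero_of_torsion Γ hψ.2 (m := 4) (by norm_num)
      (by rw [← pow_mul, mul_comm, pow_mul, S_pow_four, one_pow]) hx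
  · intro h hh
    refine sum_mul_tw_eq_zero Γ ψ v _ (fun n x hx => ?_) h hh
    exact coc_eq_zero_of_torsion Γ hψ.2 (m := 6) (by norm_num)
      (by rw [← pow_mul, mul_comm, pow_mul, ST_pow_six, one_pow]) hx
  · intro h hh
    have h1 := sum_mul_tw_eq_zero Γ ψ v ModularGroup.T
      (fun n x hx => coc_T_pow_eq_zero Γ hψ.1 n hx) h hh
    rw [← h1]
    refine Finset.sum_congr rfl fun x _ => ?_
    rw [tw_mul]
    ring

/-- the comparison map -/
noncomputable def Phi : (cuspHoms F Γ F × (SL(2, ℤ) ⧸ Γ → F)) →ₗ[F]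
    (Wsub (F := F) (X := SL(2, ℤ) ⧸ Γ) ModularGroup.S ModularGroup.T
      (ModularGroup.S * ModularGroup.T) × F) where
  toFun p := (⟨(tw Γ p.1.1 p.2 ModularGroup.S, tw Γ p.1.1 p.2 (ModularGroup.S * ModularGroup.T)),
    tw_pair_mem Γ p.1.2 p.2⟩, p.2 (x0 Γ))
  map_add' p q := by
    refine Prod.ext (Subtype.ext ?_) rfl
    refine Prod.ext ?_ ?_
    · exact tw_add Γ p.1.1 q.1.1 p.2 q.2 _
    · exact tw_add Γ p.1.1 q.1.1 p.2 q.2 _
  map_smul' c p := by
    refine Prod.ext (Subtype.ext ?_) rfl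
    refine Prod.ext ?_ ?_
    · exact tw_smul Γ c p.1.1 p.2 _
    · exact tw_smul Γ c p.1.1 p.2 _

theorem Phi_injective : Function.Injective (Phi (F := F) Γ) := by
  rw [← LinearMap.ker_eq_bot, LinearMap.ker_eq_bot']
  rintro ⟨⟨ψ, hψ⟩, v⟩ h0
  have h1 : tw Γ ψ v ModularGroup.S = 0 := congrArg (fun q => q.1.1.1) h0
  have h2 : tw Γ ψ v (ModularGroup.S * ModularGroup.T) = 0 := congrArg (fun q => q.1.1.2) h0
  have h3 : v (x0 Γ) = 0 := congrArg (fun q => q.2) h0
  have hS : ∀ x, tw Γ ψ v ModularGroup.S x = 0 := fun x => congrFun h1 x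
  have hT : ∀ x, tw Γ ψ v ModularGroup.T x = 0 := by
    intro x
    have := congrFun h2 x
    rw [tw_mul, hS, zero_add] at this
    exact this
  obtain ⟨hψ0, hv⟩ := eq_zero_of_tw_eq_zero Γ (tw_eq_zero_of_gen Γ hS hT)
  refine Prod.ext (Subtype.ext hψ0) ?_
  funext x
  show v x = 0
  rw [hv x, h3]

theorem finiteDimensional_cusp : FiniteDimensional F (cuspHoms F Γ F) := by
  have hinj : Function.Injective ((Phi (F := F) Γ).comp (LinearMap.inl F (cuspHoms F Γ F)
      (SL(2, ℤ) ⧸ Γ → F))) :=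
    (Phi_injective Γ).comp LinearMap.inl_injective
  exact FiniteDimensional.of_injective _ hinj

theorem finrank_cusp_add_le :
    Module.finrank F (cuspHoms F Γ F) + (Nat.card (Orb (SL(2, ℤ) ⧸ Γ) ModularGroup.S)
      + Nat.card (Orb (SL(2, ℤ) ⧸ Γ) (ModularGroup.S * ModularGroup.T))
      + Nat.card (Orb (SL(2, ℤ) ⧸ Γ) ModularGroup.T)) ≤ Nat.card (SL(2, ℤ) ⧸ Γ) + 2 := by
  have := finiteDimensional_cusp (F := F) Γ
  have h1 := LinearMap.finrank_le_finrank_of_injective (Phi_injective (F := F) Γ)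
  rw [Module.finrank_prod, Module.finrank_prod, Module.finrank_fintype_fun_eq_card,
    Module.finrank_self, ← Nat.card_eq_fintype_card] at h1
  have h2 := finrank_Wsub_le (F := F) (X := SL(2, ℤ) ⧸ Γ) ModularGroup.S ModularGroup.T
    (ModularGroup.S * ModularGroup.T) (x0 Γ) (const_of_invariant Γ)
  omega

end Final

end Fermat.Agent.S16.GroupBoundF

namespace Fermat.Agent.S16

open CongruenceSubgroup Fermat.Agent.S21 GroupBoundF

theorem finiteDimensional_cuspHoms (F : Type*) [Field F] (N : ℕ) [NeZero N] :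
    FiniteDimensional F (cuspHoms F (Gamma0 N) F) := by
  have : Fintype (SL(2, ℤ) ⧸ Gamma0 N) := Fintype.ofFinite _
  exact finiteDimensional_cusp (Gamma0 N)

theorem finrank_cuspHoms_le (F : Type*) [Field F] (N : ℕ) [NeZero N] :
    (Module.finrank F (cuspHoms F (Gamma0 N) F) : ℤ) ≤ twoGenus N := by
  have : Fintype (SL(2, ℤ) ⧸ Gamma0 N) := Fintype.ofFinite _
  have h : Module.finrank F (cuspHoms F (Gamma0 N) F)
      + (Nat.card (MulAction.orbitRel.Quotient (Subgroup.zpowers ModularGroup.S)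
          (SL(2, ℤ) ⧸ Gamma0 N))
      + Nat.card (MulAction.orbitRel.Quotient
          (Subgroup.zpowers (ModularGroup.S * ModularGroup.T)) (SL(2, ℤ) ⧸ Gamma0 N))
      + Nat.card (MulAction.orbitRel.Quotient (Subgroup.zpowers ModularGroup.T)
          (SL(2, ℤ) ⧸ Gamma0 N)))
      ≤ Nat.card (SL(2, ℤ) ⧸ Gamma0 N) + 2 := finrank_cusp_add_le (F := F) (Gamma0 N)
  unfold twoGenus orbitCount
  omega

end Fermat.Agent.S16
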