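import Fermat.Agent.S16.AbLift
import Fermat.Agent.S16.GroupBoundF
import Fermat.Agent.S21.Upper
import Fermat.Agent.S20.Lower

/-!
# Parabolic `ℤ`-lifts of homomorphisms `Γ₀(N) → ℤ/n`
-/

set_option autoImplicit false
open ModularCurve.Period CongruenceSubgroup
open scoped MatrixGroups

namespace Fermat.Agent.S16

section Quot

variable {G : Type*} [Group G] (P : Set G)

/-- the abelian group `G^ab / ⟨P⟩`. -/
abbrev QA : Type _ := Additive (Abelianization G) ⧸
  AddSubgroup.closure ((fun g => Additive.ofMul (Abelianization.of g)) '' P)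

/-- the projection `G → G^ab / ⟨P⟩`. -/
def projQA : Additive G →+ QA P :=
  (QuotientAddGroup.mk' _).comp (MonoidHom.toAdditive Abelianization.of)

theorem projQA_surjective : Function.Surjective (projQA P) := by
  intro x
  obtain ⟨y, rfl⟩ := QuotientAddGroup.mk'_surjective _ x
  obtain ⟨g, hg⟩ := QuotientGroup.mk'_surjective _ (Additive.toMul y)
  refine ⟨Additive.ofMul g, ?_⟩
  have h1 : y = Additive.ofMul (Abelianization.of g) := by
    rw [← ofMul_toMul y]; exact congrArg Additive.ofMul hg.symm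
  rw [h1]; rfl

theorem projQA_of_mem {g : G} (hg : g ∈ P) : projQA P (Additive.ofMul g) = 0 := by
  refine (QuotientAddGroup.eq_zero_iff _).mpr (AddSubgroup.subset_closure ⟨g, hg, rfl⟩)

instance [Group.FG G] : AddGroup.FG (QA P) :=
  AddGroup.fg_of_surjective (projQA_surjective P)

theorem exists_descend {B : Type*} [AddCommGroup B] (ψ : Additive G →+ B)
    (hψ : ∀ g ∈ P, ψ (Additive.ofMul g) = 0) : ∃ ψ' : QA P →+ B, ψ'.comp (projQA P) = ψ := by
  let ψ₁ : Additive (Abelianization G) →+ B :=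
    MonoidHom.toAdditiveLeft (Abelianization.lift (AddMonoidHom.toMultiplicativeRight ψ))
  have h1 : ∀ g : G, ψ₁ (Additive.ofMul (Abelianization.of g)) = ψ (Additive.ofMul g) := by
    intro g
    show Multiplicative.toAdd (Abelianization.lift (AddMonoidHom.toMultiplicativeRight ψ)
      (Abelianization.of g)) = _
    rw [Abelianization.lift_apply_of]
    rfl
  have h2 : AddSubgroup.closure ((fun g => Additive.ofMul (Abelianization.of g)) '' P)
      ≤ ψ₁.ker := by
    rw [AddSubgroup.closure_le]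
    rintro _ ⟨g, hg, rfl⟩
    show ψ₁ _ = 0
    rw [h1, hψ g hg]
  refine ⟨QuotientAddGroup.lift _ ψ₁ h2, ?_⟩
  ext g
  exact h1 g

/-- precomposition with the projection. -/
def compProj (R : Type*) [Semiring R] (B : Type*) [AddCommGroup B] [Module R B] :
    (QA P →+ B) →ₗ[R] (Additive G →+ B) where
  toFun φ := φ.comp (projQA P)
  map_add' _ _ := rfl
  map_smul' _ _ := rfl

theorem compProj_injective (R : Type*) [Semiring R] (B : Type*) [AddCommGroup B] [Module R B] :
    Function.Injective (compProj P R B) := by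
  intro φ φ' h
  refine AddMonoidHom.ext fun x => ?_
  obtain ⟨g, rfl⟩ := projQA_surjective P x
  exact DFunLike.congr_fun h g

theorem range_compProj (R : Type*) [Semiring R] (B : Type*) [AddCommGroup B] [Module R B]
    (W : Submodule R (Additive G →+ B))
    (hW : ∀ ψ, ψ ∈ W ↔ ∀ g ∈ P, ψ (Additive.ofMul g) = 0) :
    LinearMap.range (compProj P R B) = W := by
  ext ψ
  rw [hW]
  constructor
  · rintro ⟨φ, rfl⟩ g hg
    show φ (projQA P _) = 0
    rw [projQA_of_mem P hg, map_zero]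
  · intro h
    obtain ⟨ψ', h'⟩ := exists_descend P ψ h
    exact ⟨ψ', h'⟩

/-- `Hom(G^ab/⟨P⟩, B)` is the space of homomorphisms killing `P`. -/
noncomputable def homEquiv (R : Type*) [Ring R] (B : Type*) [AddCommGroup B] [Module R B]
    (W : Submodule R (Additive G →+ B))
    (hW : ∀ ψ, ψ ∈ W ↔ ∀ g ∈ P, ψ (Additive.ofMul g) = 0) : (QA P →+ B) ≃ₗ[R] W :=
  (LinearEquiv.ofInjective _ (compProj_injective P R B)).trans
    (LinearEquiv.ofEq _ _ (range_compProj P R B W hW))

end Quot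

open GroupBoundF Fermat.Agent.S21

/-- the parabolic elements and the elements of finite order. -/
def parEll (Γ : Subgroup SL(2, ℤ)) : Set Γ :=
  {γ | ((γ : SL(2, ℤ)) : Matrix (Fin 2) (Fin 2) ℤ).trace ^ 2 = 4 ∨ IsOfFinOrder γ}

theorem mem_cuspHoms_iff (R : Type*) [Semiring R] (Γ : Subgroup SL(2, ℤ)) (A : Type*)
    [AddCommGroup A] [Module R A] (ψ : Additive Γ →+ A) :
    ψ ∈ cuspHoms R Γ A ↔ ∀ g ∈ parEll Γ, ψ (Additive.ofMul g) = 0 := by
  constructor
  · rintro ⟨h1, h2⟩ g (hg | hg)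
    · exact h1 g hg
    · exact h2 g hg
  · intro h
    exact ⟨fun g hg => h g (Or.inl hg), fun g hg => h g (Or.inr hg)⟩

theorem parabolicHoms_le_cuspHoms (Γ : Subgroup SL(2, ℤ)) :
    parabolicHoms ℂ Γ ℂ ≤ cuspHoms ℂ Γ ℂ := by
  intro ψ hψ
  refine ⟨hψ, fun γ hγ => ?_⟩
  obtain ⟨m, hm, hk⟩ := isOfFinOrder_iff_pow_eq_one.mp hγ
  have h2 : m • ψ (Additive.ofMul γ) = 0 := by
    rw [← map_nsmul, ← ofMul_pow, hk, ofMul_one, map_zero]
  rw [nsmul_eq_mul] at h2
  rcases mul_eq_zero.mp h2 with h | h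
  · exact absurd (Nat.cast_eq_zero.mp h) hm.ne'
  · exact h

theorem groupFG_Gamma0 (N : ℕ) [NeZero N] : Group.FG (Gamma0 N) := by
  have : Group.FG SL(2, ℤ) := by
    rw [Group.fg_iff]
    exact ⟨{ModularGroup.S, ModularGroup.T}, _root_.SpecialLinearGroup.SL2Z_generators,
      by simp⟩
  infer_instance

theorem twoGenus_le_finrank_cuspHoms (N : ℕ) [NeZero N] :
    twoGenus N ≤ (Module.finrank ℂ (cuspHoms ℂ (Gamma0 N) ℂ) : ℤ) := by
  have h1 := Fermat.Agent.S20.twoGenus_le N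
  have h2 := two_mul_finrank_le N (finiteDimensional_parabolicHoms N)
  have := finiteDimensional_cuspHoms ℂ N
  have h3 := Submodule.finrank_mono (parabolicHoms_le_cuspHoms (Gamma0 N))
  omega

/-- **The parabolic `ℤ`-lift.** Every homomorphism `Γ₀(N) → ℤ/n` killing the parabolic elements
and the elements of finite order lifts to a parabolic homomorphism `Γ₀(N) → ℤ`. -/
theorem exists_parabolic_lift (N : ℕ) [NeZero N] (n : ℕ) (ψ : Additive (Gamma0 N) →+ ZMod n)
    (hpar : IsParabolicHom (Gamma0 N) ψ)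
    (hell : ∀ γ : Gamma0 N, IsOfFinOrder γ → ψ (Additive.ofMul γ) = 0) :
    ∃ Ψ : Additive (Gamma0 N) →+ ℤ, IsParabolicHom (Gamma0 N) Ψ ∧
      ∀ γ, ((Ψ γ : ℤ) : ZMod n) = ψ γ := by
  have := groupFG_Gamma0 N
  have hψ : ∀ g ∈ parEll (Gamma0 N), ψ (Additive.ofMul g) = 0 := by
    rintro g (hg | hg)
    · exact hpar g hg
    · exact hell g hg
  obtain ⟨ψ', hψ'⟩ := exists_descend (parEll (Gamma0 N)) ψ hψ
  obtain ⟨Ψ', hΨ'⟩ := exists_lift_of_finrank_le (QA (parEll (Gamma0 N))) (twoGenus N).toNat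
    (by
      rw [(homEquiv (parEll (Gamma0 N)) ℂ ℂ (cuspHoms ℂ (Gamma0 N) ℂ)
        (mem_cuspHoms_iff ℂ _ ℂ)).finrank_eq]
      have := twoGenus_le_finrank_cuspHoms N
      omega)
    (by
      intro ℓ _
      have e := homEquiv (parEll (Gamma0 N)) (ZMod ℓ) (ZMod ℓ)
        (cuspHoms (ZMod ℓ) (Gamma0 N) (ZMod ℓ)) (mem_cuspHoms_iff (ZMod ℓ) _ (ZMod ℓ))
      have hfd := finiteDimensional_cuspHoms (ZMod ℓ) N
      refine ⟨Module.Finite.equiv e.symm, ?_⟩
      rw [e.finrank_eq]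
      have := finrank_cuspHoms_le (ZMod ℓ) N
      omega)
    n ψ'
  refine ⟨Ψ'.comp (projQA _), fun γ hγ => ?_, fun γ => ?_⟩
  · show Ψ' (projQA _ _) = 0
    rw [projQA_of_mem (parEll (Gamma0 N)) (g := γ) (Or.inl hγ), map_zero]
  · rw [← hψ']
    exact hΨ' _

end Fermat.Agent.S16
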