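import Fermat.Agent.S16.LiftGen
import Fermat.Agent.S21.Primitive

/-!
# The parabolic `ℤ`-lift for `Γ₀(p)`
-/

set_option autoImplicit false

open Matrix ModularGroup CongruenceSubgroup
open scoped MatrixGroups

namespace Fermat.Agent.S16.Crossing

variable (p : ℕ) [hp : Fact p.Prime]

theorem mem_Gamma0_iff_dvd (g : SL(2, ℤ)) : g ∈ Gamma0 p ↔ (p : ℤ) ∣ g 1 0 := by
  rw [Gamma0_mem, ZMod.intCast_zmod_eq_zero_iff_dvd]

theorem S_inv_mul_apply (g : SL(2, ℤ)) : (S⁻¹ * g) 1 0 = - g 0 0 ∧ (S⁻¹ * g) 0 0 = g 1 0 := by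
  simp [Matrix.SpecialLinearGroup.coe_mul, Matrix.SpecialLinearGroup.coe_inv, coe_S,
    Matrix.adjugate_fin_two, Matrix.mul_apply, Fin.sum_univ_two]

theorem T_zpow_mul_apply (k : ℤ) (g : SL(2, ℤ)) :
    (T ^ k * g) 0 0 = g 0 0 + k * g 1 0 ∧ (T ^ k * g) 1 0 = g 1 0 := by
  simp [Matrix.SpecialLinearGroup.coe_mul, coe_T_zpow, Matrix.mul_apply, Fin.sum_univ_two]

theorem entry_conj (k : ℤ) (g : SL(2, ℤ)) : (S⁻¹ * T ^ k * g) 1 0 = - (g 0 0 + k * g 1 0) := by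
  rw [mul_assoc, (S_inv_mul_apply _).1, (T_zpow_mul_apply k g).1]

theorem S_apply : (S : SL(2, ℤ)) 0 0 = 0 ∧ (S : SL(2, ℤ)) 1 0 = 1 := by
  simp [coe_S]

/-- representatives of `Γ₀(p) \ SL₂(ℤ)`. -/
def rep : Option (Fin p) → SL(2, ℤ)
  | none => 1
  | some i => S⁻¹ * T ^ ((i : ℕ) : ℤ)

/-- the corresponding points of `SL₂(ℤ) ⧸ Γ₀(p)`. -/
def repQ (o : Option (Fin p)) : SL(2, ℤ) ⧸ Gamma0 p := (((rep p o)⁻¹ : SL(2, ℤ)) : SL(2, ℤ) ⧸ Gamma0 p)

theorem repQ_eq_mk_iff (o : Option (Fin p)) (g : SL(2, ℤ)) :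
    repQ p o = (g : SL(2, ℤ) ⧸ Gamma0 p) ↔ rep p o * g ∈ Gamma0 p := by
  rw [repQ, QuotientGroup.eq, inv_inv]

theorem repQ_surjective : Function.Surjective (repQ p) := by
  intro x
  induction x using QuotientGroup.induction_on with
  | H g =>
    by_cases hg : (p : ℤ) ∣ g 1 0
    · exact ⟨none, (repQ_eq_mk_iff p _ _).mpr (by
        rw [rep, one_mul]; exact (mem_Gamma0_iff_dvd p g).mpr hg)⟩
    · have hc : ((g 1 0 : ℤ) : ZMod p) ≠ 0 := by
        rwa [Ne, ZMod.intCast_zmod_eq_zero_iff_dvd]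
      have : NeZero p := ⟨hp.out.ne_zero⟩
      set t : ZMod p := - ((g 0 0 : ℤ) : ZMod p) / ((g 1 0 : ℤ) : ZMod p) with ht
      refine ⟨some ⟨t.val, t.val_lt⟩, (repQ_eq_mk_iff p _ _).mpr ?_⟩
      rw [mem_Gamma0_iff_dvd, rep, entry_conj, dvd_neg, ← ZMod.intCast_zmod_eq_zero_iff_dvd]
      push_cast
      rw [ZMod.natCast_zmod_val, ht, div_mul_cancel₀ _ hc]
      ring

theorem repQ_injective : Function.Injective (repQ p) := by
  have hp1 : ¬ (p : ℤ) ∣ 1 := by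
    intro h
    have := Int.natCast_dvd_natCast.mp (by simpa using h : (p : ℤ) ∣ ((1 : ℕ) : ℤ))
    exact hp.out.one_lt.ne' (Nat.dvd_one.mp this)
  have key : ∀ i : Fin p, ¬ (rep p (some i))⁻¹ ∈ Gamma0 p := by
    intro i h
    have h' := inv_mem h
    rw [inv_inv, mem_Gamma0_iff_dvd, rep] at h'
    have := entry_conj ((i : ℕ) : ℤ) 1
    rw [mul_one] at this
    rw [this] at h'
    simp at h'
    exact hp1 h'
  rintro (_ | i) (_ | j) h
  · rfl
  · exfalso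
    rw [repQ, repQ, QuotientGroup.eq] at h
    simp only [rep, inv_one, one_mul] at h
    exact key j h
  · exfalso
    have h' := h.symm
    rw [repQ, repQ, QuotientGroup.eq] at h'
    simp only [rep, inv_one, one_mul] at h'
    exact key i h'
  · have h : repQ p (some i) = (((rep p (some j))⁻¹ : SL(2, ℤ)) : SL(2, ℤ) ⧸ Gamma0 p) := h
    rw [repQ_eq_mk_iff, mem_Gamma0_iff_dvd, rep, rep, entry_conj] at h
    have e1 : ((S⁻¹ * T ^ ((j : ℕ) : ℤ))⁻¹ : SL(2, ℤ)) = T ^ (-((j : ℕ) : ℤ)) * S := by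
      rw [_root_.mul_inv_rev, inv_inv, _root_.zpow_neg]
    rw [e1, (T_zpow_mul_apply _ S).1, (T_zpow_mul_apply _ S).2, S_apply.1, S_apply.2] at h
    have h2 : (p : ℤ) ∣ (i : ℕ) - (j : ℕ) := by
      have : -(0 + -((j : ℕ) : ℤ) * 1 + ((i : ℕ) : ℤ) * 1) = -(((i : ℕ) : ℤ) - (j : ℕ)) := by ring
      rw [this, dvd_neg] at h
      exact h
    have hi := i.2
    have hj := j.2
    congr 1
    apply Fin.ext
    obtain ⟨q, hq⟩ := h2
    have hq0 : q = 0 := by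
      by_contra hne
      have : (p : ℤ) ≤ |(p : ℤ) * q| := by
        rw [abs_mul, Nat.abs_cast]
        have : 1 ≤ |q| := Int.one_le_abs hne
        nlinarith [Int.natCast_nonneg p]
      rw [← hq] at this
      have h3 : |((i : ℕ) : ℤ) - (j : ℕ)| < p := by
        rw [abs_lt]; constructor <;> omega
      omega
    rw [hq0] at hq
    omega

/-- the enumeration of the cosets. -/
noncomputable def repEquiv : Option (Fin p) ≃ SL(2, ℤ) ⧸ Gamma0 p :=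
  Equiv.ofBijective (repQ p) ⟨repQ_injective p, repQ_surjective p⟩

/-- right translation permutes the classes. -/
theorem sum_rep_mul (F : SL(2, ℤ) → ℤ) (hF : ∀ (γ : Gamma0 p) g, F (γ * g) = F g) (a : SL(2, ℤ)) :
    ∑ o, F (rep p o * a) = ∑ o, F (rep p o) := by
  classical
  let Ft : SL(2, ℤ) ⧸ Gamma0 p → ℤ := fun x => F (x.out⁻¹)
  have hFt : ∀ h : SL(2, ℤ), Ft (h : SL(2, ℤ) ⧸ Gamma0 p) = F h⁻¹ := by
    intro h
    obtain ⟨γ, hγ⟩ := QuotientGroup.mk_out_eq_mul (Gamma0 p) h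
    simp only [Ft, hγ, _root_.mul_inv_rev]
    exact hF γ⁻¹ h⁻¹
  haveI : Fintype (SL(2, ℤ) ⧸ Gamma0 p) := Fintype.ofEquiv _ (repEquiv p)
  have h1 : ∀ b : SL(2, ℤ), ∑ o, F (rep p o * b) = ∑ x, Ft (b⁻¹ • x) := by
    intro b
    rw [← Equiv.sum_comp (repEquiv p)]
    refine Finset.sum_congr rfl fun o _ => ?_
    have : b⁻¹ • (repEquiv p o) = (((rep p o * b)⁻¹ : SL(2, ℤ)) : SL(2, ℤ) ⧸ Gamma0 p) := by
      show b⁻¹ • repQ p o = _
      rw [repQ, _root_.mul_inv_rev]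
      rfl
    rw [this, hFt, inv_inv]
  have h2 := h1 1
  simp only [mul_one, inv_one, one_smul] at h2
  rw [h1 a, h2]
  exact Equiv.sum_comp (MulAction.toPerm a⁻¹) Ft

theorem sum_rep_eq_zero (J : SL(2, ℤ) → ℤ) (hJ1 : ∀ (γ : Gamma0 p) g, J (γ * g) = J g)
    (hJ2 : ∀ g, J (g * S) = - J g) (a : SL(2, ℤ)) : ∑ o, J (rep p o * a) = 0 := by
  rw [sum_rep_mul p J hJ1 a]
  have h := sum_rep_mul p J hJ1 S
  simp only [hJ2, Finset.sum_neg_distrib] at h
  omega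

omit hp in
theorem upper_eq (τ : SL(2, ℤ)) (h : τ 1 0 = 0) : ∃ k : ℤ, τ = T ^ k ∨ τ = S * S * T ^ k := by
  have hdet := det_eq' τ
  rw [h, mul_zero, sub_zero] at hdet
  rcases Int.mul_eq_one_iff_eq_one_or_neg_one.mp hdet with ⟨h0, h1⟩ | ⟨h0, h1⟩
  · refine ⟨τ 0 1, Or.inl ?_⟩
    ext i j
    fin_cases i <;> fin_cases j <;> simp [coe_T_zpow, h, h0, h1]
  · refine ⟨- τ 0 1, Or.inr ?_⟩
    ext i j
    fin_cases i <;> fin_cases j <;>
      simp [Matrix.SpecialLinearGroup.coe_mul, coe_S, coe_T_zpow, Matrix.mul_apply,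
        Fin.sum_univ_two, h, h0, h1]

theorem exists_parabolic_lift_prime (n : ℕ) (ψ : Additive (Gamma0 p) →+ ZMod n)
    (hpar : ModularCurve.Period.IsParabolicHom (Gamma0 p) ψ)
    (hell : ∀ γ : Gamma0 p, IsOfFinOrder γ → ψ (Additive.ofMul γ) = 0) :
    ∃ Ψ : Additive (Gamma0 p) →+ ℤ, ModularCurve.Period.IsParabolicHom (Gamma0 p) Ψ ∧
      ∀ γ, ((Ψ γ : ℤ) : ZMod n) = ψ γ := by
  have hSS : S * S ∈ Gamma0 p := by
    rw [mem_Gamma0_iff_dvd]
    simp [Matrix.SpecialLinearGroup.coe_mul, coe_S, Matrix.mul_apply, Fin.sum_univ_two]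
  have hT : T ∈ Gamma0 p := by
    rw [mem_Gamma0_iff_dvd]
    simp [coe_T]
  have hT' : S⁻¹ * T ^ (p : ℤ) * S ∈ Gamma0 p := by
    rw [mem_Gamma0_iff_dvd, entry_conj, S_apply.1, S_apply.2]
    simp
  obtain ⟨ν, J, N, hν1, hνU, hJ1, hJ2, hJ0, hN1, hNU, hNS, hNΓ, hNν⟩ :=
    exists_prim (Gamma0 p) hSS n ψ hell
  let Ψ : Additive (Gamma0 p) →+ ℤ :=
    AddMonoidHom.mk' (fun γ => N ((Additive.toMul γ : Gamma0 p) : SL(2, ℤ)))
      (fun a b => hNΓ (Additive.toMul a) (Additive.toMul b : Gamma0 p))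
  have hΨ : ∀ γ : Gamma0 p, Ψ (Additive.ofMul γ) = N (γ : SL(2, ℤ)) := fun _ => rfl
  -- `ψ T = 0`
  have hψT : ψ (Additive.ofMul (⟨T, hT⟩ : Gamma0 p)) = 0 := by
    apply hpar
    simp [coe_T, Matrix.trace_fin_two]
  have hνUinv : ∀ g, ν (g * Uu⁻¹) = ν g := fun g => by
    have := hνU (g * Uu⁻¹)
    rw [inv_mul_cancel_right] at this
    exact this.symm
  have hNUinv : ∀ g, N (g * Uu⁻¹) = N g := fun g => by
    have := hNU (g * Uu⁻¹)
    rw [inv_mul_cancel_right] at this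
    exact this.symm
  have hJU : J Uu⁻¹ = 0 := by
    apply hJ0
    have h1 : ν Uu⁻¹ = ν 1 := by simpa using hνUinv 1
    have h2 : ν (Uu⁻¹ * S) = ν 1 := by
      rw [← T_eq]
      have := hν1 ⟨T, hT⟩ 1
      rw [hψT, zero_add] at this
      simpa using this
    rw [h1, h2]
  have hNT : ∀ g, N (g * T) = N g - J (g * Uu⁻¹) := fun g => by
    rw [T_eq, ← mul_assoc, hNS, hNUinv]
  have hΨT : Ψ (Additive.ofMul (⟨T, hT⟩ : Gamma0 p)) = 0 := by
    rw [hΨ]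
    have := hNT 1
    simpa [hN1, hJU] using this
  have hΨSS : Ψ (Additive.ofMul (⟨S * S, hSS⟩ : Gamma0 p)) = 0 := by
    rw [hΨ]
    show N (S * S) = 0
    have h1 := hNS S
    have h2 := hNS 1
    have h3 := hJ2 1
    simp only [one_mul] at h2 h3
    rw [h1, h2, h3, hN1]; ring
  have hNpow : ∀ k : ℕ, N (S⁻¹ * T ^ (k : ℤ)) =
      N S⁻¹ - ∑ i ∈ Finset.range k, J (S⁻¹ * T ^ (i : ℤ) * Uu⁻¹) := by
    intro k
    induction k with
    | zero => simp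
    | succ k ih =>
      rw [Finset.sum_range_succ, Nat.cast_succ, _root_.zpow_add_one, ← mul_assoc, hNT, ih]
      ring
  have hΨT' : Ψ (Additive.ofMul (⟨S⁻¹ * T ^ (p : ℤ) * S, hT'⟩ : Gamma0 p)) = 0 := by
    rw [hΨ]
    show N (S⁻¹ * T ^ (p : ℤ) * S) = 0
    have h1 : N S⁻¹ = J S⁻¹ := by
      have := hNS S⁻¹
      rw [inv_mul_cancel, hN1] at this
      linarith
    have h2 : J (S⁻¹ * T ^ (p : ℤ)) = J S⁻¹ := by
      have := hJ1 ⟨S⁻¹ * T ^ (p : ℤ) * S, hT'⟩ S⁻¹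
      simpa using this
    have h3 := sum_rep_eq_zero p J hJ1 hJ2 Uu⁻¹
    rw [Fintype.sum_option] at h3
    simp only [rep, one_mul, hJU, zero_add] at h3
    rw [Fin.sum_univ_eq_sum_range (fun i : ℕ => J (S⁻¹ * T ^ (i : ℤ) * Uu⁻¹)) p] at h3
    rw [hNS, hNpow, h1, h2, h3]; ring
  refine ⟨Ψ, ?_, fun γ => ?_⟩
  · intro γ hγ
    obtain ⟨δ, hδ⟩ := Fermat.Agent.S21.exists_conj_upper (γ : SL(2, ℤ)) hγ
    obtain ⟨k, hk⟩ := upper_eq _ hδ
    obtain ⟨o, ho⟩ := repQ_surjective p ((δ⁻¹ : SL(2, ℤ)) : SL(2, ℤ) ⧸ Gamma0 p)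
    have ho' := (repQ_eq_mk_iff p o δ⁻¹).mp ho
    rcases o with _ | i
    · -- `δ ∈ Γ`
      have hδΓ : δ ∈ Gamma0 p := by
        have := inv_mem ho'
        simpa [rep] using this
      let d : Gamma0 p := ⟨δ, hδΓ⟩
      rcases hk with hk | hk
      · have : γ = d * (⟨T, hT⟩ : Gamma0 p) ^ k * d⁻¹ := by
          apply Subtype.ext
          show (γ : SL(2, ℤ)) = δ * T ^ k * δ⁻¹
          rw [← hk]; group
        rw [this]
        simp only [ofMul_mul, ofMul_inv, ofMul_zpow, map_add, map_neg, map_zsmul, hΨT]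
        simp
      · have : γ = d * ((⟨S * S, hSS⟩ : Gamma0 p) * (⟨T, hT⟩ : Gamma0 p) ^ k) * d⁻¹ := by
          apply Subtype.ext
          show (γ : SL(2, ℤ)) = δ * (S * S * T ^ k) * δ⁻¹
          rw [← hk]; group
        rw [this]
        simp only [ofMul_mul, ofMul_inv, ofMul_zpow, map_add, map_neg, map_zsmul, hΨT, hΨSS]
        simp
    · -- `δ ∉ Γ`
      simp only [rep] at ho'
      let g₁ : Gamma0 p := ⟨S⁻¹ * T ^ ((i : ℕ) : ℤ) * δ⁻¹, ho'⟩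
      let x : Gamma0 p := g₁ * γ * g₁⁻¹
      have hx : (x : SL(2, ℤ)) =
          S⁻¹ * T ^ ((i : ℕ) : ℤ) * (δ⁻¹ * γ * δ) * T ^ (-((i : ℕ) : ℤ)) * S := by
        show S⁻¹ * T ^ ((i : ℕ) : ℤ) * δ⁻¹ * (γ : SL(2, ℤ)) * (S⁻¹ * T ^ ((i : ℕ) : ℤ) * δ⁻¹)⁻¹ = _
        group
      have hΨx : Ψ (Additive.ofMul γ) = Ψ (Additive.ofMul x) := by
        simp only [x, ofMul_mul, ofMul_inv, map_add, map_neg]
        ring
      rw [hΨx]
      have hconj : ∀ q : ℤ, S⁻¹ * T ^ ((p : ℤ) * q) * S = (S⁻¹ * T ^ (p : ℤ) * S) ^ q := by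
        intro q
        rw [_root_.zpow_mul]
        have := conj_zpow (a := S⁻¹) (b := T ^ (p : ℤ)) (i := q)
        simpa using this.symm
      rcases hk with hk | hk
      · have hx' : (x : SL(2, ℤ)) = S⁻¹ * T ^ k * S := by
          rw [hx, hk]; group
        have hpk : (p : ℤ) ∣ k := by
          have := (mem_Gamma0_iff_dvd p _).mp x.2
          rw [hx', entry_conj, S_apply.1, S_apply.2] at this
          simpa using this
        obtain ⟨q, rfl⟩ := hpk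
        have : x = (⟨S⁻¹ * T ^ (p : ℤ) * S, hT'⟩ : Gamma0 p) ^ q := by
          apply Subtype.ext
          rw [hx', hconj]; rfl
        rw [this, ofMul_zpow, map_zsmul, hΨT', smul_zero]
      · have hx' : (x : SL(2, ℤ)) = S * S * (S⁻¹ * T ^ k * S) := by
          rw [hx, hk]
          have hc := SS_comm (S⁻¹ * T ^ ((i : ℕ) : ℤ))
          calc S⁻¹ * T ^ ((i : ℕ) : ℤ) * (S * S * T ^ k) * T ^ (-((i : ℕ) : ℤ)) * S
              = (S⁻¹ * T ^ ((i : ℕ) : ℤ) * S * S) * T ^ k * T ^ (-((i : ℕ) : ℤ)) * S := by group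
            _ = _ := by rw [hc]; group
        have hpk : (p : ℤ) ∣ k := by
          have h1 : S⁻¹ * T ^ k * S ∈ Gamma0 p := by
            have h2 := mul_mem (inv_mem hSS) x.2
            rw [hx', inv_mul_cancel_left] at h2
            exact h2
          rw [mem_Gamma0_iff_dvd, entry_conj, S_apply.1, S_apply.2] at h1
          simpa using h1
        obtain ⟨q, rfl⟩ := hpk
        have : x = (⟨S * S, hSS⟩ : Gamma0 p) * (⟨S⁻¹ * T ^ (p : ℤ) * S, hT'⟩ : Gamma0 p) ^ q := by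
          apply Subtype.ext
          rw [hx', hconj]; rfl
        rw [this, ofMul_mul, map_add, ofMul_zpow, map_zsmul, hΨT', hΨSS, smul_zero, add_zero]
  · have h1 : Ψ γ = N ((Additive.toMul γ : Gamma0 p) : SL(2, ℤ)) := rfl
    rw [h1, hNν]
    have := hν1 (Additive.toMul γ) 1
    rw [mul_one] at this
    rw [this]
    simp

end Fermat.Agent.S16.Crossing
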