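import Fermat.Agent.S16.Lower
import Fermat.Agent.S16.LiftPrime

set_option autoImplicit false

namespace Fermat.Agent.S16

open CongruenceSubgroup ModularCurve

/-- **The lower bound (L).** A Hecke polynomial killing `S₂(Γ₀(p))` has Eisenstein value divisible
by the Eisenstein numerator. -/
theorem lower (p : ℕ) [Fact p.Prime] (τ : HeckeAlg)
    (hτ : ∀ f : CuspForm (Gamma0 p) 2,
      ((CuspForm.heckeEvalForms p 2 τ : CuspForm.heckeAlgebra p 2 ∅) :
        Module.End ℂ (CuspForm (Gamma0 p) 2)) f = 0) :
    (eisensteinNumerator p : ℤ) ∣ MvPolynomial.aeval (eisensteinSystem p) τ :=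
  lower_of_lift p (fun n ψ hpar hell => Crossing.exists_parabolic_lift_prime p n ψ hpar hell) τ hτ

end Fermat.Agent.S16
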