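import Mathlib

set_option autoImplicit false

namespace Fermat.Agent.S16

/-- `σ'(k)`: the sum of the divisors of `k` that are prime to `p`. -/
def sigmaP (p k : ℕ) : ℕ := ∑ d ∈ k.divisors.filter (fun d => ¬ p ∣ d), d

end Fermat.Agent.S16
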