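import Mathlib
import Fermat.Prelude.Def_ModularForm_HeckeOperator
import Fermat.Prelude.Thm_CongruenceSubgroup_one_mem_strictPeriods_Gamma0

set_option autoImplicit false

namespace Fermat.Agent.S16

open UpperHalfPlane ModularForm MatrixGroups CongruenceSubgroup Matrix.SpecialLinearGroup
open EisensteinSeries
open scoped ModularForm Manifold

/-- The function `N E₂(Nτ) - E₂(τ)`. -/
noncomputable def eisFun (N : ℕ) : ℍ → ℂ := E2 ∣[(2 : ℤ)] heckeDiagMatrix N - E2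

theorem eisFun_apply (N : ℕ) (hN : N ≠ 0) (τ : ℍ) :
    eisFun N τ = (N : ℂ) * E2 (heckeDiagMatrix N • τ) - E2 τ := by
  rw [eisFun, Pi.sub_apply, slash_heckeDiagMatrix_apply _ hN]
  norm_num

theorem mdiff_eisFun (N : ℕ) : MDiff (eisFun N) :=
  (E2_mdifferentiable.slash 2 (heckeDiagMatrix N)).sub E2_mdifferentiable

/-- Hermite decomposition of `diag(N,1) γ`. -/
theorem exists_hermite (N : ℕ) (hN : N ≠ 0) (γ : SL(2, ℤ)) :
    ∃ (δ : SL(2, ℤ)) (β : GL (Fin 2) ℝ), β 1 0 = 0 ∧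
      heckeDiagMatrix N * mapGL ℝ γ = mapGL ℝ δ * β := by
  -- first column of `diag(N,1) γ`
  obtain ⟨a, ha⟩ : ∃ a : ℤ, a = γ 0 0 := ⟨_, rfl⟩
  obtain ⟨c, hc⟩ : ∃ c : ℤ, c = γ 1 0 := ⟨_, rfl⟩
  have hdet : γ 0 0 * γ 1 1 - γ 0 1 * γ 1 0 = 1 := by
    have := γ.det_coe
    rw [Matrix.det_fin_two] at this
    exact this
  have hne : ¬ ((N : ℤ) * a = 0 ∧ c = 0) := by
    rintro ⟨h1, h2⟩
    have hN' : (N : ℤ) ≠ 0 := by exact_mod_cast hN
    have ha0 : a = 0 := by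
      rcases mul_eq_zero.mp h1 with h | h
      · exact absurd h hN'
      · exact h
    rw [← ha, ← hc, ha0, h2] at hdet
    simp at hdet
  have hg : Int.gcd ((N : ℤ) * a) c ≠ 0 := by
    intro h
    exact hne (Int.gcd_eq_zero_iff.mp h)
  obtain ⟨g, hgdef⟩ : ∃ g : ℤ, g = ((Int.gcd ((N : ℤ) * a) c : ℕ) : ℤ) := ⟨_, rfl⟩
  obtain ⟨a₁, ha₁⟩ : g ∣ (N : ℤ) * a := hgdef ▸ Int.gcd_dvd_left _ _
  obtain ⟨c₁, hc₁⟩ : g ∣ c := hgdef ▸ Int.gcd_dvd_right _ _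
  have hg0 : g ≠ 0 := by rw [hgdef]; exact_mod_cast hg
  obtain ⟨u, v, huv⟩ : ∃ u v : ℤ, u * a₁ + v * c₁ = 1 := by
    have hb := Int.gcd_eq_gcd_ab ((N : ℤ) * a) c
    rw [← hgdef] at hb
    refine ⟨Int.gcdA ((N : ℤ) * a) c, Int.gcdB ((N : ℤ) * a) c, ?_⟩
    apply mul_left_cancel₀ hg0
    calc g * (Int.gcdA ((N : ℤ) * a) c * a₁ + Int.gcdB ((N : ℤ) * a) c * c₁)
        = (g * a₁) * Int.gcdA ((N : ℤ) * a) c + (g * c₁) * Int.gcdB ((N : ℤ) * a) c := by ring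
      _ = g * 1 := by rw [← ha₁, ← hc₁, mul_one]; exact hb.symm
  obtain ⟨δ, hδ⟩ : ∃ δ : SL(2, ℤ), (δ : Matrix (Fin 2) (Fin 2) ℤ) = !![a₁, -v; c₁, u] :=
    ⟨⟨!![a₁, -v; c₁, u], by rw [Matrix.det_fin_two_of]; linarith⟩, rfl⟩
  obtain ⟨ε, hε⟩ : ∃ ε : SL(2, ℤ), (ε : Matrix (Fin 2) (Fin 2) ℤ) = !![u, v; -c₁, a₁] :=
    ⟨⟨!![u, v; -c₁, a₁], by rw [Matrix.det_fin_two_of]; linarith⟩, rfl⟩
  have hδε : δ * ε = 1 := by
    apply Subtype.ext
    rw [Matrix.SpecialLinearGroup.coe_mul, hδ, hε, Matrix.SpecialLinearGroup.coe_one]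
    ext i j
    fin_cases i <;> fin_cases j <;> simp [Matrix.mul_apply, Fin.sum_univ_two] <;> linarith
  refine ⟨δ, mapGL ℝ ε * (heckeDiagMatrix N * mapGL ℝ γ), ?_, ?_⟩
  · have h1 : ((N : ℝ) * (a : ℝ)) = (g : ℝ) * (a₁ : ℝ) := by exact_mod_cast ha₁
    have h2 : (c : ℝ) = (g : ℝ) * (c₁ : ℝ) := by exact_mod_cast hc₁
    have e10 : ε 1 0 = -c₁ := by rw [hε]; rfl
    have e11 : ε 1 1 = a₁ := by rw [hε]; rfl
    simp [Matrix.mul_apply, Fin.sum_univ_two, val_heckeDiagMatrix hN, mapGL_coe_matrix, e10, e11,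
      Matrix.vecMul, dotProduct, ← ha, ← hc]
    rw [h2]
    linear_combination (-(c₁ : ℝ)) * h1
  · rw [← mul_assoc, ← map_mul, hδε, map_one, one_mul]

theorem isBoundedAtImInfty_D2 (γ : SL(2, ℤ)) : IsBoundedAtImInfty (D2 γ) := by
  rw [UpperHalfPlane.isBoundedAtImInfty_iff]
  refine ⟨2 * Real.pi, 1, fun z hz => ?_⟩
  rw [D2]
  by_cases hc : γ 1 0 = 0
  · simp [hc]; positivity
  · have hcR : (0 : ℝ) < |((γ 1 0 : ℤ) : ℝ)| := by
      rw [abs_pos]; exact_mod_cast hc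
    have hden : |((γ 1 0 : ℤ) : ℝ)| ≤ ‖denom γ z‖ := by
      calc |((γ 1 0 : ℤ) : ℝ)| ≤ |((γ 1 0 : ℤ) : ℝ)| * z.im := by nlinarith
        _ = |(denom γ z).im| := by
          simp [denom, abs_mul, abs_of_pos z.im_pos]
        _ ≤ ‖denom γ z‖ := Complex.abs_im_le_norm _
    rw [norm_div]
    rw [div_le_iff₀ (lt_of_lt_of_le hcR hden)]
    have : ‖2 * (Real.pi : ℂ) * Complex.I * ((γ 1 0 : ℤ) : ℂ)‖ =
        2 * Real.pi * |((γ 1 0 : ℤ) : ℝ)| := by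
      simp [abs_of_pos Real.pi_pos]
    rw [this]
    exact mul_le_mul_of_nonneg_left hden (by positivity)

theorem isBoundedAtImInfty_eisFun_slash (N : ℕ) (hN : N ≠ 0) (γ : SL(2, ℤ)) :
    IsBoundedAtImInfty (eisFun N ∣[(2 : ℤ)] γ) := by
  obtain ⟨δ, β, hβ, h⟩ := exists_hermite N hN γ
  have h1 : (E2 ∣[(2 : ℤ)] heckeDiagMatrix N) ∣[(2 : ℤ)] γ =
      (E2 - (1 / (2 * riemannZeta 2)) • D2 δ) ∣[(2 : ℤ)] β := by
    rw [← E2_slash_action, ModularForm.SL_slash, ModularForm.SL_slash,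
      ← SlashAction.slash_mul, ← SlashAction.slash_mul]
    change E2 ∣[(2 : ℤ)] (heckeDiagMatrix N * mapGL ℝ γ) = E2 ∣[(2 : ℤ)] (mapGL ℝ δ * β)
    rw [h]
  rw [eisFun, sub_eq_add_neg, SlashAction.add_slash, SlashAction.neg_slash, h1, E2_slash_action]
  have hD : ∀ ε : SL(2, ℤ), IsBoundedAtImInfty (E2 - (1 / (2 * riemannZeta 2)) • D2 ε) := fun ε =>
    isBoundedAtImInfty_E2.sub ((isBoundedAtImInfty_D2 ε).const_smul_left _)
  exact ((hD δ).slash 2 hβ).add (hD γ).neg_left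

/-- Conjugating an element of `Γ₀(N)` by `diag(N,1)`. -/
theorem exists_conj_Gamma0 (N : ℕ) (hN : N ≠ 0) (γ : SL(2, ℤ)) (hγ : γ ∈ Gamma0 N) :
    ∃ δ : SL(2, ℤ), (N : ℤ) * δ 1 0 = γ 1 0 ∧ δ 1 1 = γ 1 1 ∧
      heckeDiagMatrix N * mapGL ℝ γ = mapGL ℝ δ * heckeDiagMatrix N := by
  have hNR : (N : ℝ) ≠ 0 := by exact_mod_cast hN
  have hγ' : (N : ℤ) ∣ γ 1 0 := by
    have := (Gamma0_mem).mp hγ
    exact (ZMod.intCast_zmod_eq_zero_iff_dvd _ _).mp this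
  obtain ⟨c', hc'⟩ := hγ'
  have hdet : γ 0 0 * γ 1 1 - γ 0 1 * γ 1 0 = 1 := by
    have := γ.det_coe
    rw [Matrix.det_fin_two] at this
    exact this
  obtain ⟨δ, h00, h01, h10', h11⟩ : ∃ δ : SL(2, ℤ), δ 0 0 = γ 0 0 ∧ δ 0 1 = N * γ 0 1 ∧
      δ 1 0 = c' ∧ δ 1 1 = γ 1 1 := by
    refine ⟨⟨!![γ 0 0, N * γ 0 1; c', γ 1 1], ?_⟩, rfl, rfl, rfl, rfl⟩
    rw [Matrix.det_fin_two_of]
    rw [hc'] at hdet
    linarith
  refine ⟨δ, by rw [h10', hc'], h11, ?_⟩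
  apply Matrix.GeneralLinearGroup.ext
  intro i j
  have h10 : ((γ 1 0 : ℤ) : ℝ) = N * c' := by rw [hc']; push_cast; ring
  fin_cases i <;> fin_cases j <;>
    simp [Matrix.mul_apply, Fin.sum_univ_two, val_heckeDiagMatrix hN, mapGL_coe_matrix, h10,
      h00, h01, h10', h11] <;>
    ring

theorem D2_slash_heckeDiag (N : ℕ) (hN : N ≠ 0) (γ δ : SL(2, ℤ))
    (h10 : (N : ℤ) * δ 1 0 = γ 1 0) (h11 : δ 1 1 = γ 1 1) :
    D2 δ ∣[(2 : ℤ)] heckeDiagMatrix N = D2 γ := by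
  ext τ
  rw [slash_heckeDiagMatrix_apply _ hN, D2, D2]
  have h10' : ((γ 1 0 : ℤ) : ℂ) = (N : ℂ) * ((δ 1 0 : ℤ) : ℂ) := by
    rw [← h10]; push_cast; ring
  have hden : denom δ ((heckeDiagMatrix N • τ : ℍ) : ℂ) = denom γ (τ : ℂ) := by
    simp only [denom]
    rw [coe_heckeDiagMatrix_smul hN]
    simp [h11, h10']
    ring
  simp only [hden, h10']
  norm_num
  ring

theorem eisFun_slash (N : ℕ) (hN : N ≠ 0) (γ : SL(2, ℤ)) (hγ : γ ∈ Gamma0 N) :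
    eisFun N ∣[(2 : ℤ)] γ = eisFun N := by
  obtain ⟨δ, h10, h11, h⟩ := exists_conj_Gamma0 N hN γ hγ
  have h1 : (E2 ∣[(2 : ℤ)] heckeDiagMatrix N) ∣[(2 : ℤ)] γ =
      (E2 - (1 / (2 * riemannZeta 2)) • D2 δ) ∣[(2 : ℤ)] heckeDiagMatrix N := by
    rw [← E2_slash_action, ModularForm.SL_slash, ModularForm.SL_slash,
      ← SlashAction.slash_mul, ← SlashAction.slash_mul]
    change E2 ∣[(2 : ℤ)] (heckeDiagMatrix N * mapGL ℝ γ) =
      E2 ∣[(2 : ℤ)] (mapGL ℝ δ * heckeDiagMatrix N)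
    rw [h]
  rw [eisFun, sub_eq_add_neg, SlashAction.add_slash, SlashAction.neg_slash, h1, E2_slash_action,
    sub_eq_add_neg E2, SlashAction.add_slash, SlashAction.neg_slash, ModularForm.smul_slash,
    D2_slash_heckeDiag N hN γ δ h10 h11, σ_heckeDiagMatrix]
  simp only [ContinuousAlgEquiv.refl_apply]
  abel

/-- The weight two Eisenstein series `(N E₂(Nτ) - E₂(τ)) / 24` on `Γ₀(N)`. -/
noncomputable def eisP (N : ℕ) [NeZero N] : ModularForm (Gamma0 N) 2 where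
  toFun := (1 / 24 : ℂ) • eisFun N
  slash_action_eq' γ hγ := by
    obtain ⟨g, hg, rfl⟩ := hγ
    have h := eisFun_slash N (NeZero.ne N) g hg
    rw [ModularForm.SL_slash] at h
    change ((1 / 24 : ℂ) • eisFun N) ∣[(2 : ℤ)] (g : GL (Fin 2) ℝ) = _
    rw [← ModularForm.SL_slash, ModularForm.SL_smul_slash, eisFun_slash N (NeZero.ne N) g hg]
  holo' := (mdiff_eisFun N).const_smul _
  bdd_at_cusps' {c} hc := by
    have hc' : IsCusp c 𝒮ℒ := hc.mono (Subgroup.map_le_range _ _)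
    rw [OnePoint.isBoundedAt_iff_forall_SL2Z hc']
    intro γ _
    rw [ModularForm.SL_smul_slash]
    exact (isBoundedAtImInfty_eisFun_slash N (NeZero.ne N) γ).const_smul_left _

theorem eisP_apply (N : ℕ) [NeZero N] (τ : ℍ) :
    eisP N τ = (1 / 24 : ℂ) * ((N : ℂ) * E2 (heckeDiagMatrix N • τ) - E2 τ) := by
  change ((1 / 24 : ℂ) • eisFun N) τ = _
  rw [Pi.smul_apply, eisFun_apply N (NeZero.ne N), smul_eq_mul]

/-- The `q`-coefficients of `E₂`. -/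
noncomputable def coeffE2 (m : ℕ) : ℂ := if m = 0 then 1 else -24 * (ArithmeticFunction.sigma 1 m : ℂ)

theorem hasSum_E2_qParam (τ : ℍ) :
    HasSum (fun m : ℕ => coeffE2 m • Function.Periodic.qParam 1 (τ : ℂ) ^ m) (E2 τ) := by
  simpa only [Function.Periodic.qParam, Complex.ofReal_one, div_one, coeffE2] using
    hasSum_qExpansion_E2 (z := τ)

theorem qParam_heckeDiag' (N : ℕ) [NeZero N] (τ : ℍ) :
    Function.Periodic.qParam 1 ((heckeDiagMatrix N • τ : ℍ) : ℂ) =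
      Function.Periodic.qParam 1 (τ : ℂ) ^ N := by
  rw [coe_heckeDiagMatrix_smul (NeZero.ne N)]
  simp only [Function.Periodic.qParam]
  rw [← Complex.exp_nat_mul]
  congr 1
  simp
  ring

theorem hasSum_E2_heckeDiag (N : ℕ) [NeZero N] (τ : ℍ) :
    HasSum (fun n : ℕ => (if N ∣ n then coeffE2 (n / N) else 0) •
        Function.Periodic.qParam 1 (τ : ℂ) ^ n) (E2 (heckeDiagMatrix N • τ)) := by
  have hN : N ≠ 0 := NeZero.ne N
  have h1 := hasSum_E2_qParam (heckeDiagMatrix N • τ)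
  rw [qParam_heckeDiag'] at h1
  have hinj : Function.Injective (fun m : ℕ => N * m) := fun a b hab =>
    Nat.eq_of_mul_eq_mul_left (Nat.pos_of_ne_zero hN) hab
  rw [← hinj.hasSum_iff]
  · have hfun : ((fun n : ℕ => (if N ∣ n then coeffE2 (n / N) else 0) •
          Function.Periodic.qParam 1 (τ : ℂ) ^ n) ∘ fun m : ℕ => N * m) =
        fun i => coeffE2 i • (Function.Periodic.qParam 1 (τ : ℂ) ^ N) ^ i := by
      funext m
      simp [hN, pow_mul]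
    rw [hfun]
    exact h1
  · intro n hn
    have : ¬ N ∣ n := fun ⟨m, hm⟩ => hn ⟨m, hm.symm⟩
    simp [this]

/-- The `q`-coefficients of `eisP N`. -/
noncomputable def coeffEisP (N n : ℕ) : ℂ :=
  (1 / 24 : ℂ) * ((N : ℂ) * (if N ∣ n then coeffE2 (n / N) else 0) - coeffE2 n)

theorem hasSum_eisP (N : ℕ) [NeZero N] (τ : ℍ) :
    HasSum (fun n : ℕ => coeffEisP N n • Function.Periodic.qParam 1 (τ : ℂ) ^ n) (eisP N τ) := by
  rw [eisP_apply]
  have h := (((hasSum_E2_heckeDiag N τ).mul_left (N : ℂ)).sub (hasSum_E2_qParam τ)).mul_left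
    (1 / 24 : ℂ)
  have hfun : (fun n : ℕ => coeffEisP N n • Function.Periodic.qParam 1 (τ : ℂ) ^ n) =
      fun n : ℕ => (1 / 24 : ℂ) * ((N : ℂ) * ((if N ∣ n then coeffE2 (n / N) else 0) •
        Function.Periodic.qParam 1 (τ : ℂ) ^ n) -
          coeffE2 n • Function.Periodic.qParam 1 (τ : ℂ) ^ n) := by
    funext n
    simp only [coeffEisP, smul_eq_mul]
    ring
  rw [hfun]
  exact h

theorem qExpansion_eisP_coeff (N : ℕ) [NeZero N] (n : ℕ) :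
    (qExpansion 1 (eisP N)).coeff n = coeffEisP N n :=
  (ModularFormClass.qExpansion_coeff_unique one_pos
    (CongruenceSubgroup.one_mem_strictPeriods_Gamma0 N) (f := eisP N) (hasSum_eisP N) n).symm

theorem qExpansion_eisP_coeff_zero (N : ℕ) [NeZero N] :
    (qExpansion 1 (eisP N)).coeff 0 = ((N : ℂ) - 1) / 24 := by
  rw [qExpansion_eisP_coeff, coeffEisP]
  simp [coeffE2]
  ring

/-- `σ(k) = ∑_{d ∣ k, N ∤ d} d + [N ∣ k] N σ(k / N)`. -/
theorem sigma_eq_sum_filter_add (N k : ℕ) (hN : N ≠ 0) (hk : k ≠ 0) :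
    ArithmeticFunction.sigma 1 k =
      (∑ d ∈ k.divisors.filter (fun d => ¬ N ∣ d), d) +
        (if N ∣ k then N * ArithmeticFunction.sigma 1 (k / N) else 0) := by
  rw [ArithmeticFunction.sigma_one_apply,
    ← Finset.sum_filter_not_add_sum_filter k.divisors (fun d => N ∣ d)]
  congr 1
  split_ifs with h
  · obtain ⟨m, rfl⟩ := h
    have hm : m ≠ 0 := by rintro rfl; simp at hk
    rw [Nat.mul_div_cancel_left _ (Nat.pos_of_ne_zero hN), ArithmeticFunction.sigma_one_apply,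
      Finset.mul_sum]
    symm
    apply Finset.sum_bij (fun e _ => N * e)
    · intro e he
      rw [Finset.mem_filter, Nat.mem_divisors]
      exact ⟨⟨Nat.mul_dvd_mul_left N (Nat.dvd_of_mem_divisors he), hk⟩, Dvd.intro _ rfl⟩
    · intro a _ b _ hab
      exact Nat.eq_of_mul_eq_mul_left (Nat.pos_of_ne_zero hN) hab
    · intro d hd
      rw [Finset.mem_filter, Nat.mem_divisors] at hd
      obtain ⟨⟨hd1, _⟩, e, rfl⟩ := hd
      exact ⟨e, Nat.mem_divisors.mpr ⟨Nat.dvd_of_mul_dvd_mul_left (Nat.pos_of_ne_zero hN) hd1, hm⟩,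
        rfl⟩
    · intro e _
      rfl
  · apply Finset.sum_eq_zero
    intro d hd
    rw [Finset.mem_filter, Nat.mem_divisors] at hd
    exact absurd (hd.2.trans hd.1.1) h

theorem qExpansion_eisP_coeff_pos (N : ℕ) [NeZero N] (k : ℕ) (hk : 1 ≤ k) :
    (qExpansion 1 (eisP N)).coeff k =
      ((∑ d ∈ k.divisors.filter (fun d => ¬ N ∣ d), d : ℕ) : ℂ) := by
  have hN : N ≠ 0 := NeZero.ne N
  have hk0 : k ≠ 0 := by omega
  have h := sigma_eq_sum_filter_add N k hN hk0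
  have h' : (ArithmeticFunction.sigma 1 k : ℂ) =
      ((∑ d ∈ k.divisors.filter (fun d => ¬ N ∣ d), d : ℕ) : ℂ) +
        (if N ∣ k then (N : ℂ) * (ArithmeticFunction.sigma 1 (k / N) : ℂ) else 0) := by
    rw [h]
    push_cast
    split_ifs <;> simp
  rw [qExpansion_eisP_coeff, coeffEisP]
  by_cases hd : N ∣ k
  · have hkN : k / N ≠ 0 := by
      obtain ⟨m, rfl⟩ := hd
      rw [Nat.mul_div_cancel_left _ (Nat.pos_of_ne_zero hN)]
      rintro rfl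
      simp at hk0
    simp only [hd, if_true, coeffE2, hkN, hk0, if_false] at h' ⊢
    rw [h']
    ring
  · simp only [hd, if_false, coeffE2, hk0] at h' ⊢
    rw [h']
    ring

end Fermat.Agent.S16
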