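import Fermat.Agent.S16.NoCongEight
import Fermat.Agent.S16.Eis
import Fermat.Agent.S16.Defs
import Fermat.Prelude.Def_ModularCurve_ModularUnit
import Fermat.Prelude.Def_FLTPrelim_Modularity

set_option autoImplicit false

namespace Fermat.Agent.S16

open UpperHalfPlane ModularForm MatrixGroups CongruenceSubgroup
open Fermat.Agent.S23

/-- there is no integral `H ∈ M_2(Γ0(p))` with `H ≡ A mod l^e`, `l ∤ A`. -/
def NoCongAt (p l e : ℕ) : Prop :=
  ∀ (H : ModularForm (Gamma0 p) 2) (A : ℤ), ¬ (l : ℤ) ∣ A → (qExpansion 1 H).coeff 0 = A →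
    (∀ n, 1 ≤ n → ∃ m : ℤ, (qExpansion 1 H).coeff n = ((((l ^ e : ℕ) : ℤ) * m : ℤ) : ℂ)) → False

theorem coeff_smul_form {p : ℕ} [NeZero p] (c : ℂ) (H : ModularForm (Gamma0 p) 2) (n : ℕ) :
    (qExpansion 1 (⇑(c • H : ModularForm (Gamma0 p) 2))).coeff n
      = c * (qExpansion 1 H).coeff n := by
  have h : (⇑(c • H : ModularForm (Gamma0 p) 2) : ℍ → ℂ) = c • ⇑H := rfl
  rw [h, Nice.qx_smul c (IsMF.of H).nice_G0]
  simp

theorem descent {p l e : ℕ} [Fact p.Prime] (hl : l.Prime) (he : 1 ≤ e) (hNC : NoCongAt p l e)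
    (H : ModularForm (Gamma0 p) 2) (B M : ℕ) (hB : B ≠ 0)
    (h0 : (qExpansion 1 H).coeff 0 = (B : ℂ))
    (hn : ∀ n, 1 ≤ n → ∃ m : ℤ, (qExpansion 1 H).coeff n = (((M : ℤ) * m : ℤ) : ℂ))
    (k : ℕ) (hk : l ^ k ∣ M) (c : ℕ) (hc : l ^ (e - 1) ∣ c) : l ^ k ∣ B * c := by
  obtain ⟨v, B', hB', rfl⟩ := Nat.exists_eq_pow_mul_and_not_dvd hB l hl.one_lt.ne'
  by_cases hkv : k < v + e
  · have h1 : l ^ k ∣ l ^ (v + (e - 1)) := pow_dvd_pow l (by omega)
    rw [pow_add] at h1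
    exact h1.trans (mul_dvd_mul (dvd_mul_right _ _) hc)
  · exfalso
    have h1 : l ^ (v + e) ∣ M := (pow_dvd_pow l (by omega)).trans hk
    obtain ⟨M', rfl⟩ := h1
    have hlC : (l : ℂ) ≠ 0 := Nat.cast_ne_zero.mpr hl.ne_zero
    refine hNC (((l : ℂ) ^ v)⁻¹ • H) B' (by exact_mod_cast hB') ?_ (fun n hn1 => ?_)
    · rw [coeff_smul_form, h0]
      push_cast
      field_simp
    · obtain ⟨m, hm⟩ := hn n hn1
      refine ⟨M' * m, ?_⟩
      rw [coeff_smul_form, hm]
      push_cast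
      rw [pow_add]
      field_simp

theorem noCongAt_prime (p : ℕ) [Fact p.Prime] {l : ℕ} (hl : l.Prime) (h5 : 5 ≤ l) :
    NoCongAt p l 1 := fun H A hA h0 hn =>
  no_cong_prime p l hl h5 H A hA h0 (by simpa using hn)

theorem noCongAt_three_two (p : ℕ) [Fact p.Prime] : NoCongAt p 3 2 := fun H A hA h0 hn =>
  no_cong_nine p H A (by exact_mod_cast hA) h0 (by simpa using hn)

theorem noCongAt_three_one (p : ℕ) [Fact p.Prime] (hp : p % 3 = 1) : NoCongAt p 3 1 :=
  fun H A hA h0 hn => no_cong_three p hp H A (by exact_mod_cast hA) h0 (by simpa using hn)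

theorem odd_of_not_two_dvd {A : ℤ} (hA : ¬ ((2 : ℕ) : ℤ) ∣ A) : Odd A :=
  Int.not_even_iff_odd.mp fun h => hA (by exact_mod_cast even_iff_two_dvd.mp h)

theorem noCongAt_two_four (p : ℕ) [Fact p.Prime] : NoCongAt p 2 4 := fun H A hA h0 hn =>
  no_cong_sixteen p H A (odd_of_not_two_dvd hA) h0 (by simpa using hn)

theorem noCongAt_two_three (p : ℕ) [Fact p.Prime] (hp : p ≠ 2) : NoCongAt p 2 3 :=
  fun H A hA h0 hn => no_cong_eight p hp H A (odd_of_not_two_dvd hA) h0 (by simpa using hn)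

theorem noCongAt_two_two (p : ℕ) [Fact p.Prime] (hp : p % 4 = 1) : NoCongAt p 2 2 :=
  fun H A hA h0 hn => no_cong_eight p (by rintro rfl; omega) H A (odd_of_not_two_dvd hA) h0
    (cong_eight_of_cong_four p hp H A (odd_of_not_two_dvd hA) h0 (by simpa using hn))

/-- **(U-main)** -/
theorem main_dvd (p : ℕ) [Fact p.Prime] (H : ModularForm (Gamma0 p) 2) (M : ℕ)
    (h0 : (qExpansion 1 H).coeff 0 = ((p - 1 : ℕ) : ℂ))
    (hn : ∀ n, 1 ≤ n → ∃ m : ℤ, (qExpansion 1 H).coeff n = (((M : ℤ) * m : ℤ) : ℂ)) :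
    M ∣ (p - 1) * (24 / Nat.gcd (p - 1) 12) := by
  have hp : p.Prime := Fact.out
  have hp2 := hp.two_le
  have hB : p - 1 ≠ 0 := by omega
  rw [Nat.dvd_iff_prime_pow_dvd_dvd]
  intro l k hl hk
  have hg : Nat.gcd (p - 1) 12 = Nat.gcd ((p - 1) % 12) 12 := by
    rw [Nat.gcd_comm, Nat.gcd_rec 12, Nat.gcd_comm]
  have hr : (p - 1) % 12 < 12 := Nat.mod_lt _ (by norm_num)
  have hl3 : l = 2 ∨ l = 3 ∨ 5 ≤ l := by
    by_contra hcon
    push Not at hcon
    obtain ⟨h1, h2, h3⟩ := hcon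
    have h4 := hl.two_le
    have : l = 4 := by omega
    subst this
    norm_num at hl
  rcases hl3 with rfl | rfl | h5
  · by_cases hp2' : p = 2
    · refine descent hl (by norm_num) (noCongAt_two_four p) H _ M hB h0 hn k hk _ ?_
      subst hp2'
      norm_num
    · have hodd : p % 2 = 1 := (hp.eq_two_or_odd).resolve_left hp2'
      by_cases hp4 : p % 4 = 1
      · refine descent hl (by norm_num) (noCongAt_two_two p hp4) H _ M hB h0 hn k hk _ ?_
        rw [hg]
        have h4 : (p - 1) % 12 % 4 = 0 := by omega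
        generalize (p - 1) % 12 = r at hr h4
        interval_cases r <;> first | (exfalso; omega) | norm_num
      · refine descent hl (by norm_num) (noCongAt_two_three p hp2') H _ M hB h0 hn k hk _ ?_
        rw [hg]
        have h4 : (p - 1) % 12 % 4 = 2 := by omega
        generalize (p - 1) % 12 = r at hr h4
        interval_cases r <;> first | (exfalso; omega) | norm_num
  · by_cases hp3 : p % 3 = 1
    · exact descent hl le_rfl (noCongAt_three_one p hp3) H _ M hB h0 hn k hk _ (by simp)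
    · refine descent hl (by norm_num) (noCongAt_three_two p) H _ M hB h0 hn k hk _ ?_
      rw [hg]
      have h4 : (p - 1) % 12 % 3 ≠ 0 := by omega
      generalize (p - 1) % 12 = r at hr h4
      interval_cases r <;> first | (exfalso; omega) | norm_num
  · exact descent hl le_rfl (noCongAt_prime p hl h5) H _ M hB h0 hn k hk _ (by simp)

/-- **(U)** -/
theorem upper (p : ℕ) [Fact p.Prime] (m : ℕ) (f : CuspForm (Gamma0 p) 2)
    (hf : ∀ k : ℕ, 1 ≤ k → ∃ c : ℤ, ModularFormClass.qCoeff f k = ((sigmaP p k + m * c : ℤ) : ℂ)) :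
    m ∣ ModularCurve.eisensteinNumerator p := by
  have hp : p.Prime := Fact.out
  have hp2 := hp.two_le
  set F : ModularForm (Gamma0 p) 2 := ModularFormClass.modularForm f with hF
  have hFf : (⇑F : ℍ → ℂ) = ⇑f := rfl
  set H : ModularForm (Gamma0 p) 2 := (24 : ℂ) • (eisP p - F) with hH
  have hcoe : (⇑(eisP p - F) : ℍ → ℂ) = ⇑(eisP p) - ⇑f := rfl
  have hcoeff : ∀ n, (qExpansion 1 H).coeff n
      = 24 * ((qExpansion 1 (eisP p)).coeff n - (qExpansion 1 f).coeff n) := by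
    intro n
    rw [hH, coeff_smul_form, hcoe, Nice.qx_sub (IsMF.of (eisP p)).nice_G0 (nice_cuspForm f), map_sub]
  have h0 : (qExpansion 1 H).coeff 0 = ((p - 1 : ℕ) : ℂ) := by
    rw [hcoeff, qExpansion_eisP_coeff_zero,
      CuspFormClass.qExpansion_coeff_zero f one_pos (one_mem_strictPeriods_Gamma0 p),
      Nat.cast_sub (by omega)]
    push_cast
    ring
  have hn : ∀ n, 1 ≤ n → ∃ c : ℤ, (qExpansion 1 H).coeff n = ((((24 * m : ℕ) : ℤ) * c : ℤ) : ℂ) := by
    intro n hn1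
    obtain ⟨c, hc⟩ := hf n hn1
    refine ⟨-c, ?_⟩
    rw [hcoeff, qExpansion_eisP_coeff_pos p n hn1]
    rw [ModularFormClass.qCoeff] at hc
    rw [hc, sigmaP]
    push_cast
    ring
  have hmain := main_dvd p H (24 * m) h0 hn
  -- arithmetic
  set g := Nat.gcd (p - 1) 12 with hg
  have hg12 : g ∣ 12 := Nat.gcd_dvd_right _ _
  have hgp : g ∣ p - 1 := Nat.gcd_dvd_left _ _
  have hg0 : 0 < g := Nat.pos_of_dvd_of_pos hg12 (by norm_num)
  obtain ⟨c, hc⟩ := hg12
  have h24 : 24 / g = 2 * c := by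
    rw [show 24 = g * (2 * c) by rw [← mul_assoc, mul_comm g 2, mul_assoc, ← hc]; norm_num]
    exact Nat.mul_div_cancel_left _ hg0
  rw [h24] at hmain
  unfold ModularCurve.eisensteinNumerator
  rw [← hg]
  apply Nat.dvd_div_of_mul_dvd
  -- `g * m ∣ p - 1`
  have h1 : (2 * c) * (g * m) ∣ (2 * c) * (p - 1) := by
    have : (2 * c) * (g * m) = 24 * m := by
      rw [show 24 = 2 * 12 from rfl, hc]; ring
    rw [this, mul_comm (2 * c)]
    exact hmain
  have hc0 : 0 < 2 * c := by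
    rcases Nat.eq_zero_or_pos c with rfl | h
    · simp at hc
    · omega
  exact Nat.dvd_of_mul_dvd_mul_left hc0 h1

end Fermat.Agent.S16
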