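import Fermat.Agent.S16.Reduction
import Fermat.Agent.S23

set_option autoImplicit false

open CuspForm ModularCurve ModularFormClass CongruenceSubgroup

namespace Fermat.Agent.S16

variable (p : ℕ) [Fact p.Prime]

/-- a Hecke polynomial killing the lattice kills all of `S_2(Γ0(p))` (uses S23). -/
theorem act_eq_zero_of_rho_eq_zero (τ : HeckeAlg) (h : rho p τ = 0) : act p τ = 0 := by
  have hinj := (latticeRestrictHom_bijective p ∅ (Fermat.Agent.S23.result p)).1
  have h0 : heckeEvalForms p 2 τ = 0 := by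
    apply hinj
    rw [map_zero]
    exact h
  rw [act, h0]
  rfl

/-- The statement S16 from the lower bound `(L)` and the upper bound `(U)`. -/
theorem result_of_lower_upper
    (lower : ∀ τ : HeckeAlg,
      (∀ f : CuspForm (Gamma0 p) 2,
        ((heckeEvalForms p 2 τ : heckeAlgebra p 2 ∅) : Module.End ℂ _) f = 0) →
      (eisensteinNumerator p : ℤ) ∣ MvPolynomial.aeval (eisensteinSystem p) τ)
    (upper : ∀ (m : ℕ) (f : CuspForm (Gamma0 p) 2),
      (∀ k : ℕ, 1 ≤ k → ∃ c : ℤ, qCoeff f k = ((sigmaP p k + m * c : ℤ) : ℂ)) →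
      m ∣ eisensteinNumerator p) :
    Nat.card (↥(heckeLatticeAlgebra p ∅) ⧸
        Ideal.map ((latticeRestrictHom p ∅).toRingHom.comp (heckeEvalForms p 2))
          (eisensteinIdeal p)) =
      eisensteinNumerator p := by
  refine card_quotient_eq p (eisensteinNumerator p) (fun τ hτ => ?_) (fun m hm => ?_)
  · refine lower τ fun f => ?_
    have := act_eq_zero_of_rho_eq_zero p τ hτ
    exact congrArg (fun t : Module.End ℂ (CuspForm (Gamma0 p) 2) => t f) this
  · obtain ⟨f, hf⟩ := exists_form_of_dvd p (m.natAbs : ℤ)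
      (fun τ hτ => Int.natAbs_dvd.mpr (hm τ hτ))
    have := upper m.natAbs f hf
    exact Int.natAbs_dvd.mp (Int.natCast_dvd_natCast.mpr this)

end Fermat.Agent.S16
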