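import Mathlib

/-!
# A lifting criterion for finitely generated abelian groups

If `A` is a finitely generated abelian group with `dim_ℂ Hom(A, ℂ) ≥ r` and
`dim_{𝔽_ℓ} Hom(A, 𝔽_ℓ) ≤ r` for all primes `ℓ`, then `A` is free, hence every homomorphism
`A → ℤ/n` lifts to `A → ℤ`.
-/

set_option autoImplicit false
set_option linter.unusedSectionVars false

open scoped DirectSum

namespace Fermat.Agent.S16

section AbLift

variable {s : ℕ} {ι : Type} [DecidableEq ι] {p : ι → ℕ} {e : ι → ℕ}

theorem hom_eq_zero_of_single {B : Type*} [AddCommGroup B]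
    (φ : (Fin s →₀ ℤ) × (⨁ i : ι, ZMod (p i ^ e i)) →+ B)
    (h1 : ∀ j, φ (Finsupp.single j 1, 0) = 0)
    (h2 : ∀ i z, φ (0, DirectSum.of (fun i => ZMod (p i ^ e i)) i z) = 0) : φ = 0 := by
  have ha : φ.comp (AddMonoidHom.inl _ _) = 0 := by
    refine Finsupp.addHom_ext fun j z => ?_
    have : (Finsupp.single j z : Fin s →₀ ℤ) = z • Finsupp.single j 1 := by
      rw [Finsupp.smul_single, smul_eq_mul, mul_one]
    simp only [AddMonoidHom.comp_apply, AddMonoidHom.inl_apply, AddMonoidHom.zero_apply]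
    have h3 : ((Finsupp.single j z : Fin s →₀ ℤ), (0 : ⨁ i : ι, ZMod (p i ^ e i)))
        = z • ((Finsupp.single j 1 : Fin s →₀ ℤ), (0 : ⨁ i : ι, ZMod (p i ^ e i))) := by
      rw [Prod.smul_mk, ← this, smul_zero]
    rw [h3, map_zsmul, h1, smul_zero]
  have hb : φ.comp (AddMonoidHom.inr _ _) = 0 := by
    refine DirectSum.addHom_ext fun i z => ?_
    simpa using h2 i z
  refine AddMonoidHom.ext fun ⟨f, t⟩ => ?_
  have h4 : (f, t) = (f, 0) + (0, t) := by simp
  have h5 := DFunLike.congr_fun ha f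
  have h6 := DFunLike.congr_fun hb t
  simp only [AddMonoidHom.comp_apply, AddMonoidHom.inl_apply, AddMonoidHom.inr_apply,
    AddMonoidHom.zero_apply] at h5 h6
  rw [h4, map_add, h5, h6, add_zero, AddMonoidHom.zero_apply]

/-- the homomorphism with prescribed values on the free generators and on one torsion
generator. -/
noncomputable def mkHom (ℓ : ℕ) (i₀ : ι) (h : ℓ ∣ p i₀ ^ e i₀) (v : Fin s → ZMod ℓ) (c : ZMod ℓ) :
    (Fin s →₀ ℤ) × (⨁ i : ι, ZMod (p i ^ e i)) →+ ZMod ℓ :=
  AddMonoidHom.coprod (Finsupp.liftAddHom fun j => zmultiplesHom _ (v j))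
    ((AddMonoidHom.mulLeft c).comp ((ZMod.castHom h (ZMod ℓ)).toAddMonoidHom.comp
      (DFinsupp.evalAddMonoidHom i₀)))

theorem mkHom_single (ℓ : ℕ) (i₀ : ι) (h : ℓ ∣ p i₀ ^ e i₀) (v : Fin s → ZMod ℓ) (c : ZMod ℓ)
    (j : Fin s) : mkHom ℓ i₀ h v c (Finsupp.single j 1, 0) = v j := by
  simp [mkHom]

theorem mkHom_of (ℓ : ℕ) (i₀ : ι) (h : ℓ ∣ p i₀ ^ e i₀) (v : Fin s → ZMod ℓ) (c : ZMod ℓ) :
    mkHom ℓ i₀ h v c (0, DirectSum.of (fun i => ZMod (p i ^ e i)) i₀ 1) = c := by
  have h1 : (DFinsupp.evalAddMonoidHom i₀) (DirectSum.of (fun i => ZMod (p i ^ e i)) i₀ 1) = 1 :=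
    DirectSum.of_eq_same i₀ 1
  simp only [mkHom, AddMonoidHom.coprod_apply, map_zero, zero_add, AddMonoidHom.comp_apply, h1]
  show c * (ZMod.castHom h (ZMod ℓ)) 1 = c
  rw [map_one, mul_one]

end AbLift

theorem exists_lift_of_finrank_le (A : Type*) [AddCommGroup A] [AddGroup.FG A] (r : ℕ)
    (hC : r ≤ Module.finrank ℂ (A →+ ℂ))
    (hF : ∀ (ℓ : ℕ) [Fact ℓ.Prime], FiniteDimensional (ZMod ℓ) (A →+ ZMod ℓ) ∧
      Module.finrank (ZMod ℓ) (A →+ ZMod ℓ) ≤ r)
    (n : ℕ) (ψ : A →+ ZMod n) : ∃ Ψ : A →+ ℤ, ∀ a, ((Ψ a : ℤ) : ZMod n) = ψ a := by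
  classical
  obtain ⟨s, ι, _, p, hp, e, ⟨E⟩⟩ := AddCommGroup.equiv_free_prod_directSum_zmod A
  -- step a
  have hrs : r ≤ s := by
    let L : (A →+ ℂ) →ₗ[ℂ] (Fin s → ℂ) :=
      { toFun := fun φ j => φ (E.symm (Finsupp.single j 1, 0))
        map_add' := fun _ _ => rfl
        map_smul' := fun _ _ => rfl }
    have hL : Function.Injective L := by
      rw [← LinearMap.ker_eq_bot, LinearMap.ker_eq_bot']
      intro φ hφ
      have h0 : φ.comp E.symm.toAddMonoidHom = 0 := by
        refine hom_eq_zero_of_single _ (fun j => congrFun hφ j) fun i z => ?_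
        have h1 : (p i ^ e i) • (φ.comp E.symm.toAddMonoidHom)
            (0, DirectSum.of (fun i => ZMod (p i ^ e i)) i z) = 0 := by
          rw [← map_nsmul, Prod.smul_mk, smul_zero, ← map_nsmul]
          have : (p i ^ e i) • z = 0 := by
            rw [nsmul_eq_mul, ZMod.natCast_self, zero_mul]
          rw [this, map_zero]
          exact map_zero _
        rw [nsmul_eq_mul] at h1
        rcases mul_eq_zero.mp h1 with h | h
        · exact absurd (Nat.cast_eq_zero.mp h) (pow_ne_zero _ (hp i).ne_zero)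
        · exact h
      ext a
      have := DFunLike.congr_fun h0 (E a)
      simpa using this
    have := LinearMap.finrank_le_finrank_of_injective hL
    rw [Module.finrank_fintype_fun_eq_card, Fintype.card_fin] at this
    exact hC.trans this
  -- step b
  have he : ∀ i, e i = 0 := by
    intro i₀
    by_contra h0
    have : Fact (p i₀).Prime := ⟨hp i₀⟩
    obtain ⟨hfd, hle⟩ := hF (p i₀)
    let L : (A →+ ZMod (p i₀)) →ₗ[ZMod (p i₀)] ((Fin s → ZMod (p i₀)) × ZMod (p i₀)) :=
      { toFun := fun φ => (fun j => φ (E.symm (Finsupp.single j 1, 0)),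
          φ (E.symm (0, DirectSum.of (fun i => ZMod (p i ^ e i)) i₀ 1)))
        map_add' := fun _ _ => rfl
        map_smul' := fun _ _ => rfl }
    have hL : Function.Surjective L := by
      rintro ⟨v, c⟩
      refine ⟨(mkHom (p i₀) i₀ (dvd_pow_self _ h0) v c).comp E.toAddMonoidHom, ?_⟩
      refine Prod.ext ?_ ?_
      · funext j
        show (mkHom (p i₀) i₀ (dvd_pow_self _ h0) v c) (E (E.symm _)) = _
        rw [AddEquiv.apply_symm_apply, mkHom_single]
      · show (mkHom (p i₀) i₀ (dvd_pow_self _ h0) v c) (E (E.symm _)) = _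
        rw [AddEquiv.apply_symm_apply, mkHom_of]
    have := LinearMap.finrank_le_finrank_of_surjective hL
    rw [Module.finrank_prod, Module.finrank_fintype_fun_eq_card, Fintype.card_fin,
      Module.finrank_self] at this
    omega
  -- step c
  have hsub : ∀ t : ⨁ i : ι, ZMod (p i ^ e i), t = 0 := by
    intro t
    refine DFinsupp.ext fun i => ?_
    have : Subsingleton (ZMod (p i ^ e i)) := by
      rw [he i, pow_zero]; infer_instance
    exact Subsingleton.elim _ _
  choose l hl using fun j : Fin s => ZMod.intCast_surjective (ψ (E.symm (Finsupp.single j 1, 0)))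
  refine ⟨((Finsupp.liftAddHom fun j => zmultiplesHom ℤ (l j)).comp
    (AddMonoidHom.fst _ _)).comp E.toAddMonoidHom, ?_⟩
  have key : ((Int.castAddHom (ZMod n)).comp ((Finsupp.liftAddHom fun j => zmultiplesHom ℤ (l j)).comp
      (AddMonoidHom.fst _ (⨁ i : ι, ZMod (p i ^ e i))))) - ψ.comp E.symm.toAddMonoidHom = 0 := by
    refine hom_eq_zero_of_single _ (fun j => ?_) fun i z => ?_
    · simp [hl]
    · rw [hsub (DirectSum.of (fun i => ZMod (p i ^ e i)) i z)]
      exact map_zero _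
  intro a
  have := DFunLike.congr_fun key (E a)
  simp only [AddMonoidHom.sub_apply, AddMonoidHom.comp_apply, AddMonoidHom.zero_apply,
    sub_eq_zero] at this
  simpa using this

end Fermat.Agent.S16
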