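import Fermat.Agent.S16.Defs

set_option autoImplicit false

namespace Fermat.Agent.S16

theorem sigmaP_zero (p : ℕ) : sigmaP p 0 = 0 := by simp [sigmaP]

theorem sigmaP_one {p : ℕ} (hp : p.Prime) : sigmaP p 1 = 1 := by
  have : ¬ p ∣ 1 := hp.one_lt.ne' ∘ Nat.dvd_one.mp
  simp [sigmaP, Finset.filter_singleton, this]

/-- divisors of `p * k` prime to `p` are the divisors of `k` prime to `p`. -/
theorem sigmaP_self_mul {p : ℕ} (hp : p.Prime) (k : ℕ) : sigmaP p (p * k) = sigmaP p k := by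
  rcases Nat.eq_zero_or_pos k with rfl | hk
  · simp
  unfold sigmaP
  congr 1
  ext d
  simp only [Finset.mem_filter, Nat.mem_divisors]
  constructor
  · rintro ⟨⟨hd, -⟩, hpd⟩
    refine ⟨⟨?_, hk.ne'⟩, hpd⟩
    exact (Nat.Coprime.dvd_mul_left ((Nat.Prime.coprime_iff_not_dvd hp).mpr hpd).symm).mp hd
  · rintro ⟨⟨hd, -⟩, hpd⟩
    exact ⟨⟨hd.mul_left p, mul_ne_zero hp.ne_zero hk.ne'⟩, hpd⟩

theorem sigmaP_mul_self {p : ℕ} (hp : p.Prime) (k : ℕ) : sigmaP p (k * p) = sigmaP p k := by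
  rw [mul_comm, sigmaP_self_mul hp]


theorem sigmaP_mul_prime {p l : ℕ} (hp : p.Prime) (hl : l.Prime) (hne : l ≠ p) (k : ℕ) :
    sigmaP p (k * l) + (if l ∣ k then l * sigmaP p (k / l) else 0) = (1 + l) * sigmaP p k := by
  classical
  rcases Nat.eq_zero_or_pos k with rfl | hk
  · simp [sigmaP_zero]
  have hpl : ∀ d, p ∣ l * d ↔ p ∣ d := by
    intro d
    constructor
    · intro h
      rcases (Nat.Prime.dvd_mul hp).mp h with h | h
      · exact absurd ((Nat.prime_dvd_prime_iff_eq hp hl).mp h).symm hne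
      · exact h
    · exact fun h => h.mul_left l
  set A := k.divisors.filter (fun d => ¬ p ∣ d) with hA
  set B := A.image (fun d => l * d) with hB
  have hinj : Function.Injective (fun d : ℕ => l * d) := fun a b h =>
    Nat.eq_of_mul_eq_mul_left hl.pos h
  have hBsum : ∑ d ∈ B, d = l * sigmaP p k := by
    rw [hB, Finset.sum_image (fun a _ b _ h => hinj h), sigmaP, Finset.mul_sum]
  have hU : (k * l).divisors.filter (fun d => ¬ p ∣ d) = A ∪ B := by
    ext d
    simp only [hA, hB, Finset.mem_filter, Nat.mem_divisors, Finset.mem_union, Finset.mem_image]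
    constructor
    · rintro ⟨⟨hd, -⟩, hpd⟩
      by_cases hld : l ∣ d
      · obtain ⟨d', rfl⟩ := hld
        right
        refine ⟨d', ⟨⟨?_, hk.ne'⟩, fun h => hpd ((hpl d').mpr h)⟩, rfl⟩
        rw [mul_comm k l] at hd
        exact Nat.dvd_of_mul_dvd_mul_left hl.pos hd
      · left
        refine ⟨⟨?_, hk.ne'⟩, hpd⟩
        exact (Nat.Coprime.dvd_mul_right ((Nat.Prime.coprime_iff_not_dvd hl).mpr hld).symm).mp hd
    · rintro (⟨⟨hd, -⟩, hpd⟩ | ⟨d', ⟨⟨hd, -⟩, hpd⟩, rfl⟩)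
      · exact ⟨⟨hd.mul_right l, mul_ne_zero hk.ne' hl.ne_zero⟩, hpd⟩
      · refine ⟨⟨?_, mul_ne_zero hk.ne' hl.ne_zero⟩, fun h => hpd ((hpl d').mp h)⟩
        rw [mul_comm k l]
        exact Nat.mul_dvd_mul_left l hd
  have hI : ∑ d ∈ A ∩ B, d = if l ∣ k then l * sigmaP p (k / l) else 0 := by
    split_ifs with hlk
    · obtain ⟨k', rfl⟩ := hlk
      have hk' : 0 < k' := Nat.pos_of_mul_pos_left hk |> fun h => by
        rcases Nat.eq_zero_or_pos k' with h0 | h0
        · simp [h0] at hk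
        · exact h0
      rw [Nat.mul_div_cancel_left _ hl.pos]
      have : A ∩ B = (k'.divisors.filter (fun d => ¬ p ∣ d)).image (fun d => l * d) := by
        ext d
        simp only [hA, hB, Finset.mem_filter, Nat.mem_divisors, Finset.mem_inter, Finset.mem_image]
        constructor
        · rintro ⟨⟨⟨hd, -⟩, hpd⟩, ⟨d', ⟨⟨hd', -⟩, hpd'⟩, rfl⟩⟩
          exact ⟨d', ⟨⟨Nat.dvd_of_mul_dvd_mul_left hl.pos hd, hk'.ne'⟩, hpd'⟩, rfl⟩
        · rintro ⟨d', ⟨⟨hd', -⟩, hpd'⟩, rfl⟩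
          exact ⟨⟨⟨Nat.mul_dvd_mul_left l hd', hk.ne'⟩, fun h => hpd' ((hpl d').mp h)⟩,
            ⟨d', ⟨⟨hd'.mul_left l, hk.ne'⟩, hpd'⟩, rfl⟩⟩
      rw [this, Finset.sum_image (fun a _ b _ h => hinj h), sigmaP, Finset.mul_sum]
    · apply Finset.sum_eq_zero
      intro d hd
      exfalso
      simp only [hA, hB, Finset.mem_filter, Nat.mem_divisors, Finset.mem_inter,
        Finset.mem_image] at hd
      obtain ⟨⟨⟨hd, -⟩, -⟩, ⟨d', -, rfl⟩⟩ := hd
      exact hlk (dvd_trans (dvd_mul_right l d') hd)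
  have key := Finset.sum_union_inter (s₁ := A) (s₂ := B) (f := fun d => d)
  rw [sigmaP, hU, ← hI, key, hBsum]
  simp only [sigmaP, hA]
  ring

/-- `σ(k) = σ'(k) + p σ(k/p)`. -/
theorem sigma_eq_sigmaP_add {p : ℕ} (hp : p.Prime) (k : ℕ) :
    ArithmeticFunction.sigma 1 k
      = sigmaP p k + (if p ∣ k then p * ArithmeticFunction.sigma 1 (k / p) else 0) := by
  classical
  rcases Nat.eq_zero_or_pos k with rfl | hk
  · simp [sigmaP_zero]
  rw [ArithmeticFunction.sigma_one_apply, sigmaP,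
    ← Finset.sum_filter_add_sum_filter_not k.divisors (fun d => ¬ p ∣ d)]
  congr 1
  have hinj : Function.Injective (fun d : ℕ => p * d) := fun a b h =>
    Nat.eq_of_mul_eq_mul_left hp.pos h
  split_ifs with hpk
  · obtain ⟨k', rfl⟩ := hpk
    have hk' : k' ≠ 0 := by rintro rfl; simp at hk
    rw [Nat.mul_div_cancel_left _ hp.pos, ArithmeticFunction.sigma_one_apply, Finset.mul_sum,
      ← Finset.sum_image (f := fun d => d) (g := fun d => p * d) (fun a _ b _ h => hinj h)]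
    apply Finset.sum_congr _ (fun _ _ => rfl)
    ext d
    simp only [Finset.mem_filter, Nat.mem_divisors, Finset.mem_image, not_not]
    constructor
    · rintro ⟨⟨hd, -⟩, ⟨d', rfl⟩⟩
      exact ⟨d', ⟨Nat.dvd_of_mul_dvd_mul_left hp.pos hd, hk'⟩, rfl⟩
    · rintro ⟨d', ⟨hd', -⟩, rfl⟩
      exact ⟨⟨Nat.mul_dvd_mul_left p hd', hk.ne'⟩, dvd_mul_right p d'⟩
  · apply Finset.sum_eq_zero
    intro d hd
    simp only [Finset.mem_filter, Nat.mem_divisors, not_not] at hd
    exact absurd (dvd_trans hd.2 hd.1.1) hpk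

end Fermat.Agent.S16
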