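import Mathlib

/-!
# Abstract crossing numbers

`G` a group generated by `S`, `U`; `χ : G → ℤ` a "side function" (think: `G = SL₂(ℤ)`, `χ g = 1`
iff the Farey triangle `g (0,1,∞)` lies to the right of the imaginary axis).  For every
`J : G → A` with `J (g S) = - J g` we construct `c g g' : A` (the `J`-weighted number of Farey
edges separating the triangles `g`, `g'`), additive in `(g, g')`, and invariant under every left
translation preserving `J`.
-/

set_option autoImplicit false

namespace Fermat.Agent.S16.Crossing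

variable {G : Type*} [Group G] {A : Type*} [AddCommGroup A]

/-- The axioms of a side function. -/
structure IsSide (S U : G) (χ : G → ℤ) : Prop where
  gen : Subgroup.closure {S, U} = ⊤
  mul_U : ∀ h, χ (h * U) = χ h
  S_mul : ∀ h, χ (S * h) = 1 - χ h
  one : χ 1 = 1
  mem : ∀ h, χ (h * S) ≠ χ h → h ∈ Subgroup.zpowers S

/-- contribution of the (oriented) edge `h` to the crossing number from `g` to `g'`. -/
def cr (χ : G → ℤ) (J : G → A) (g g' h : G) : A := (χ (h⁻¹ * g') - χ (h⁻¹ * g)) • J h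

variable {S U : G} {χ : G → ℤ} {J : G → A}

theorem IsSide.S_inv_mul (hs : IsSide S U χ) (y : G) : χ (S⁻¹ * y) = 1 - χ y := by
  have := hs.S_mul (S⁻¹ * y)
  rw [mul_inv_cancel_left] at this
  linarith

theorem IsSide.mul_U_inv (hs : IsSide S U χ) (y : G) : χ (y * U⁻¹) = χ y := by
  have := hs.mul_U (y * U⁻¹)
  rw [inv_mul_cancel_right] at this
  exact this.symm

theorem cr_mul_S (hs : IsSide S U χ) (hJ : ∀ g, J (g * S) = - J g) (g g' h : G) :
    cr χ J g g' (h * S) = cr χ J g g' h := by
  unfold cr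
  rw [mul_inv_rev, mul_assoc, mul_assoc, hs.S_inv_mul, hs.S_inv_mul, hJ, smul_neg, ← neg_smul]
  congr 1
  ring

theorem cr_mul_S_inv (hs : IsSide S U χ) (hJ : ∀ g, J (g * S) = - J g) (g g' h : G) :
    cr χ J g g' (h * S⁻¹) = cr χ J g g' h := by
  have := cr_mul_S hs hJ g g' (h * S⁻¹)
  rw [inv_mul_cancel_right] at this
  exact this.symm

theorem cr_mul_zpow (hs : IsSide S U χ) (hJ : ∀ g, J (g * S) = - J g) (g g' h : G) (k : ℤ) :
    cr χ J g g' (h * S ^ k) = cr χ J g g' h := by
  induction k using Int.induction_on with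
  | zero => simp
  | succ k ih => rw [zpow_add_one, ← mul_assoc, cr_mul_S hs hJ, ih]
  | pred k ih => rw [zpow_sub_one, ← mul_assoc, cr_mul_S_inv hs hJ, ih]

/-- the contribution of an unoriented edge. -/
noncomputable def crQ (S : G) (χ : G → ℤ) (J : G → A) (g g' : G) (e : G ⧸ Subgroup.zpowers S) : A :=
  cr χ J g g' e.out

theorem crQ_mk (hs : IsSide S U χ) (hJ : ∀ g, J (g * S) = - J g) (g g' h : G) :
    crQ S χ J g g' (h : G ⧸ Subgroup.zpowers S) = cr χ J g g' h := by
  obtain ⟨⟨s, k, rfl⟩, hk⟩ := QuotientGroup.mk_out_eq_mul (Subgroup.zpowers S) h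
  unfold crQ
  rw [hk]
  exact cr_mul_zpow hs hJ g g' h k

theorem cr_add (g g' g'' h : G) : cr χ J g g' h + cr χ J g' g'' h = cr χ J g g'' h := by
  unfold cr
  rw [← add_smul]
  congr 1
  ring

theorem crQ_add (g g' g'' : G) (e : G ⧸ Subgroup.zpowers S) :
    crQ S χ J g g' e + crQ S χ J g' g'' e = crQ S χ J g g'' e := cr_add _ _ _ _

theorem crQ_self (g : G) (e : G ⧸ Subgroup.zpowers S) : crQ S χ J g g e = 0 := by
  simp [crQ, cr]

theorem crQ_mul_U (hs : IsSide S U χ) (g : G) (e : G ⧸ Subgroup.zpowers S) :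
    crQ S χ J g (g * U) e = 0 := by
  simp [crQ, cr, ← mul_assoc, hs.mul_U]

theorem crQ_mul_S_of_ne (hs : IsSide S U χ) (hJ : ∀ g, J (g * S) = - J g) (g : G)
    (e : G ⧸ Subgroup.zpowers S) (he : e ≠ (g : G ⧸ Subgroup.zpowers S)) :
    crQ S χ J g (g * S) e = 0 := by
  induction e using QuotientGroup.induction_on with
  | H h =>
    rw [crQ_mk hs hJ]
    unfold cr
    by_cases hne : χ (h⁻¹ * g * S) = χ (h⁻¹ * g)
    · rw [← mul_assoc, hne, sub_self, zero_smul]
    · exact absurd (QuotientGroup.eq.mpr (hs.mem _ hne)) he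

theorem crQ_mul_S_self (hs : IsSide S U χ) (hJ : ∀ g, J (g * S) = - J g) (g : G) :
    crQ S χ J g (g * S) (g : G ⧸ Subgroup.zpowers S) = - J g := by
  rw [crQ_mk hs hJ]
  unfold cr
  have h1 : χ S = 0 := by
    have := hs.S_mul 1
    rw [mul_one, hs.one] at this
    simpa using this
  rw [inv_mul_cancel_left, inv_mul_cancel, h1, hs.one]
  simp

/-- finiteness of the set of separating edges. -/
def FinSep (S : G) (χ : G → ℤ) (J : G → A) (g g' : G) : Prop :=
  (Function.support (crQ S χ J g g')).Finite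

theorem FinSep.refl (g : G) : FinSep S χ J g g := by
  have : crQ S χ J g g = 0 := funext fun e => crQ_self g e
  simp [FinSep, this]

theorem FinSep.trans {g g' g'' : G} (h₁ : FinSep S χ J g g') (h₂ : FinSep S χ J g' g'') :
    FinSep S χ J g g'' := by
  have : crQ S χ J g g'' = crQ S χ J g g' + crQ S χ J g' g'' :=
    funext fun e => (crQ_add g g' g'' e).symm
  unfold FinSep
  rw [this]
  exact (h₁.union h₂).subset (Function.support_add _ _)

theorem FinSep.symm {g g' : G} (h₁ : FinSep S χ J g g') : FinSep S χ J g' g := by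
  have : crQ S χ J g' g = - crQ S χ J g g' := by
    funext e
    have := crQ_add (S := S) (χ := χ) (J := J) g g' g e
    rw [crQ_self] at this
    exact (neg_eq_of_add_eq_zero_right this).symm
  unfold FinSep
  rw [this, Function.support_neg]
  exact h₁

theorem fin_mul_U (hs : IsSide S U χ) (g : G) : FinSep S χ J g (g * U) := by
  have : crQ S χ J g (g * U) = 0 := funext fun e => crQ_mul_U hs g e
  simp [FinSep, this]

theorem fin_mul_S (hs : IsSide S U χ) (hJ : ∀ g, J (g * S) = - J g) (g : G) :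
    FinSep S χ J g (g * S) := by
  refine (Set.finite_singleton (g : G ⧸ Subgroup.zpowers S)).subset fun e he => ?_
  by_contra hne
  exact he (crQ_mul_S_of_ne hs hJ g e hne)

theorem fin_mul (hs : IsSide S U χ) (hJ : ∀ g, J (g * S) = - J g) (g w : G) :
    FinSep S χ J g (g * w) := by
  have hw : w ∈ Subgroup.closure {S, U} := by rw [hs.gen]; trivial
  induction hw using Subgroup.closure_induction_right with
  | one => simpa using FinSep.refl g
  | mul_right x _ y hy ih =>
    rw [← mul_assoc]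
    refine ih.trans ?_
    rcases hy with rfl | rfl
    · exact fin_mul_S hs hJ _
    · exact fin_mul_U hs _
  | mul_inv_cancel x _ y hy ih =>
    rw [← mul_assoc]
    refine ih.trans (FinSep.symm ?_)
    rcases hy with rfl | rfl
    · simpa using fin_mul_S hs hJ (g * x * y⁻¹)
    · simpa using fin_mul_U (J := J) hs (g * x * y⁻¹)

theorem fin_all (hs : IsSide S U χ) (hJ : ∀ g, J (g * S) = - J g) (g g' : G) :
    FinSep S χ J g g' := by
  simpa using fin_mul hs hJ g (g⁻¹ * g')

/-- the crossing number. -/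
noncomputable def c (S : G) (χ : G → ℤ) (J : G → A) (g g' : G) : A := ∑ᶠ e, crQ S χ J g g' e

theorem c_add (hs : IsSide S U χ) (hJ : ∀ g, J (g * S) = - J g) (g g' g'' : G) :
    c S χ J g g' + c S χ J g' g'' = c S χ J g g'' := by
  unfold c
  rw [← finsum_add_distrib (fin_all hs hJ g g') (fin_all hs hJ g' g'')]
  exact finsum_congr fun e => crQ_add g g' g'' e

theorem c_self (g : G) : c S χ J g g = 0 := by
  simp [c, crQ_self]

theorem c_mul_U (hs : IsSide S U χ) (g : G) : c S χ J g (g * U) = 0 := by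
  simp [c, crQ_mul_U hs]

theorem c_mul_S (hs : IsSide S U χ) (hJ : ∀ g, J (g * S) = - J g) (g : G) :
    c S χ J g (g * S) = - J g := by
  unfold c
  rw [finsum_eq_single _ (g : G ⧸ Subgroup.zpowers S) fun e he => crQ_mul_S_of_ne hs hJ g e he,
    crQ_mul_S_self hs hJ]

theorem c_left_mul (hs : IsSide S U χ) (hJ : ∀ g, J (g * S) = - J g) (γ : G)
    (hγ : ∀ h, J (γ * h) = J h) (g g' : G) : c S χ J (γ * g) (γ * g') = c S χ J g g' := by
  unfold c
  rw [← finsum_comp_equiv (MulAction.toPerm γ⁻¹ : Equiv.Perm (G ⧸ Subgroup.zpowers S))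
    (f := crQ S χ J g g')]
  refine finsum_congr fun e => ?_
  induction e using QuotientGroup.induction_on with
  | H h =>
    have h1 : (MulAction.toPerm γ⁻¹ : Equiv.Perm (G ⧸ Subgroup.zpowers S)) (h : G ⧸ _)
        = ((γ⁻¹ * h : G) : G ⧸ Subgroup.zpowers S) := rfl
    rw [h1, crQ_mk hs hJ, crQ_mk hs hJ]
    unfold cr
    have h2 : J (γ⁻¹ * h) = J h := by
      have := hγ (γ⁻¹ * h)
      rw [mul_inv_cancel_left] at this
      exact this.symm
    rw [h2]
    congr 2 <;> simp [mul_assoc]

/-- the primitive `N g = c 1 g`. -/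
noncomputable def prim (S : G) (χ : G → ℤ) (J : G → A) (g : G) : A := c S χ J 1 g

theorem prim_one : prim S χ J 1 = 0 := c_self 1

theorem prim_mul_U (hs : IsSide S U χ) (hJ : ∀ g, J (g * S) = - J g) (g : G) :
    prim S χ J (g * U) = prim S χ J g := by
  unfold prim
  rw [← c_add hs hJ 1 g (g * U), c_mul_U hs, add_zero]

theorem prim_mul_S (hs : IsSide S U χ) (hJ : ∀ g, J (g * S) = - J g) (g : G) :
    prim S χ J (g * S) = prim S χ J g - J g := by
  unfold prim
  rw [← c_add hs hJ 1 g (g * S), c_mul_S hs hJ, sub_eq_add_neg]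

theorem prim_left_mul (hs : IsSide S U χ) (hJ : ∀ g, J (g * S) = - J g) (γ : G)
    (hγ : ∀ h, J (γ * h) = J h) (g : G) :
    prim S χ J (γ * g) = prim S χ J γ + prim S χ J g := by
  unfold prim
  rw [← c_add hs hJ 1 γ (γ * g)]
  congr 1
  have := c_left_mul hs hJ γ hγ 1 g
  rwa [mul_one] at this

end Fermat.Agent.S16.Crossing
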