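import Fermat.Agent.S16.Crossing

/-!
# The side function on `SL₂(ℤ)`
-/

set_option autoImplicit false

open Matrix ModularGroup
open scoped MatrixGroups

namespace Fermat.Agent.S16.Crossing

/-- twice the real part (up to a positive factor) of `g • e^{iπ/3}`. -/
def Bf (g : SL(2, ℤ)) : ℤ :=
  2 * g 0 0 * g 1 0 + g 0 0 * g 1 1 + g 0 1 * g 1 0 + 2 * g 0 1 * g 1 1

/-- the side function. -/
def chi (g : SL(2, ℤ)) : ℤ := if 0 < Bf g then 1 else 0

/-- the elliptic element of order three fixing `e^{iπ/3}`. -/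
def Uu : SL(2, ℤ) := S * T⁻¹

theorem det_eq' (g : SL(2, ℤ)) : g 0 0 * g 1 1 - g 0 1 * g 1 0 = 1 := by
  have := g.det_coe
  rwa [Matrix.det_fin_two] at this

theorem mul_S_apply (g : SL(2, ℤ)) :
    (g * S) 0 0 = g 0 1 ∧ (g * S) 0 1 = - g 0 0 ∧ (g * S) 1 0 = g 1 1 ∧ (g * S) 1 1 = - g 1 0 := by
  simp [Matrix.SpecialLinearGroup.coe_mul, coe_S, Matrix.mul_apply, Fin.sum_univ_two]

theorem S_mul_apply' (g : SL(2, ℤ)) :
    (S * g) 0 0 = - g 1 0 ∧ (S * g) 0 1 = - g 1 1 ∧ (S * g) 1 0 = g 0 0 ∧ (S * g) 1 1 = g 0 1 := by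
  simp [Matrix.SpecialLinearGroup.coe_mul, coe_S, Matrix.mul_apply, Fin.sum_univ_two]

theorem mul_T_apply (g : SL(2, ℤ)) :
    (g * T) 0 0 = g 0 0 ∧ (g * T) 0 1 = g 0 0 + g 0 1 ∧ (g * T) 1 0 = g 1 0 ∧
      (g * T) 1 1 = g 1 0 + g 1 1 := by
  simp [Matrix.SpecialLinearGroup.coe_mul, coe_T, Matrix.mul_apply, Fin.sum_univ_two]

theorem mul_T_inv_apply (g : SL(2, ℤ)) :
    (g * T⁻¹) 0 0 = g 0 0 ∧ (g * T⁻¹) 0 1 = - g 0 0 + g 0 1 ∧ (g * T⁻¹) 1 0 = g 1 0 ∧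
      (g * T⁻¹) 1 1 = - g 1 0 + g 1 1 := by
  simp [Matrix.SpecialLinearGroup.coe_mul, coe_T_inv, Matrix.mul_apply, Fin.sum_univ_two]

theorem Bf_mul_S (g : SL(2, ℤ)) :
    Bf (g * S) = 2 * (g 0 0 * g 1 0 + g 0 1 * g 1 1) - (g 0 0 * g 1 1 + g 0 1 * g 1 0) := by
  obtain ⟨h1, h2, h3, h4⟩ := mul_S_apply g
  unfold Bf
  rw [h1, h2, h3, h4]
  ring

theorem Bf_S_mul (g : SL(2, ℤ)) : Bf (S * g) = - Bf g := by
  obtain ⟨h1, h2, h3, h4⟩ := S_mul_apply' g
  unfold Bf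
  rw [h1, h2, h3, h4]
  ring

theorem Bf_mul_Uu (g : SL(2, ℤ)) : Bf (g * Uu) = Bf g := by
  obtain ⟨h1, h2, h3, h4⟩ := mul_T_inv_apply (g * S)
  obtain ⟨k1, k2, k3, k4⟩ := mul_S_apply g
  unfold Bf Uu
  rw [← mul_assoc, h1, h2, h3, h4, k1, k2, k3, k4]
  ring

theorem Bf_odd (g : SL(2, ℤ)) :
    Bf g = 2 * (g 0 0 * g 1 0 + g 0 1 * g 1 1 + g 0 1 * g 1 0) + 1 := by
  have := det_eq' g
  unfold Bf
  linarith

theorem Bf_ne_zero (g : SL(2, ℤ)) : Bf g ≠ 0 := by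
  rw [Bf_odd]
  omega

theorem chi_S_mul (g : SL(2, ℤ)) : chi (S * g) = 1 - chi g := by
  have h0 := Bf_ne_zero g
  unfold chi
  rw [Bf_S_mul]
  split_ifs with h1 h2 h2
  · omega
  · rfl
  · rfl
  · omega

theorem chi_one : chi 1 = 1 := by
  simp [chi, Bf]

theorem S_sq : S ^ 2 = (-1 : SL(2, ℤ)) := by
  ext i j
  fin_cases i <;> fin_cases j <;>
    simp [pow_two, Matrix.SpecialLinearGroup.coe_mul, coe_S, Matrix.mul_apply, Fin.sum_univ_two]

theorem mem_zpowers_of_chi_ne (h : SL(2, ℤ)) (hne : chi (h * S) ≠ chi h) :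
    h ∈ Subgroup.zpowers S := by
  have hdet := det_eq' h
  set a := h 0 0 with ha
  set b := h 0 1 with hb
  set c := h 1 0 with hc
  set d := h 1 1 with hd
  have h1 : Bf h = 2 * (a * c + b * d) + (a * d + b * c) := by unfold Bf; ring
  have h2 : Bf (h * S) = 2 * (a * c + b * d) - (a * d + b * c) := Bf_mul_S h
  have h3 : Bf h * Bf (h * S) < 0 := by
    have n1 := Bf_ne_zero h
    have n2 := Bf_ne_zero (h * S)
    unfold chi at hne
    split_ifs at hne with p1 p2 p2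
    · exact absurd rfl hne
    · exact mul_neg_of_neg_of_pos (lt_of_le_of_ne (not_lt.mp p2) n1) p1
    · exact mul_neg_of_pos_of_neg p2 (lt_of_le_of_ne (not_lt.mp p1) n2)
    · exact absurd rfl hne
  rw [h1, h2] at h3
  have h4 : (a * c) ^ 2 + (b * d) ^ 2 + (a * c) * (b * d) ≤ 0 := by
    have e : (a * d + b * c) ^ 2 = 1 + 4 * ((a * c) * (b * d)) := by
      have : (a * d + b * c) ^ 2 = (a * d - b * c) ^ 2 + 4 * ((a * c) * (b * d)) := by ring
      rw [this, hdet]; ring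
    nlinarith
  have hu : a * c = 0 := by nlinarith [sq_nonneg (a * c + b * d), sq_nonneg (a * c), sq_nonneg (b * d)]
  have hv : b * d = 0 := by nlinarith [sq_nonneg (a * c + b * d), sq_nonneg (a * c), sq_nonneg (b * d)]
  have key : ∀ (x : SL(2, ℤ)), x 0 0 = a → x 0 1 = b → x 1 0 = c → x 1 1 = d → x = h := by
    intro x x1 x2 x3 x4
    ext i j
    fin_cases i <;> fin_cases j <;> simp_all
  rcases mul_eq_zero.mp hu with ha0 | hc0
  · -- a = 0
    have hbc : b * c = -1 := by rw [ha0] at hdet; linarith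
    have hb0 : b ≠ 0 := by rintro hb0; rw [hb0] at hbc; simp at hbc
    have hd0 : d = 0 := (mul_eq_zero.mp hv).resolve_left hb0
    rcases Int.isUnit_iff.mp (IsUnit.of_mul_eq_one (-c) (by linarith) : IsUnit b) with hb1 | hb1
    · -- b = 1, c = -1 : h = S⁻¹
      refine ⟨-1, key _ ?_ ?_ ?_ ?_⟩ <;>
        simp [coe_S, Matrix.SpecialLinearGroup.coe_inv, Matrix.adjugate_fin_two, ha0, hd0, hb1]
      rw [hb1] at hbc; linarith
    · refine ⟨1, key _ ?_ ?_ ?_ ?_⟩ <;> simp [coe_S, ha0, hd0, hb1]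
      rw [hb1] at hbc; linarith
  · have had : a * d = 1 := by rw [hc0] at hdet; linarith
    have hd0 : d ≠ 0 := by rintro hd0; rw [hd0] at had; simp at had
    have hb0 : b = 0 := (mul_eq_zero.mp hv).resolve_right hd0
    rcases Int.isUnit_iff.mp (IsUnit.of_mul_eq_one d had : IsUnit a) with ha1 | ha1
    · refine ⟨0, key _ ?_ ?_ ?_ ?_⟩ <;> simp [hc0, hb0, ha1]
      rw [ha1] at had; linarith
    · refine ⟨2, key _ ?_ ?_ ?_ ?_⟩ <;>
        simp [show S ^ (2 : ℤ) = (-1 : SL(2, ℤ)) from by exact_mod_cast S_sq, hc0, hb0, ha1]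
      rw [ha1] at had; linarith

theorem T_eq : T = Uu⁻¹ * S := by
  simp [Uu]

theorem closure_S_Uu : Subgroup.closure {S, Uu} = (⊤ : Subgroup SL(2, ℤ)) := by
  rw [eq_top_iff, ← SpecialLinearGroup.SL2Z_generators, Subgroup.closure_le]
  rintro x (rfl | rfl)
  · exact Subgroup.subset_closure (by simp)
  · rw [T_eq]
    exact mul_mem (inv_mem (Subgroup.subset_closure (by simp))) (Subgroup.subset_closure (by simp))

theorem isSide : IsSide S Uu chi where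
  gen := closure_S_Uu
  mul_U h := by unfold chi; rw [Bf_mul_Uu]
  S_mul := chi_S_mul
  one := chi_one
  mem := mem_zpowers_of_chi_ne

end Fermat.Agent.S16.Crossing
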