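import Fermat.Prelude.Def_CuspForm_HeckeLocal
import Fermat.Prelude.Def_CuspForm_HeckeEvalForms
import Fermat.Prelude.Def_HeckeGalois_EichlerShimura
import Fermat.Prelude.Def_ModularCurve_ModularUnit
import Fermat.Prelude.Thm_ModularFormClass_qCoeff_heckeT
import Fermat.Prelude.Thm_ModularFormClass_qCoeff_heckeU
import Fermat.Prelude.Thm_CongruenceSubgroup_one_mem_strictPeriods_Gamma0
import Fermat.Prelude.Sol.S_CuspForm_intLattice_fg
import Fermat.Agent.S16.Arith

set_option autoImplicit false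
set_option linter.unusedSectionVars false
set_option linter.style.haveILetI false
set_option linter.deprecated false

open CuspForm ModularCurve ModularFormClass CongruenceSubgroup
open P2MW.S_CuspForm_intLattice_fg.W3WsD (mem_intLattice_iff qCoeff_add qCoeff_zsmul hΓ)

namespace Fermat.Agent.S16

noncomputable section

variable (p : ℕ) [Fact p.Prime]

/-- The action of a Hecke polynomial on `S_2(Γ0(p))`. -/
def act (τ : HeckeAlg) : Module.End ℂ (CuspForm (Gamma0 p) 2) :=
  ((heckeEvalForms p 2 τ : heckeAlgebra p 2 ∅) : Module.End ℂ (CuspForm (Gamma0 p) 2))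

/-- The Eisenstein character `T_ℓ ↦ 1 + ℓ`, `U_p ↦ 1`. -/
def eis : HeckeAlg →ₐ[ℤ] ℤ := MvPolynomial.aeval (eisensteinSystem p)

theorem act_one : act p 1 = 1 := by simp [act]

theorem act_mul (a b : HeckeAlg) : act p (a * b) = act p a * act p b := by simp [act]

theorem act_add (a b : HeckeAlg) : act p (a + b) = act p a + act p b := by simp [act]

theorem act_sub (a b : HeckeAlg) : act p (a - b) = act p a - act p b := by simp [act]

theorem act_C (c : ℤ) : act p (MvPolynomial.C c) = c • (1 : Module.End ℂ _) := by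
  rw [act, heckeEvalForms_C]
  simp

theorem act_X_of_ne (l : Nat.Primes) (h : ¬ (l : ℕ) ∣ p) :
    act p (MvPolynomial.X l) = heckeTLin 2 l.2 h := by
  have := heckeEvalForms_heckeGen_of_not_dvd (N := p) (k := 2) h
  rw [heckeGen] at this
  rw [act, this, heckeAlgebra.coe_T]

theorem act_X_self (l : Nat.Primes) (h : (l : ℕ) ∣ p) :
    act p (MvPolynomial.X l) = heckeULin 2 h := by
  have := heckeEvalForms_heckeGen_of_dvd (N := p) (k := 2) h
  rw [heckeGen] at this
  rw [act, this, heckeAlgebra.coe_U]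

/-- The `n`-th `q`-coefficient as a linear functional. -/
def coeffL (n : ℕ) : CuspForm (Gamma0 p) 2 →ₗ[ℂ] ℂ where
  toFun f := qCoeff f n
  map_add' f g := qCoeff_add f g n
  map_smul' c f := by
    simp only [qCoeff, RingHom.id_apply, CuspForm.IsGLPos.coe_smul]
    rw [ModularForm.qExpansion_smul one_pos (hΓ p) c f]
    simp

theorem coeffL_apply (n : ℕ) (f : CuspForm (Gamma0 p) 2) : coeffL p n f = qCoeff f n := rfl

theorem coeffL_heckeT {l : ℕ} (hl : l.Prime) (h : ¬ l ∣ p) (f : CuspForm (Gamma0 p) 2) (n : ℕ) :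
    coeffL p n (heckeTLin 2 hl h f)
      = coeffL p (n * l) f + if l ∣ n then (l : ℂ) * coeffL p (n / l) f else 0 := by
  simp only [coeffL_apply, coe_heckeTLin_apply]
  rw [ModularFormClass.qCoeff_heckeT f (hΓ p) hl.ne_zero n, ModularForm.coeffHeckeT_apply]
  norm_num

theorem coeffL_heckeU {l : ℕ} (hl : l.Prime) (h : l ∣ p) (f : CuspForm (Gamma0 p) 2) (n : ℕ) :
    coeffL p n (heckeULin 2 h f) = coeffL p (n * l) f := by
  simp only [coeffL_apply, coe_heckeULin_apply]
  rw [ModularFormClass.qCoeff_heckeU f (hΓ p) hl.ne_zero n, ModularForm.coeffHeckeU_apply]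

theorem eis_X_of_ne (l : Nat.Primes) (h : ¬ (l : ℕ) ∣ p) :
    eis p (MvPolynomial.X l) = 1 + (l : ℕ) := by
  simp [eis, eisensteinSystem_of_not_dvd h]

theorem eis_X_self (l : Nat.Primes) (h : (l : ℕ) ∣ p) :
    eis p (MvPolynomial.X l) = 1 := by
  simp [eis, eisensteinSystem_of_dvd h]

/-- Hecke polynomials `τ_k` with `a_1(τ_k f) = a_k(f)` and `eis τ_k = σ'(k)`. -/
theorem exists_tau (k : ℕ) (hk : 1 ≤ k) :
    ∃ τ : HeckeAlg, eis p τ = (sigmaP p k : ℤ) ∧
      ∀ f : CuspForm (Gamma0 p) 2, coeffL p 1 (act p τ f) = coeffL p k f := by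
  have hp : p.Prime := Fact.out
  induction k using Nat.strong_induction_on with
  | _ k ih =>
    rcases Nat.eq_or_lt_of_le hk with rfl | hk1
    · exact ⟨1, by simp [sigmaP_one hp], fun f => by simp [act_one]⟩
    have hl : k.minFac.Prime := Nat.minFac_prime hk1.ne'
    set l := k.minFac with hldef
    obtain ⟨k', hk'⟩ : l ∣ k := Nat.minFac_dvd k
    have hk'pos : 1 ≤ k' := by
      rcases Nat.eq_zero_or_pos k' with h0 | h0
      · simp [h0] at hk'; omega
      · exact h0
    have hk'lt : k' < k := by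
      rw [hk']; exact (Nat.lt_mul_iff_one_lt_left hk'pos).mpr hl.one_lt
    obtain ⟨τ', hτ'e, hτ'⟩ := ih k' hk'lt hk'pos
    have hkk : k = k' * l := by rw [hk', mul_comm]
    by_cases hlp : l ∣ p
    · have hlp' : l = p := (Nat.prime_dvd_prime_iff_eq hl hp).mp hlp
      refine ⟨τ' * MvPolynomial.X ⟨l, hl⟩, ?_, fun f => ?_⟩
      · rw [map_mul, hτ'e, eis_X_self p ⟨l, hl⟩ hlp, mul_one, hkk, hlp', sigmaP_mul_self hp]
      · rw [act_mul, Module.End.mul_apply, hτ', act_X_self p ⟨l, hl⟩ hlp, coeffL_heckeU p hl hlp, hkk]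
    · have hne : l ≠ p := fun h => hlp (h ▸ dvd_rfl)
      have harith := sigmaP_mul_prime hp hl hne k'
      by_cases hlk : l ∣ k'
      · obtain ⟨k'', hk''⟩ := hlk
        have hk''pos : 1 ≤ k'' := by
          rcases Nat.eq_zero_or_pos k'' with h0 | h0
          · simp [h0] at hk''; omega
          · exact h0
        have hk''lt : k'' < k := lt_of_le_of_lt
          (by rw [hk'']; exact Nat.le_mul_of_pos_left _ hl.pos) hk'lt
        obtain ⟨τ'', hτ''e, hτ''⟩ := ih k'' hk''lt hk''pos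
        have hdiv : k' / l = k'' := by rw [hk'', Nat.mul_div_cancel_left _ hl.pos]
        rw [if_pos ⟨k'', hk''⟩, hdiv] at harith
        refine ⟨τ' * MvPolynomial.X ⟨l, hl⟩ - MvPolynomial.C (l : ℤ) * τ'', ?_, fun f => ?_⟩
        · rw [map_sub, map_mul, map_mul, hτ'e, hτ''e, eis_X_of_ne p ⟨l, hl⟩ hlp, hkk]
          have : eis p (MvPolynomial.C (l : ℤ)) = l := by simp [eis]
          rw [this]
          have h2 : ((sigmaP p (k' * l) : ℤ)) + l * sigmaP p k'' = (1 + l) * sigmaP p k' := by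
            exact_mod_cast harith
          simp only
          linarith
        · rw [act_sub, LinearMap.sub_apply, map_sub, act_mul, Module.End.mul_apply, hτ',
            act_X_of_ne p ⟨l, hl⟩ hlp, coeffL_heckeT p hl hlp, if_pos ⟨k'', hk''⟩, hdiv,
            act_mul, Module.End.mul_apply, act_C]
          simp only [LinearMap.smul_apply, Module.End.one_apply, map_zsmul, hτ'', hkk]
          simp
      · rw [if_neg hlk, add_zero] at harith
        refine ⟨τ' * MvPolynomial.X ⟨l, hl⟩, ?_, fun f => ?_⟩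
        · rw [map_mul, hτ'e, eis_X_of_ne p ⟨l, hl⟩ hlp, hkk, harith]
          push_cast; ring
        · rw [act_mul, Module.End.mul_apply, hτ', act_X_of_ne p ⟨l, hl⟩ hlp,
            coeffL_heckeT p hl hlp, if_neg hlk, add_zero, hkk]


/-- the lattice `L` of cusp forms with integral `q`-expansion. -/
abbrev LL : Type := ↥(intLattice p 2)

/-- the Hecke algebra acting on `L`. -/
abbrev TT : Type := ↥(heckeLatticeAlgebra p ∅)

/-- The structure map `ℤ[X_ℓ] → 𝕋_L`. -/
def rho : HeckeAlg →+* TT p := (latticeRestrictHom p ∅).toRingHom.comp (heckeEvalForms p 2)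

theorem rho_apply (τ : HeckeAlg) (f : LL p) :
    ((((rho p τ : TT p) : Module.End ℤ (LL p)) f : LL p) : CuspForm (Gamma0 p) 2)
      = act p τ f.1 := rfl

theorem exists_act_eq (t : heckeAlgebra p 2 ∅) : ∃ τ : HeckeAlg, heckeEvalForms p 2 τ = t := by
  obtain ⟨t, ht⟩ := t
  suffices h : ∃ τ : HeckeAlg, act p τ = t by
    obtain ⟨τ, hτ⟩ := h
    exact ⟨τ, Subtype.ext hτ⟩
  unfold heckeAlgebra at ht
  induction ht using Algebra.adjoin_induction with
  | mem x hx =>
    rcases hx with ⟨l, hl, hlN, -, rfl⟩ | ⟨q, hqN, hq, -, rfl⟩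
    · exact ⟨MvPolynomial.X ⟨l, hl⟩, act_X_of_ne p ⟨l, hl⟩ hlN⟩
    · exact ⟨MvPolynomial.X ⟨q, hq⟩, act_X_self p ⟨q, hq⟩ hqN⟩
  | algebraMap r =>
    exact ⟨MvPolynomial.C r, by rw [act_C, Algebra.algebraMap_eq_smul_one]⟩
  | add x y _ _ hx hy =>
    obtain ⟨a, rfl⟩ := hx
    obtain ⟨b, rfl⟩ := hy
    exact ⟨a + b, act_add p a b⟩
  | mul x y _ _ hx hy =>
    obtain ⟨a, rfl⟩ := hx
    obtain ⟨b, rfl⟩ := hy
    exact ⟨a * b, act_mul p a b⟩

theorem rho_surjective : Function.Surjective (rho p) := by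
  intro t
  obtain ⟨s, rfl⟩ := latticeRestrictHom_surjective p ∅ t
  obtain ⟨τ, rfl⟩ := exists_act_eq p s
  exact ⟨τ, rfl⟩

theorem coeffL_zero_eq (f : CuspForm (Gamma0 p) 2) : coeffL p 0 f = 0 :=
  CuspFormClass.qExpansion_coeff_zero f one_pos (one_mem_strictPeriods_Gamma0 p)

theorem eq_zero_of_coeffL (f : CuspForm (Gamma0 p) 2) (h : ∀ k, 1 ≤ k → coeffL p k f = 0) :
    f = 0 := by
  apply P2MW.S_CuspForm_intLattice_fg.W3WsD.trunc_injective p 2
  rw [map_zero]
  funext i
  rcases Nat.eq_zero_or_pos (i : ℕ) with h0 | h0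
  · have := coeffL_zero_eq p f
    simpa [P2MW.S_CuspForm_intLattice_fg.W3WsD.trunc, h0, coeffL_apply] using this
  · exact h i h0

/-- integral coefficients on `L`. -/
def coeffZfun (n : ℕ) (f : LL p) : ℤ := Classical.choose ((mem_intLattice_iff f.1).mp f.2 n)

theorem coeffZfun_spec (n : ℕ) (f : LL p) : ((coeffZfun p n f : ℤ) : ℂ) = coeffL p n f.1 :=
  (Classical.choose_spec ((mem_intLattice_iff f.1).mp f.2 n)).symm

/-- integral coefficient functionals on `L`. -/
def coeffZ (n : ℕ) : LL p →ₗ[ℤ] ℤ where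
  toFun := coeffZfun p n
  map_add' f g := by
    apply Int.cast_injective (α := ℂ)
    push_cast
    rw [coeffZfun_spec, coeffZfun_spec, coeffZfun_spec]
    simp
  map_smul' c f := by
    apply Int.cast_injective (α := ℂ)
    simp only [RingHom.id_apply, smul_eq_mul]
    push_cast
    rw [coeffZfun_spec, coeffZfun_spec]
    simp

theorem coeffZ_spec (n : ℕ) (f : LL p) : ((coeffZ p n f : ℤ) : ℂ) = coeffL p n f.1 :=
  coeffZfun_spec p n f

/-- The `a_1`-pairing. -/
def pairing : TT p →ₗ[ℤ] LL p →ₗ[ℤ] ℤ :=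
  (LinearMap.llcomp ℤ (LL p) (LL p) ℤ (coeffZ p 1)).comp (heckeLatticeAlgebra p ∅).val.toLinearMap

theorem pairing_apply (t : TT p) (f : LL p) : pairing p t f = coeffZ p 1 (t.1 f) := rfl

theorem coeffZ_eq_pairing {k : ℕ} {τ : HeckeAlg}
    (hτ : ∀ f : CuspForm (Gamma0 p) 2, coeffL p 1 (act p τ f) = coeffL p k f) (f : LL p) :
    coeffZ p k f = pairing p (rho p τ) f := by
  apply Int.cast_injective (α := ℂ)
  rw [pairing_apply, coeffZ_spec, coeffZ_spec, rho_apply, hτ]

theorem LL_eq_zero (f : LL p) (h : ∀ k, 1 ≤ k → coeffZ p k f = 0) : f = 0 := by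
  apply Subtype.ext
  apply eq_zero_of_coeffL
  intro k hk
  rw [← coeffZ_spec, h k hk, Int.cast_zero]

theorem pairing_flip_injective : Function.Injective (pairing p).flip := by
  refine (injective_iff_map_eq_zero _).mpr fun f hf => LL_eq_zero p f fun k hk => ?_
  obtain ⟨τ, -, hτ⟩ := exists_tau p k hk
  rw [coeffZ_eq_pairing p hτ, ← LinearMap.flip_apply, hf, LinearMap.zero_apply]

theorem pairing_injective : Function.Injective (pairing p) := by
  refine (injective_iff_map_eq_zero _).mpr fun t ht => ?_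
  apply Subtype.ext
  refine LinearMap.ext fun f => LL_eq_zero p _ fun k hk => ?_
  obtain ⟨τ, -, hτ⟩ := exists_tau p k hk
  rw [coeffZ_eq_pairing p hτ, pairing_apply]
  have : (rho p τ).1 (t.1 f) = t.1 ((rho p τ).1 f) := by
    have h := congrArg (fun s : TT p => s.1 f) (mul_comm (rho p τ) t)
    simpa using h
  rw [this, ← pairing_apply, ht, LinearMap.zero_apply]

theorem finrank_TT_eq : Module.finrank ℤ (TT p) = Module.finrank ℤ (LL p) := by
  haveI := intLattice.moduleFinite p
  haveI := intLattice.moduleFree p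
  apply le_antisymm
  · have := LinearMap.finrank_le_finrank_of_injective (pairing_injective p)
    rwa [Module.finrank_linearMap_self] at this
  · have := LinearMap.finrank_le_finrank_of_injective (pairing_flip_injective p)
    rwa [Module.finrank_linearMap_self] at this

/-- Perfectness of the pairing (the half we need). -/
theorem exists_form (lam : TT p →ₗ[ℤ] ℤ) : ∃ f : LL p, ∀ t : TT p, pairing p t f = lam t := by
  haveI := intLattice.moduleFinite p
  haveI := intLattice.moduleFree p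
  set Φ := (pairing p).flip with hΦ
  have hrank : Module.finrank ℤ (LinearMap.range Φ) = Module.finrank ℤ (TT p →ₗ[ℤ] ℤ) := by
    rw [LinearMap.finrank_range_of_inj (pairing_flip_injective p), Module.finrank_linearMap_self,
      finrank_TT_eq]
  haveI : Finite ((TT p →ₗ[ℤ] ℤ) ⧸ (LinearMap.range Φ).toAddSubgroup) :=
    Submodule.finiteQuotientOfFreeOfRankEq _ hrank
  set M : ℕ := (LinearMap.range Φ).toAddSubgroup.index with hM
  have hM0 : M ≠ 0 := AddSubgroup.index_ne_zero_of_finite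
  obtain ⟨f', hf'⟩ : M • lam ∈ LinearMap.range Φ :=
    AddSubgroup.nsmul_index_mem (LinearMap.range Φ).toAddSubgroup lam
  have hpair : ∀ t : TT p, pairing p t f' = M * lam t := by
    intro t
    have := congrArg (fun φ : TT p →ₗ[ℤ] ℤ => φ t) hf'
    simpa [hΦ] using this
  -- divide by `M`
  have hMC : (M : ℂ) ≠ 0 := Nat.cast_ne_zero.mpr hM0
  have hg : ((M : ℂ)⁻¹ • f'.1) ∈ intLattice p 2 := by
    rw [mem_intLattice_iff]
    intro k
    rcases Nat.eq_zero_or_pos k with rfl | hk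
    · exact ⟨0, by rw [Int.cast_zero]; exact coeffL_zero_eq p ((M : ℂ)⁻¹ • f'.1)⟩
    · obtain ⟨τ, -, hτ⟩ := exists_tau p k hk
      refine ⟨lam (rho p τ), ?_⟩
      change coeffL p k _ = _
      rw [map_smul, ← coeffZ_spec, coeffZ_eq_pairing p hτ, hpair]
      push_cast
      rw [smul_eq_mul]
      field_simp
  refine ⟨⟨_, hg⟩, fun t => ?_⟩
  have hsm : (M : ℤ) • (⟨_, hg⟩ : LL p) = f' := by
    apply Subtype.ext
    change (M : ℤ) • ((M : ℂ)⁻¹ • f'.1) = f'.1
    rw [← Int.cast_smul_eq_zsmul ℂ, smul_smul]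
    simp [hMC]
  have h2 := hpair t
  rw [← hsm, map_smul, smul_eq_mul] at h2
  exact mul_left_cancel₀ (Int.natCast_ne_zero.mpr hM0) h2

/-- **(U1)** If `m` divides `eis τ` for all `τ` killing `L`, there is a cusp form with integral
coefficients congruent to `δ = ∑ σ'(k) q^k` modulo `m`. -/
theorem exists_form_of_dvd (m : ℤ) (hm : ∀ τ : HeckeAlg, rho p τ = 0 → m ∣ eis p τ) :
    ∃ f : CuspForm (Gamma0 p) 2, ∀ k : ℕ, 1 ≤ k →
      ∃ c : ℤ, qCoeff f k = ((sigmaP p k + m * c : ℤ) : ℂ) := by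
  -- a linear section of `rho`
  let rhoL : HeckeAlg →ₗ[ℤ] TT p := (rho p).toIntAlgHom.toLinearMap
  obtain ⟨σ, hσ⟩ := Module.projective_lifting_property rhoL LinearMap.id (rho_surjective p)
  obtain ⟨f, hf⟩ := exists_form p ((eis p).toLinearMap.comp σ)
  refine ⟨f.1, fun k hk => ?_⟩
  obtain ⟨τ, hτe, hτ⟩ := exists_tau p k hk
  have h1 : rho p (σ (rho p τ) - τ) = 0 := by
    have := congrArg (fun φ : TT p →ₗ[ℤ] TT p => φ (rho p τ)) hσ
    rw [map_sub, sub_eq_zero]
    simpa [rhoL] using this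
  obtain ⟨c, hc⟩ := hm _ h1
  refine ⟨c, ?_⟩
  change coeffL p k f.1 = _
  rw [← coeffZ_spec, coeffZ_eq_pairing p hτ, hf]
  congr 1
  rw [map_sub, hτe] at hc
  simp only [LinearMap.comp_apply, AlgHom.toLinearMap_apply]
  linarith

end

end Fermat.Agent.S16
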