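import Mathlib
import Fermat.Prelude.Def_ModularForm_HeckeOperatorForms
import Fermat.Prelude.Sol.S_ModularForm_heckeT_slash_eq_self_of_mem_Gamma0

set_option autoImplicit false

namespace Fermat.Agent.S16

open UpperHalfPlane ModularForm MatrixGroups CongruenceSubgroup Matrix.SpecialLinearGroup

/-- abstract data of a Hecke correspondence on a subgroup `Γ` of `SL₂(ℤ)`. -/
structure HData (Γ : Subgroup SL(2, ℤ)) where
  ι : Type
  fin : Fintype ι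
  β : ι → GL (Fin 2) ℝ
  act : Γ → Equiv.Perm ι
  κ : Γ → ι → Γ
  eq : ∀ (γ : Γ) (i : ι), β i * mapGL ℝ (γ : SL(2, ℤ)) = mapGL ℝ (κ γ i : SL(2, ℤ)) * β (act γ i)
  act_mul : ∀ (γ γ' : Γ) (i : ι), act (γ * γ') i = act γ' (act γ i)

namespace HData

variable {Γ : Subgroup SL(2, ℤ)} (D : HData Γ)

instance : Fintype D.ι := D.fin

theorem κ_mul (γ γ' : Γ) (i : D.ι) : D.κ (γ * γ') i = D.κ γ i * D.κ γ' (D.act γ i) := by
  have h1 := D.eq (γ * γ') i
  have h2 := D.eq γ i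
  have h3 := D.eq γ' (D.act γ i)
  rw [D.act_mul] at h1
  have h4 : mapGL ℝ ((D.κ (γ * γ') i : Γ) : SL(2, ℤ)) * D.β (D.act γ' (D.act γ i)) =
      mapGL ℝ ((D.κ γ i * D.κ γ' (D.act γ i) : Γ) : SL(2, ℤ)) * D.β (D.act γ' (D.act γ i)) := by
    rw [← h1, Subgroup.coe_mul, Subgroup.coe_mul, map_mul, map_mul, ← mul_assoc, h2, mul_assoc, h3,
      mul_assoc]
  have h5 := mul_right_cancel h4
  exact Subtype.ext (mapGL_injective h5)

variable (A : Type*) [AddCommGroup A]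

/-- the Hecke operator on `Hom(Γ, A)`. -/
def op : (Additive Γ →+ A) →+ (Additive Γ →+ A) where
  toFun ψ := AddMonoidHom.mk' (fun γ => ∑ i, ψ (Additive.ofMul (D.κ (Additive.toMul γ) i))) (by
    intro γ γ'
    have : ∀ i, ψ (Additive.ofMul (D.κ (Additive.toMul (γ + γ')) i)) =
        ψ (Additive.ofMul (D.κ (Additive.toMul γ) i)) +
        ψ (Additive.ofMul (D.κ (Additive.toMul γ') (D.act (Additive.toMul γ) i))) := by
      intro i
      rw [toMul_add, κ_mul, ofMul_mul, map_add]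
    simp_rw [this]
    rw [Finset.sum_add_distrib]
    congr 1
    exact Equiv.sum_comp (D.act (Additive.toMul γ))
      (fun i => ψ (Additive.ofMul (D.κ (Additive.toMul γ') i))))
  map_zero' := by
    ext γ
    simp
  map_add' ψ ψ' := by
    ext γ
    simp [Finset.sum_add_distrib]

variable {A}

theorem op_apply (ψ : Additive Γ →+ A) (γ : Γ) :
    D.op A ψ (Additive.ofMul γ) = ∑ i, ψ (Additive.ofMul (D.κ γ i)) := rfl

theorem op_comp {B : Type*} [AddCommGroup B] (u : A →+ B) (ψ : Additive Γ →+ A) :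
    D.op B (u.comp ψ) = u.comp (D.op A ψ) := by
  ext γ
  show ∑ i, u (ψ _) = u (∑ i, ψ _)
  rw [map_sum]

/-- the operator on functions. -/
noncomputable def fn (F : ℍ → ℂ) (z : ℍ) : ℂ := ∑ i, F (D.β i • z)

theorem fn_period {F : ℍ → ℂ} {ψ : Additive Γ →+ ℂ}
    (h : ∀ (γ : Γ) (z : ℍ), F ((γ : SL(2, ℤ)) • z) - F z = ψ (Additive.ofMul γ)) (γ : Γ) (z : ℍ) :
    D.fn F ((γ : SL(2, ℤ)) • z) - D.fn F z = D.op ℂ ψ (Additive.ofMul γ) := by
  unfold fn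
  rw [op_apply, ← Equiv.sum_comp (D.act γ) (fun i => F (D.β i • z)), ← Finset.sum_sub_distrib]
  refine Finset.sum_congr rfl fun i _ => ?_
  rw [← h (D.κ γ i) (D.β (D.act γ i) • z)]
  congr 2
  have := D.eq γ i
  calc D.β i • (γ : SL(2, ℤ)) • z = (D.β i * mapGL ℝ (γ : SL(2, ℤ))) • z := by
        rw [mul_smul]; rfl
    _ = _ := by rw [this, mul_smul]; rfl

/-- a character which is transformed by a coboundary is an eigenvector. -/
theorem op_eq_card_smul (χ : Additive Γ →+ A) (w : D.ι → A)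
    (h : ∀ γ i, χ (Additive.ofMul (D.κ γ i)) = χ (Additive.ofMul γ) + w i - w (D.act γ i)) :
    D.op A χ = Fintype.card D.ι • χ := by
  ext γ
  show ∑ i, χ (Additive.ofMul (D.κ (Additive.toMul γ) i)) = _
  simp_rw [h]
  rw [Finset.sum_sub_distrib, Finset.sum_add_distrib,
    Equiv.sum_comp (D.act (Additive.toMul γ)) w]
  simp
  rfl

end HData

open P2MW.S_ModularForm_heckeT_slash_eq_self_of_mem_Gamma0.ModularForm.HeckeSlashInvariance

theorem dvd_of_mem_G0 {N : ℕ} (γ : Gamma0 N) : (N : ℤ) ∣ (γ : SL(2, ℤ)) 1 0 :=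
  (ZMod.intCast_zmod_eq_zero_iff_dvd _ _).mp (Gamma0_mem.mp γ.2)

theorem mem_G0_of_dvd {N : ℕ} {g : SL(2, ℤ)} (h : (N : ℤ) ∣ g 1 0) : g ∈ Gamma0 N :=
  Gamma0_mem.mpr ((ZMod.intCast_zmod_eq_zero_iff_dvd _ _).mpr h)

theorem redMatrix_mul (ℓ : ℕ) [Fact ℓ.Prime] (g g' : SL(2, ℤ)) :
    redMatrix ℓ (g * g') = redMatrix ℓ g' * redMatrix ℓ g := by
  ext i j
  fin_cases i <;> fin_cases j <;>
    simp [redMatrix, Matrix.mul_apply, Fin.sum_univ_two] <;> ring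

/-- the data of `T_ℓ` on `Γ₀(N)`, `ℓ ∤ N`. -/
noncomputable def dataT (N ℓ : ℕ) [Fact ℓ.Prime] (hℓN : ¬ ℓ ∣ N) : HData (Gamma0 N) where
  ι := OnePoint (ZMod ℓ)
  fin := inferInstance
  β := heckeRep ℓ
  act γ := MulAction.toPerm (redMatrix ℓ (γ : SL(2, ℤ)))
  κ γ x := ⟨(heckeRep_mul hℓN (γ : SL(2, ℤ)) (dvd_of_mem_G0 γ) x).choose,
    mem_G0_of_dvd (heckeRep_mul hℓN (γ : SL(2, ℤ)) (dvd_of_mem_G0 γ) x).choose_spec.1⟩
  eq γ x := (heckeRep_mul hℓN (γ : SL(2, ℤ)) (dvd_of_mem_G0 γ) x).choose_spec.2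
  act_mul γ γ' x := by
    show redMatrix ℓ ((γ * γ' : Gamma0 N) : SL(2, ℤ)) • x =
      redMatrix ℓ (γ' : SL(2, ℤ)) • redMatrix ℓ (γ : SL(2, ℤ)) • x
    rw [Subgroup.coe_mul, redMatrix_mul, mul_smul]

theorem zmod_eq_zero_of_dvd {N q : ℕ} (hqN : q ∣ N) (γ : Gamma0 N) :
    (((γ : SL(2, ℤ)) 1 0 : ℤ) : ZMod q) = 0 :=
  (ZMod.intCast_zmod_eq_zero_iff_dvd _ _).mpr
    ((Int.natCast_dvd_natCast.mpr hqN).trans (dvd_of_mem_G0 γ))

/-- the data of `U_q` on `Γ₀(N)`, `q ∣ N`. -/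
noncomputable def dataU (N q : ℕ) [NeZero q] (hqN : q ∣ N) : HData (Gamma0 N) where
  ι := ZMod q
  fin := inferInstance
  β x := heckeMatrix q x.val
  act γ := affinePerm (γ : SL(2, ℤ)) (zmod_eq_zero_of_dvd hqN γ)
  κ γ x := ⟨(heckeMatrix_mul_of_dvd (γ : SL(2, ℤ))
      ((Int.natCast_dvd_natCast.mpr hqN).trans (dvd_of_mem_G0 γ)) x).choose,
    mem_G0_of_dvd (by
      rw [(heckeMatrix_mul_of_dvd (γ : SL(2, ℤ))
      ((Int.natCast_dvd_natCast.mpr hqN).trans (dvd_of_mem_G0 γ)) x).choose_spec.1]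
      exact Dvd.dvd.mul_left (dvd_of_mem_G0 γ) _)⟩
  eq γ x := (heckeMatrix_mul_of_dvd (γ : SL(2, ℤ))
      ((Int.natCast_dvd_natCast.mpr hqN).trans (dvd_of_mem_G0 γ)) x).choose_spec.2
  act_mul γ γ' x := by
    have h1 := zmod_eq_zero_of_dvd hqN γ
    have h2 := zmod_eq_zero_of_dvd hqN γ'
    have h3 := unit_of_apply_one_zero_eq_zero (γ : SL(2, ℤ)) h1
    rw [affinePerm_apply, affinePerm_apply, affinePerm_apply, Subgroup.coe_mul]
    simp only [Matrix.SpecialLinearGroup.coe_mul, Matrix.mul_apply, Fin.sum_univ_two]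
    push_cast
    rw [h1]
    linear_combination ((((γ' : SL(2, ℤ)) 1 1 : ℤ) : ZMod q) * (((γ' : SL(2, ℤ)) 0 1 : ℤ) : ZMod q)) * h3

end Fermat.Agent.S16
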