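import Mathlib
import Fermat.Agent.S16.HeckeHom
import Fermat.Prelude.Def_ModularCurve_ModularUnit
import Fermat.Prelude.Def_ModularCurve_PeriodMap

set_option autoImplicit false

namespace Fermat.Agent.S16

open UpperHalfPlane ModularForm MatrixGroups CongruenceSubgroup Matrix.SpecialLinearGroup
open P2MW.S_ModularForm_heckeT_slash_eq_self_of_mem_Gamma0.ModularForm.HeckeSlashInvariance

/-- lower right entry of the representatives. -/
def repD (ℓ : ℕ) (x : OnePoint (ZMod ℓ)) : ℤ := x.elim 1 (fun _ => (ℓ : ℤ))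

/-- upper right entry of the representatives. -/
def repB (ℓ : ℕ) (x : OnePoint (ZMod ℓ)) : ℤ := x.elim 0 (fun j => (j.val : ℤ))

theorem heckeRep_row (ℓ : ℕ) [NeZero ℓ] (x : OnePoint (ZMod ℓ)) :
    (heckeRep ℓ x).val 1 0 = 0 ∧ (heckeRep ℓ x).val 1 1 = (repD ℓ x : ℝ) ∧
      (heckeRep ℓ x).val 0 1 = (repB ℓ x : ℝ) := by
  induction x using OnePoint.rec with
  | infty => simp [heckeRep, repD, repB, val_heckeDiagMatrix (NeZero.ne ℓ)]
  | coe j => simp [heckeRep, repD, repB, val_heckeMatrix (NeZero.ne ℓ)]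

theorem entry_of_eq (ℓ : ℕ) [NeZero ℓ] (g g' : SL(2, ℤ)) (x x' : OnePoint (ZMod ℓ))
    (h : heckeRep ℓ x * mapGL ℝ g = mapGL ℝ g' * heckeRep ℓ x') :
    repD ℓ x * g 1 1 = g' 1 0 * repB ℓ x' + g' 1 1 * repD ℓ x' := by
  have h1 := congrArg (fun M : GL (Fin 2) ℝ => M.val 1 1) h
  obtain ⟨a1, a2, a3⟩ := heckeRep_row ℓ x
  obtain ⟨b1, b2, b3⟩ := heckeRep_row ℓ x'
  simp only [Units.val_mul, Matrix.mul_apply, Fin.sum_univ_two, a1, a2, b2, b3] at h1
  simp at h1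
  exact_mod_cast h1

theorem entry_of_eq_U (q : ℕ) [NeZero q] (g g' : SL(2, ℤ)) (j j' : ℕ)
    (h : heckeMatrix q j * mapGL ℝ g = mapGL ℝ g' * heckeMatrix q j') :
    g' 1 1 = g 1 1 - g 1 0 * j' := by
  have h1 := congrArg (fun M : GL (Fin 2) ℝ => M.val 1 1) h
  have h0 := congrArg (fun M : GL (Fin 2) ℝ => M.val 1 0) h
  simp [Matrix.mul_apply, Fin.sum_univ_two, val_heckeMatrix (NeZero.ne q)] at h1 h0
  have hq : (q : ℤ) ≠ 0 := by exact_mod_cast NeZero.ne q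
  have h1' : (q : ℤ) * g 1 1 = g' 1 0 * j' + g' 1 1 * q := by exact_mod_cast h1
  have h0' : (q : ℤ) * g 1 0 = g' 1 0 := by exact_mod_cast h0
  apply mul_left_cancel₀ hq
  rw [← h0'] at h1'
  linear_combination -h1'

/-- `γ ↦ d mod N` as a unit. -/
noncomputable def dUnit (N : ℕ) : Gamma0 N →* (ZMod N)ˣ := (Gamma0Map N).toHomUnits

theorem dUnit_val (N : ℕ) (γ : Gamma0 N) :
    ((dUnit N γ : (ZMod N)ˣ) : ZMod N) = (((γ : SL(2, ℤ)) 1 1 : ℤ) : ZMod N) := rfl

variable {A : Type*} [AddCommGroup A]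

/-- the homomorphism `Γ₀(N) → A` attached to a character of `(ℤ/N)ˣ`. -/
noncomputable def chiHom (N : ℕ) (χ : Additive (ZMod N)ˣ →+ A) : Additive (Gamma0 N) →+ A :=
  χ.comp (MonoidHom.toAdditive (dUnit N))

theorem chiHom_apply (N : ℕ) (χ : Additive (ZMod N)ˣ →+ A) (γ : Gamma0 N) :
    chiHom N χ (Additive.ofMul γ) = χ (Additive.ofMul (dUnit N γ)) := rfl

theorem opU_chiHom (N q : ℕ) [NeZero q] (hqN : q ∣ N) (χ : Additive (ZMod N)ˣ →+ A) :
    (dataU N q hqN).op A (chiHom N χ) = q • chiHom N χ := by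
  have := (dataU N q hqN).op_eq_card_smul (chiHom N χ) (fun _ => 0) (by
    intro γ i
    rw [chiHom_apply, chiHom_apply, add_zero, sub_zero]
    congr 2
    apply Units.ext
    rw [dUnit_val, dUnit_val]
    have h := entry_of_eq_U q _ _ _ _ ((dataU N q hqN).eq γ i)
    rw [h]
    push_cast
    rw [Gamma0_mem.mp γ.2]
    simp)
  rw [this]
  congr 1
  exact ZMod.card q

theorem opT_chiHom (N ℓ : ℕ) [Fact ℓ.Prime] (hℓN : ¬ ℓ ∣ N) (χ : Additive (ZMod N)ˣ →+ A) :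
    (dataT N ℓ hℓN).op A (chiHom N χ) = (ℓ + 1) • chiHom N χ := by
  have hcop : Nat.Coprime ℓ N := (Nat.Prime.coprime_iff_not_dvd Fact.out).mpr hℓN
  let u : OnePoint (ZMod ℓ) → (ZMod N)ˣ := fun x => x.elim 1 (fun _ => ZMod.unitOfCoprime ℓ hcop)
  have hu : ∀ x, ((u x : (ZMod N)ˣ) : ZMod N) = ((repD ℓ x : ℤ) : ZMod N) := by
    intro x
    induction x using OnePoint.rec with
    | infty => simp [u, repD]
    | coe j => simp [u, repD]
  have := (dataT N ℓ hℓN).op_eq_card_smul (chiHom N χ) (fun x => χ (Additive.ofMul (u x))) (by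
    intro γ i
    rw [chiHom_apply, chiHom_apply, eq_sub_iff_add_eq, ← map_add χ, ← map_add χ, ← ofMul_mul,
      ← ofMul_mul]
    congr 2
    apply Units.ext
    rw [Units.val_mul, Units.val_mul, dUnit_val, dUnit_val]
    have e1 : ((u ((dataT N ℓ hℓN).act γ i) : (ZMod N)ˣ) : ZMod N) = _ := hu _
    have e2 : ((u i : (ZMod N)ˣ) : ZMod N) = _ := hu _
    have h := entry_of_eq ℓ _ _ _ _ ((dataT N ℓ hℓN).eq γ i)
    have h2 := congrArg (Int.cast : ℤ → ZMod N) h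
    push_cast at h2
    rw [Gamma0_mem.mp ((dataT N ℓ hℓN).κ γ i).2] at h2
    rw [e1, e2]
    linear_combination -h2)
  rw [this]
  congr 1
  show Fintype.card (Option (ZMod ℓ)) = _
  rw [Fintype.card_option, ZMod.card]


theorem exists_chi0 (p : ℕ) [Fact p.Prime] :
    ∃ χ : Additive (ZMod p)ˣ →+ ZMod (ModularCurve.eisensteinNumerator p),
      (∃ u, χ u = 1) ∧ ∀ u : (ZMod p)ˣ, u ^ 12 = 1 → χ (Additive.ofMul u) = 0 := by
  have hp : p.Prime := Fact.out
  obtain ⟨g, hg⟩ := (inferInstance : IsCyclic (ZMod p)ˣ).exists_generator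
  have hcard : Nat.card (Additive (ZMod p)ˣ) = p - 1 := by
    show Nat.card (ZMod p)ˣ = p - 1
    rw [Nat.card_eq_fintype_card]
    exact ZMod.card_units p
  let e : ZMod (p - 1) ≃+ Additive (ZMod p)ˣ :=
    zmodAddEquivOfGenerator (G := Additive (ZMod p)ˣ) (g := Additive.ofMul g) hg hcard
  have hn : ModularCurve.eisensteinNumerator p ∣ p - 1 := ModularCurve.eisensteinNumerator_dvd p
  refine ⟨(ZMod.castHom hn (ZMod (ModularCurve.eisensteinNumerator p))).toAddMonoidHom.comp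
    e.symm.toAddMonoidHom, ⟨e 1, ?_⟩, ?_⟩
  · show (ZMod.castHom hn (ZMod (ModularCurve.eisensteinNumerator p))) (e.symm (e 1)) = 1
    rw [AddEquiv.symm_apply_apply, map_one]
  · intro u hu
    set x : ZMod (p - 1) := e.symm (Additive.ofMul u) with hx
    have h12 : (12 : ℕ) • x = 0 := by
      rw [hx, ← map_nsmul, ← ofMul_pow, hu]
      simp
    have : NeZero (p - 1) := ⟨by have := hp.two_le; omega⟩
    have h1 : ((12 * x.val : ℕ) : ZMod (p - 1)) = 0 := by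
      push_cast
      rw [ZMod.natCast_zmod_val]
      simpa using h12
    rw [ZMod.natCast_eq_zero_iff] at h1
    show (ZMod.castHom hn (ZMod (ModularCurve.eisensteinNumerator p))) x = 0
    rw [ZMod.castHom_apply, ZMod.cast_eq_val, ZMod.natCast_eq_zero_iff]
    have hg0 : 0 < Nat.gcd (p - 1) 12 := Nat.gcd_pos_of_pos_right _ (by norm_num)
    have hcop : Nat.Coprime ((p - 1) / Nat.gcd (p - 1) 12) (12 / Nat.gcd (p - 1) 12) :=
      Nat.coprime_div_gcd_div_gcd hg0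
    have e1 : (p - 1) = Nat.gcd (p - 1) 12 * ((p - 1) / Nat.gcd (p - 1) 12) :=
      (Nat.mul_div_cancel' (Nat.gcd_dvd_left _ _)).symm
    have e2 : 12 = Nat.gcd (p - 1) 12 * (12 / Nat.gcd (p - 1) 12) :=
      (Nat.mul_div_cancel' (Nat.gcd_dvd_right _ _)).symm
    unfold ModularCurve.eisensteinNumerator
    apply hcop.dvd_of_dvd_mul_left
    apply Nat.dvd_of_mul_dvd_mul_left hg0
    rw [← e1, ← mul_assoc, ← e2]
    exact h1


theorem sl2_sq (M : Matrix (Fin 2) (Fin 2) ℤ) (h : M.det = 1) :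
    M * M = M.trace • M - 1 := by
  rw [Matrix.det_fin_two] at h
  ext i j
  fin_cases i <;> fin_cases j <;>
    simp only [Matrix.mul_apply, Fin.sum_univ_two, Matrix.trace_fin_two, Matrix.sub_apply,
      Matrix.smul_apply, smul_eq_mul, Matrix.one_apply, Fin.zero_eta, Fin.mk_one, Fin.isValue,
      if_true, one_ne_zero, zero_ne_one, if_false] <;>
    first | linear_combination -h | ring1

theorem trace_pow_rec (M : Matrix (Fin 2) (Fin 2) ℤ) (h : M.det = 1) (m : ℕ) :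
    (M ^ (m + 2)).trace = M.trace * (M ^ (m + 1)).trace - (M ^ m).trace := by
  have : M ^ (m + 2) = M.trace • M ^ (m + 1) - M ^ m := by
    rw [pow_add, pow_two, sl2_sq M h, mul_sub, mul_one, Matrix.mul_smul, pow_succ]
  rw [this, Matrix.trace_sub, Matrix.trace_smul, smul_eq_mul]

theorem abs_trace_pow_lt (M : Matrix (Fin 2) (Fin 2) ℤ) (h : M.det = 1) (ht : 3 ≤ |M.trace|)
    (m : ℕ) : 2 ≤ |(M ^ m).trace| ∧ |(M ^ m).trace| < |(M ^ (m + 1)).trace| := by
  induction m with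
  | zero =>
    rw [pow_zero, zero_add, pow_one, Matrix.trace_one]
    simp
    omega
  | succ m ih =>
    obtain ⟨h1, h2⟩ := ih
    refine ⟨by omega, ?_⟩
    rw [trace_pow_rec M h m]
    have h3 : |M.trace * (M ^ (m + 1)).trace| - |(M ^ m).trace| ≤
        |M.trace * (M ^ (m + 1)).trace - (M ^ m).trace| := abs_sub_abs_le_abs_sub _ _
    rw [abs_mul] at h3
    nlinarith [abs_nonneg (M ^ (m + 1)).trace]

theorem abs_trace_le_two_of_finOrder (γ : SL(2, ℤ)) (h : IsOfFinOrder γ) :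
    |(γ : Matrix (Fin 2) (Fin 2) ℤ).trace| ≤ 2 := by
  by_contra hcon
  push Not at hcon
  obtain ⟨m, hm, hγ⟩ := isOfFinOrder_iff_pow_eq_one.mp h
  obtain ⟨k, rfl⟩ : ∃ k, m = k + 1 := ⟨m - 1, by omega⟩
  have h1 := abs_trace_pow_lt (γ : Matrix (Fin 2) (Fin 2) ℤ) γ.2 (by omega) k
  have h2 : (γ : Matrix (Fin 2) (Fin 2) ℤ) ^ (k + 1) = 1 := by
    rw [← Matrix.SpecialLinearGroup.coe_pow, hγ, Matrix.SpecialLinearGroup.coe_one]
  rw [h2] at h1
  simp [Matrix.trace_fin_two] at h1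
  omega

theorem dUnit_pow_twelve (p : ℕ) [Fact p.Prime] (γ : Gamma0 p)
    (h : |((γ : SL(2, ℤ)) : Matrix (Fin 2) (Fin 2) ℤ).trace| ≤ 2) : dUnit p γ ^ 12 = 1 := by
  apply Units.ext
  rw [Units.val_pow_eq_pow_val, dUnit_val, Units.val_one]
  set d : ZMod p := (((γ : SL(2, ℤ)) 1 1 : ℤ) : ZMod p) with hd
  set t : ℤ := ((γ : SL(2, ℤ)) : Matrix (Fin 2) (Fin 2) ℤ).trace with ht
  have hdet : (γ : SL(2, ℤ)) 0 0 * (γ : SL(2, ℤ)) 1 1 - (γ : SL(2, ℤ)) 0 1 * (γ : SL(2, ℤ)) 1 0 = 1 := by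
    have := (γ : SL(2, ℤ)).det_coe
    rwa [Matrix.det_fin_two] at this
  have hq : d ^ 2 - (t : ZMod p) * d + 1 = 0 := by
    have h1 := congrArg (Int.cast : ℤ → ZMod p) hdet
    push_cast at h1
    rw [Gamma0_mem.mp γ.2] at h1
    rw [ht, Matrix.trace_fin_two]
    push_cast
    linear_combination -h1
  rw [abs_le] at h
  obtain ⟨h1, h2⟩ := h
  have : t = -2 ∨ t = -1 ∨ t = 0 ∨ t = 1 ∨ t = 2 := by omega
  rcases this with h | h | h | h | h <;> rw [h] at hq <;> push_cast at hq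
  · have : (d + 1) ^ 2 = 0 := by linear_combination hq
    have : d = -1 := by
      have := pow_eq_zero_iff (two_ne_zero) |>.mp this
      linear_combination this
    rw [this]; norm_num
  · linear_combination ((d ^ 6 + 1) * (d ^ 3 + 1) * (d - 1)) * hq
  · linear_combination (d ^ 10 - d ^ 8 + d ^ 6 - d ^ 4 + d ^ 2 - 1) * hq
  · linear_combination ((d ^ 6 + 1) * (d ^ 3 - 1) * (d + 1)) * hq
  · have : (d - 1) ^ 2 = 0 := by linear_combination hq
    have : d = 1 := by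
      have := pow_eq_zero_iff (two_ne_zero) |>.mp this
      linear_combination this
    rw [this]; norm_num

theorem dUnit_surjective (N : ℕ) [NeZero N] : Function.Surjective (dUnit N) := by
  intro u
  have hcop : Nat.Coprime (u : ZMod N).val N := ZMod.val_coe_unit_coprime u
  have h2 : IsCoprime (((u : ZMod N).val : ℕ) : ℤ) (N : ℤ) := Nat.isCoprime_iff_coprime.mpr hcop
  obtain ⟨a, b, hab⟩ := h2
  have hdet : (!![a, -b; (N : ℤ), (((u : ZMod N).val : ℕ) : ℤ)]).det = 1 := by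
    rw [Matrix.det_fin_two_of]
    linear_combination hab
  let g : SL(2, ℤ) := ⟨!![a, -b; (N : ℤ), (((u : ZMod N).val : ℕ) : ℤ)], hdet⟩
  have hg : g ∈ Gamma0 N := by
    rw [Gamma0_mem]
    simp [g]
  refine ⟨⟨g, hg⟩, ?_⟩
  apply Units.ext
  rw [dUnit_val]
  simp [g]


/-- the Eisenstein character `ψ₀ : Γ₀(p) → ℤ/n`. -/
theorem exists_psi0 (p : ℕ) [Fact p.Prime] :
    ∃ ψ : Additive (Gamma0 p) →+ ZMod (ModularCurve.eisensteinNumerator p),
      ModularCurve.Period.IsParabolicHom (Gamma0 p) ψ ∧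
      (∀ γ : Gamma0 p, IsOfFinOrder γ → ψ (Additive.ofMul γ) = 0) ∧
      (∃ γ, ψ γ = 1) ∧
      (∀ (ℓ : ℕ) [Fact ℓ.Prime] (h : ¬ ℓ ∣ p), (dataT p ℓ h).op _ ψ = (ℓ + 1) • ψ) ∧
      (dataU p p dvd_rfl).op _ ψ = ψ := by
  obtain ⟨χ, ⟨u, hu⟩, h12⟩ := exists_chi0 p
  refine ⟨chiHom p χ, ?_, ?_, ?_, ?_, ?_⟩
  · intro γ hγ
    rw [chiHom_apply]
    apply h12
    apply dUnit_pow_twelve
    have : |((γ : SL(2, ℤ)) : Matrix (Fin 2) (Fin 2) ℤ).trace| ^ 2 = 2 ^ 2 := by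
      rw [sq_abs, hγ]; norm_num
    exact le_of_eq ((pow_left_inj₀ (abs_nonneg _) (by norm_num) (by norm_num)).mp this)
  · intro γ hγ
    rw [chiHom_apply]
    apply h12
    apply dUnit_pow_twelve
    apply abs_trace_le_two_of_finOrder
    exact (Subgroup.subtype (Gamma0 p)).isOfFinOrder hγ
  · obtain ⟨γ, hγ⟩ := dUnit_surjective p (Additive.toMul u)
    refine ⟨Additive.ofMul γ, ?_⟩
    rw [chiHom_apply, hγ]
    exact hu
  · intro ℓ _ h
    exact opT_chiHom p ℓ h χ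
  · rw [opU_chiHom]
    refine AddMonoidHom.ext fun γ => ?_
    rw [AddMonoidHom.nsmul_apply, nsmul_eq_mul]
    have hp : (p : ZMod (ModularCurve.eisensteinNumerator p)) = 1 := by
      have h1 : 1 ≤ p := (Fact.out : p.Prime).one_lt.le
      have h2 : ((p - 1 : ℕ) : ZMod (ModularCurve.eisensteinNumerator p)) = 0 :=
        (ZMod.natCast_eq_zero_iff _ _).mpr (ModularCurve.eisensteinNumerator_dvd p)
      rw [Nat.cast_sub h1] at h2
      linear_combination h2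
    rw [hp, one_mul]

end Fermat.Agent.S16
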