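import Fermat.Agent.S16.CrossingSL

/-!
# From a `ZMod n`-valued hom on `Γ ≤ SL₂(ℤ)` to an integral primitive
-/

set_option autoImplicit false

open Matrix ModularGroup
open scoped MatrixGroups

namespace Fermat.Agent.S16.Crossing

section nu

variable {G : Type*} [Group G] {B : Type*} [AddCommGroup B]

/-- A hom on `Γ` killing finite order elements extends to a `Γ`-equivariant, right `K`-invariant
function on `G` (`K` a finite subgroup). -/
theorem exists_nu (Γ K : Subgroup G) [Finite K] (ψ : Additive Γ →+ B)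
    (hell : ∀ γ : Γ, IsOfFinOrder γ → ψ (Additive.ofMul γ) = 0) :
    ∃ ν : G → B, ∀ (γ : Γ) (g : G) (k : K), ν (γ * g * k) = ψ (Additive.ofMul γ) + ν g := by
  classical
  let s := DoubleCoset.setoid (Γ : Set G) (K : Set G)
  let r : G → G := fun g => (Quotient.mk s g).out
  have hr : ∀ g, ∃ a ∈ Γ, ∃ b ∈ K, g = a * r g * b := fun g =>
    (DoubleCoset.rel_iff).mp (Quotient.mk_out (s := s) g)
  choose a ha b hb hab using hr
  refine ⟨fun g => ψ (Additive.ofMul ⟨a g, ha g⟩), fun γ g k => ?_⟩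
  set g' : G := γ * g * k with hg'
  have hrr : r g' = r g := by
    have : Quotient.mk s g' = Quotient.mk s g :=
      Quotient.sound ((DoubleCoset.rel_iff).mpr ⟨γ⁻¹, inv_mem γ.2, k⁻¹, inv_mem k.2, by
        simp [hg', mul_assoc]⟩)
    simp only [r, this]
  have e1 := hab g'
  have e2 := hab g
  rw [hrr] at e1
  -- the comparison element
  let x : Γ := ⟨a g', ha g'⟩⁻¹ * γ * ⟨a g, ha g⟩
  have hx : (x : G) = r g * (b g' * (k : G)⁻¹ * (b g)⁻¹) * (r g)⁻¹ := by
    have h1 : (a g')⁻¹ * g' = r g * b g' := by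
      rw [inv_mul_eq_iff_eq_mul, ← mul_assoc]; exact e1
    have h2 : (a g) = g * (b g)⁻¹ * (r g)⁻¹ := by
      rw [eq_mul_inv_iff_mul_eq, eq_mul_inv_iff_mul_eq]; exact e2.symm
    have h3 : (γ : G) * g = g' * (k : G)⁻¹ := by simp [hg']
    calc (x : G) = (a g')⁻¹ * (γ : G) * a g := rfl
      _ = (a g')⁻¹ * ((γ : G) * g) * (b g)⁻¹ * (r g)⁻¹ := by rw [h2]; simp [mul_assoc]
      _ = ((a g')⁻¹ * g') * (k : G)⁻¹ * (b g)⁻¹ * (r g)⁻¹ := by rw [h3]; simp [mul_assoc]
      _ = _ := by rw [h1]; simp [mul_assoc]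
  have hfin : IsOfFinOrder x := by
    rw [← Submonoid.isOfFinOrder_coe (H := Γ.toSubmonoid)]
    show IsOfFinOrder (x : G)
    rw [hx]
    let y : K := ⟨b g', hb g'⟩ * k⁻¹ * ⟨b g, hb g⟩⁻¹
    have hy : IsOfFinOrder (y : G) :=
      (Submonoid.isOfFinOrder_coe (H := K.toSubmonoid) (x := y)).mpr (isOfFinOrder_of_finite y)
    exact (MulAut.conj (r g)).toMonoidHom.isOfFinOrder hy
  have h0 := hell x hfin
  have h4 : ψ (Additive.ofMul x) = - ψ (Additive.ofMul ⟨a g', ha g'⟩) + ψ (Additive.ofMul γ)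
      + ψ (Additive.ofMul ⟨a g, ha g⟩) := by
    simp only [x, ofMul_mul, ofMul_inv, map_add, map_neg]
  rw [h4] at h0
  have : ψ (Additive.ofMul ⟨a g', ha g'⟩) = ψ (Additive.ofMul γ) + ψ (Additive.ofMul ⟨a g, ha g⟩) := by
    have := congrArg (fun t => ψ (Additive.ofMul ⟨a g', ha g'⟩) + t) h0
    simp only [add_zero] at this
    rw [← this]
    abel
  exact this

end nu

/-- `-U`, of order six. -/
def Ww : SL(2, ℤ) := S * S * Uu

theorem coe_Uu : (Uu : Matrix (Fin 2) (Fin 2) ℤ) = !![0, -1; 1, -1] := by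
  simp [Uu, Matrix.SpecialLinearGroup.coe_mul, coe_S]

theorem coe_Ww : (Ww : Matrix (Fin 2) (Fin 2) ℤ) = !![0, 1; -1, 1] := by
  simp [Ww, Matrix.SpecialLinearGroup.coe_mul, coe_S, coe_Uu]

theorem Ww_pow_three : Ww ^ 3 = S * S := by
  apply Subtype.ext
  simp [pow_succ, Matrix.SpecialLinearGroup.coe_mul, coe_S, coe_Ww]

theorem Ww_pow_four : Ww ^ 4 = Uu := by
  apply Subtype.ext
  simp [pow_succ, Matrix.SpecialLinearGroup.coe_mul, coe_Uu, coe_Ww]

theorem Ww_pow_six : Ww ^ 6 = 1 := by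
  apply Subtype.ext
  simp [pow_succ, Matrix.SpecialLinearGroup.coe_mul, coe_Ww, Matrix.one_fin_two]

theorem finite_zpowers_Ww : Finite (Subgroup.zpowers Ww) := by
  have : IsOfFinOrder Ww := isOfFinOrder_iff_pow_eq_one.mpr ⟨6, by norm_num, Ww_pow_six⟩
  exact this.finite_zpowers.to_subtype

theorem countable_SL : Countable SL(2, ℤ) := by
  have : Countable (Matrix (Fin 2) (Fin 2) ℤ) := inferInstanceAs (Countable (Fin 2 → Fin 2 → ℤ))
  exact Subtype.countable

theorem S_pow_four : S ^ 4 = 1 := by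
  apply Subtype.ext
  simp [pow_succ, Matrix.SpecialLinearGroup.coe_mul, coe_S, Matrix.one_fin_two]

theorem SS_comm (g : SL(2, ℤ)) : g * S * S = S * S * g := by
  have h : S * S = (-1 : SL(2, ℤ)) := by rw [← pow_two, S_sq]
  rw [mul_assoc, h]
  simp

/-- The main general construction. -/
theorem exists_prim (Γ : Subgroup SL(2, ℤ)) (hneg : S * S ∈ Γ) (n : ℕ)
    (ψ : Additive Γ →+ ZMod n)
    (hell : ∀ γ : Γ, IsOfFinOrder γ → ψ (Additive.ofMul γ) = 0) :
    ∃ (ν : SL(2, ℤ) → ZMod n) (J N : SL(2, ℤ) → ℤ),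
      (∀ (γ : Γ) g, ν (γ * g) = ψ (Additive.ofMul γ) + ν g) ∧ (∀ g, ν (g * Uu) = ν g) ∧
      (∀ (γ : Γ) g, J (γ * g) = J g) ∧ (∀ g, J (g * S) = - J g) ∧
      (∀ g, ν g = ν (g * S) → J g = 0) ∧
      N 1 = 0 ∧ (∀ g, N (g * Uu) = N g) ∧ (∀ g, N (g * S) = N g - J g) ∧
      (∀ (γ : Γ) g, N (γ * g) = N γ + N g) ∧ (∀ g, (N g : ZMod n) = ν g - ν 1) := by
  classical
  have := finite_zpowers_Ww
  have := countable_SL
  obtain ⟨ν, hν⟩ := exists_nu Γ (Subgroup.zpowers Ww) ψ hell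
  have hν1 : ∀ (γ : Γ) g, ν (γ * g) = ψ (Additive.ofMul γ) + ν g := fun γ g => by
    simpa using hν γ g 1
  have hνK : ∀ g (k : SL(2, ℤ)), k ∈ Subgroup.zpowers Ww → ν (g * k) = ν g := fun g k hk => by
    simpa using hν 1 g ⟨k, hk⟩
  have hνU : ∀ g, ν (g * Uu) = ν g := fun g =>
    hνK g Uu ⟨4, by exact_mod_cast Ww_pow_four⟩
  have hνSS : ∀ g, ν (g * S * S) = ν g := fun g => by
    rw [mul_assoc]
    exact hνK g (S * S) ⟨3, by exact_mod_cast Ww_pow_three⟩
  -- the reduction of `J`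
  set Jb : SL(2, ℤ) → ZMod n := fun g => ν g - ν (g * S) with hJb
  have hJb1 : ∀ (γ : Γ) g, Jb (γ * g) = Jb g := fun γ g => by
    simp only [hJb, mul_assoc, hν1]; ring
  have hJb2 : ∀ g, Jb (g * S) = - Jb g := fun g => by
    simp only [hJb, hνSS]; ring
  -- a complete invariant of the cosets `Γ g`
  obtain ⟨f, hf⟩ := exists_injective_nat (Quotient (QuotientGroup.rightRel Γ))
  set κ : SL(2, ℤ) → ℕ := fun g => f (Quotient.mk _ g) with hκ
  have hκ1 : ∀ (γ : Γ) g, κ (γ * g) = κ g := fun γ g => by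
    simp only [hκ]
    congr 1
    apply Quotient.sound
    show QuotientGroup.rightRel Γ _ _
    rw [QuotientGroup.rightRel_apply]
    simp
  have hκ2 : ∀ g g', κ g = κ g' → g' * g⁻¹ ∈ Γ := fun g g' h => by
    have := Quotient.exact (hf h)
    exact QuotientGroup.rightRel_apply.mp this
  have hκSS : ∀ g, κ (g * S * S) = κ g := fun g => by
    rw [SS_comm]; exact hκ1 ⟨S * S, hneg⟩ g
  have hJbSS : ∀ g, Jb (g * S * S) = Jb g := fun g => by
    rw [SS_comm]; exact hJb1 ⟨S * S, hneg⟩ g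
  set J : SL(2, ℤ) → ℤ := fun g =>
    if κ g < κ (g * S) then (Jb g).valMinAbs
    else if κ (g * S) < κ g then - (Jb (g * S)).valMinAbs else 0 with hJ
  have hJ1 : ∀ (γ : Γ) g, J (γ * g) = J g := fun γ g => by
    simp only [hJ, mul_assoc, hκ1, hJb1]
  have hJ2 : ∀ g, J (g * S) = - J g := fun g => by
    simp only [hJ, hκSS, hJbSS]
    split_ifs with h1 h2 h3 <;> first | omega | simp
  have hJ0 : ∀ g, ν g = ν (g * S) → J g = 0 := fun g h => by
    have h1 : Jb g = 0 := by simp only [hJb]; rw [h, sub_self]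
    have h2 : Jb (g * S) = 0 := by rw [hJb2, h1, neg_zero]
    simp only [hJ, h1, h2]
    simp
  have hJ3 : ∀ g, ((J g : ℤ) : ZMod n) = Jb g := fun g => by
    simp only [hJ]
    split_ifs with h1 h2
    · simp
    · simp [hJb2]
    · have h3 : κ g = κ (g * S) := by omega
      have h4 := hκ2 _ _ h3
      have h5 : IsOfFinOrder (⟨g * S * g⁻¹, h4⟩ : Γ) := by
        rw [isOfFinOrder_iff_pow_eq_one]
        refine ⟨4, by norm_num, Subtype.ext ?_⟩
        show (g * S * g⁻¹) ^ 4 = 1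
        rw [conj_pow, S_pow_four]; simp
      have h6 := hν1 ⟨g * S * g⁻¹, h4⟩ g
      rw [hell _ h5, zero_add] at h6
      simp only [inv_mul_cancel_right] at h6
      simp only [hJb, h6, sub_self, Int.cast_zero]
  refine ⟨ν, J, prim S chi J, hν1, hνU, hJ1, hJ2, hJ0, prim_one, prim_mul_U isSide hJ2,
    prim_mul_S isSide hJ2, fun γ g => prim_left_mul isSide hJ2 γ (hJ1 γ) g, fun g => ?_⟩
  have hg : g ∈ Subgroup.closure {S, Uu} := by rw [closure_S_Uu]; trivial
  induction hg using Subgroup.closure_induction_right with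
  | one => simp [prim_one]
  | mul_right x _ y hy ih =>
    rcases hy with rfl | rfl
    · rw [prim_mul_S isSide hJ2, Int.cast_sub, ih, hJ3]; simp only [hJb]; ring
    · rw [prim_mul_U isSide hJ2, ih, hνU]
  | mul_inv_cancel x _ y hy ih =>
    rcases hy with rfl | rfl
    · have h1 := prim_mul_S isSide hJ2 (x * S⁻¹)
      rw [inv_mul_cancel_right] at h1
      have h2 : ((prim S chi J (x * S⁻¹) : ℤ) : ZMod n) = (prim S chi J x : ℤ) + (J (x * S⁻¹) : ℤ) := by
        rw [h1]; push_cast; ring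
      rw [h2, ih, hJ3]
      simp only [hJb, inv_mul_cancel_right]; ring
    · have h1 := prim_mul_U isSide hJ2 (x * Uu⁻¹)
      rw [inv_mul_cancel_right] at h1
      have h2 := hνU (x * Uu⁻¹)
      rw [inv_mul_cancel_right] at h2
      rw [← h1, ih, h2]

end Fermat.Agent.S16.Crossing
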