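import Mathlib
import Fermat.Agent.S16.HeckeHom
import Fermat.Agent.S21.Primitive
import Fermat.Agent.S21.Injective

set_option autoImplicit false

namespace Fermat.Agent.S16

open UpperHalfPlane ModularForm MatrixGroups CongruenceSubgroup Matrix.SpecialLinearGroup
open ModularCurve ModularCurve.Period Fermat.Agent.S21
open P2MW.S_ModularForm_heckeT_slash_eq_self_of_mem_Gamma0.ModularForm.HeckeSlashInvariance

theorem hasDerivAt_comp_smul_GL {F φ : ℍ → ℂ}
    (hF : ∀ τ : ℍ, HasDerivAt (F ∘ ofComplex) (φ τ) ↑τ) (δ : GL (Fin 2) ℝ)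
    (hdet : 0 < δ.val.det) (w : ℍ) :
    HasDerivAt ((fun w : ℍ => F (δ • w)) ∘ ofComplex) ((φ ∣[(2 : ℤ)] δ) w) ↑w := by
  have h_smul := (hasStrictDerivAt_smul hdet w).hasDerivAt
  have h1 : HasDerivAt (F ∘ ofComplex) (φ (δ • w)) ↑(δ • ofComplex (w : ℂ)) := by
    rw [ofComplex_apply]; exact hF _
  have h2 := h1.comp (w : ℂ) h_smul
  have h3 : ((fun w : ℍ => F (δ • w)) ∘ ofComplex) =
      ((F ∘ ofComplex) ∘ fun z : ℂ => (↑(δ • ofComplex z) : ℂ)) := by
    funext z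
    simp [Function.comp]
  have h4 : (φ ∣[(2 : ℤ)] δ) w = (φ (δ • w) * (↑(δ.val.det) / denom δ ↑w ^ 2)) := by
    rw [ModularForm.slash_apply]
    simp [σ, hdet, abs_of_pos hdet]
    ring
  rw [h3, h4]
  exact h2

variable {N : ℕ} [NeZero N]

theorem period_of_primitive (g : CuspForm (Gamma0 N) 2) (G : ℍ → ℂ)
    (hG : ∀ τ : ℍ, HasDerivAt (G ∘ ofComplex) (g τ) ↑τ) (γ : Gamma0 N) (z : ℍ) :
    G ((γ : SL(2, ℤ)) • z) - G z = periodMap N g (Additive.ofMul γ) := by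
  obtain ⟨F, hF⟩ := exists_primitive N g
  rw [periodMap_apply hF γ z]
  have hz : ∀ τ : ℍ, HasDerivAt ((fun w : ℍ => G w - F w) ∘ ofComplex) 0 ↑τ := by
    intro τ
    have h2 := (hG τ).sub (hF.1 τ)
    rw [sub_self] at h2
    exact h2
  have := const_of_hasDerivAt_zero hz ((γ : SL(2, ℤ)) • z) z
  linear_combination this

omit [NeZero N] in
theorem hasDerivAt_fn (D : HData (Gamma0 N)) (hdet : ∀ i, 0 < (D.β i).val.det) {F φ : ℍ → ℂ}
    (hF : ∀ τ : ℍ, HasDerivAt (F ∘ ofComplex) (φ τ) ↑τ) (τ : ℍ) :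
    HasDerivAt (D.fn F ∘ ofComplex) ((∑ i, φ ∣[(2 : ℤ)] D.β i) τ) ↑τ := by
  have h1 : (D.fn F ∘ ofComplex) = fun x => ∑ i, ((fun w : ℍ => F (D.β i • w)) ∘ ofComplex) x := by
    funext x
    rfl
  rw [h1, Finset.sum_apply]
  exact HasDerivAt.fun_sum fun i _ => hasDerivAt_comp_smul_GL hF (D.β i) (hdet i) τ

/-- compatibility of the period map with Hecke operators. -/
theorem op_periodMap (D : HData (Gamma0 N)) (hdet : ∀ i, 0 < (D.β i).val.det)
    (f g : CuspForm (Gamma0 N) 2) (hg : (g : ℍ → ℂ) = ∑ i, (f : ℍ → ℂ) ∣[(2 : ℤ)] D.β i) :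
    D.op ℂ (periodMap N f) = periodMap N g := by
  obtain ⟨F, hF⟩ := exists_primitive N f
  refine AddMonoidHom.ext fun γ => ?_
  obtain ⟨γ, rfl⟩ := Additive.ofMul.surjective γ
  rw [← D.fn_period (F := F) (fun γ z => (periodMap_apply hF γ z).symm) γ I]
  apply period_of_primitive
  intro τ
  rw [hg]
  exact hasDerivAt_fn D hdet hF.1 τ

/-- compatibility of the reflected period map with Hecke operators. -/
theorem op_charInvolution_periodMap (D : HData (Gamma0 N)) (hdet : ∀ i, 0 < (D.β i).val.det)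
    (hrefl : ∀ F : ℍ → ℂ, (∀ z : ℍ, F ((1 : ℝ) +ᵥ z) = F z) →
      ∀ z, D.fn (F ∘ refl) z = D.fn F (refl z))
    (f g : CuspForm (Gamma0 N) 2) (hg : (g : ℍ → ℂ) = ∑ i, (f : ℍ → ℂ) ∣[(2 : ℤ)] D.β i) :
    D.op ℂ (charInvolution N ℂ ℂ (periodMap N f)) = charInvolution N ℂ ℂ (periodMap N g) := by
  obtain ⟨F, hF⟩ := exists_primitive N f
  refine AddMonoidHom.ext fun γ => ?_
  obtain ⟨γ, rfl⟩ := Additive.ofMul.surjective γ
  have hper : ∀ z : ℍ, F ((1 : ℝ) +ᵥ z) = F z := by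
    intro z
    have hT : ModularGroup.T ∈ Gamma0 N := by
      rw [Gamma0_mem]
      simp [ModularGroup.T]
    have h1 := periodMap_mem_parabolicHoms N f
    rw [mem_parabolicHoms_iff] at h1
    have h2 := h1 ⟨ModularGroup.T, hT⟩ (by simp [ModularGroup.T, Matrix.trace_fin_two])
    rw [periodMap_apply hF _ z] at h2
    rw [← modular_T_smul]
    exact sub_eq_zero.mp h2
  rw [← D.fn_period (F := F ∘ refl) (ψ := charInvolution N ℂ ℂ (periodMap N f)) (fun γ z => by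
    rw [charInvolution_apply, toMul_ofMul, periodMap_apply hF _ (refl z), jConjGamma0_coe,
      jConjSL_smul_refl]
    rfl) γ I]
  rw [hrefl F hper, hrefl F hper, charInvolution_apply, toMul_ofMul, ← jConjSL_smul_refl,
    ← jConjGamma0_coe]
  apply period_of_primitive
  intro τ
  rw [hg]
  exact hasDerivAt_fn D hdet hF.1 τ

omit [NeZero N] in
theorem refl_heckeDiag (ℓ : ℕ) [NeZero ℓ] (z : ℍ) :
    refl (heckeDiagMatrix ℓ • z) = heckeDiagMatrix ℓ • refl z := by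
  ext
  rw [coe_refl, coe_heckeDiagMatrix_smul (NeZero.ne ℓ), coe_heckeDiagMatrix_smul (NeZero.ne ℓ),
    coe_refl]
  simp

omit [NeZero N] in
theorem sum_refl_heckeMatrix (q : ℕ) [NeZero q] (F : ℍ → ℂ)
    (hF : ∀ z : ℍ, F ((1 : ℝ) +ᵥ z) = F z) (z : ℍ) :
    ∑ j : ZMod q, F (refl (heckeMatrix q j.val • z)) =
      ∑ j : ZMod q, F (heckeMatrix q j.val • refl z) := by
  rw [← Equiv.sum_comp (Equiv.neg (ZMod q)) (fun j => F (heckeMatrix q j.val • refl z))]
  refine Finset.sum_congr rfl fun j _ => ?_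
  have hq : (q : ℂ) ≠ 0 := by exact_mod_cast NeZero.ne q
  rw [Equiv.neg_apply, ZMod.neg_val]
  split_ifs with hj
  · congr 1
    ext
    rw [coe_refl, coe_heckeMatrix_smul (NeZero.ne q), coe_heckeMatrix_smul (NeZero.ne q),
      coe_refl, hj]
    simp
    ring
  · rw [← hF]
    congr 1
    ext
    rw [coe_vadd, coe_refl, coe_heckeMatrix_smul (NeZero.ne q),
      coe_heckeMatrix_smul (NeZero.ne q), coe_refl, Nat.cast_sub (ZMod.val_lt j).le]
    simp only [map_div₀, map_add, map_natCast, Complex.ofReal_one]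
    field_simp
    ring

theorem opT_periodMap (ℓ : ℕ) [Fact ℓ.Prime] (hℓN : ¬ ℓ ∣ N) (f : CuspForm (Gamma0 N) 2) :
    (dataT N ℓ hℓN).op ℂ (periodMap N f) = periodMap N (CuspForm.heckeTLin 2 Fact.out hℓN f) ∧
    (dataT N ℓ hℓN).op ℂ (charInvolution N ℂ ℂ (periodMap N f)) =
      charInvolution N ℂ ℂ (periodMap N (CuspForm.heckeTLin 2 Fact.out hℓN f)) := by
  have hdet : ∀ i, 0 < ((dataT N ℓ hℓN).β i).val.det := by
    intro x
    show 0 < (heckeRep ℓ x).val.det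
    induction x using OnePoint.rec with
    | infty => exact det_heckeDiagMatrix_pos ℓ
    | coe j => exact det_heckeMatrix_pos ℓ _
  have hg : (CuspForm.heckeTLin 2 Fact.out hℓN f : ℍ → ℂ) =
      ∑ i, (f : ℍ → ℂ) ∣[(2 : ℤ)] (dataT N ℓ hℓN).β i := by
    rw [CuspForm.coe_heckeTLin_apply, heckeT_eq_sum_onePoint]
    rfl
  refine ⟨op_periodMap _ hdet f _ hg, op_charInvolution_periodMap _ hdet ?_ f _ hg⟩
  intro F hF z
  show ∑ x : Option (ZMod ℓ), F (refl (heckeRep ℓ x • z)) =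
    ∑ x : Option (ZMod ℓ), F (heckeRep ℓ x • refl z)
  rw [Fintype.sum_option, Fintype.sum_option]
  congr 1
  · show F (refl (heckeDiagMatrix ℓ • z)) = F (heckeDiagMatrix ℓ • refl z)
    rw [refl_heckeDiag]
  · exact sum_refl_heckeMatrix ℓ F hF z

theorem opU_periodMap (q : ℕ) [NeZero q] (hqN : q ∣ N) (f : CuspForm (Gamma0 N) 2) :
    (dataU N q hqN).op ℂ (periodMap N f) = periodMap N (CuspForm.heckeULin 2 hqN f) ∧
    (dataU N q hqN).op ℂ (charInvolution N ℂ ℂ (periodMap N f)) =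
      charInvolution N ℂ ℂ (periodMap N (CuspForm.heckeULin 2 hqN f)) := by
  have hdet : ∀ i, 0 < ((dataU N q hqN).β i).val.det := by
    intro x
    exact det_heckeMatrix_pos q _
  have hg : (CuspForm.heckeULin 2 hqN f : ℍ → ℂ) =
      ∑ i, (f : ℍ → ℂ) ∣[(2 : ℤ)] (dataU N q hqN).β i := by
    rw [CuspForm.coe_heckeULin_apply, heckeU_eq_sum_zmod]
    rfl
  refine ⟨op_periodMap _ hdet f _ hg, op_charInvolution_periodMap _ hdet ?_ f _ hg⟩
  intro F hF z
  exact sum_refl_heckeMatrix q F hF z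

end Fermat.Agent.S16
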