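import Mathlib
import Fermat.Agent.S16.EisChar
import Fermat.Agent.S16.PeriodHecke
import Fermat.Agent.S21
import Fermat.Prelude.Def_CuspForm_HeckeEvalForms

set_option autoImplicit false

namespace Fermat.Agent.S16

open UpperHalfPlane ModularForm MatrixGroups CongruenceSubgroup Matrix.SpecialLinearGroup
open ModularCurve ModularCurve.Period Fermat.Agent.S21

/-- the lifting property of parabolic homomorphisms (proved elsewhere). -/
def LiftHyp (p : ℕ) : Prop :=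
  ∀ (n : ℕ) (ψ : Additive (Gamma0 p) →+ ZMod n), IsParabolicHom (Gamma0 p) ψ →
    (∀ γ : Gamma0 p, IsOfFinOrder γ → ψ (Additive.ofMul γ) = 0) →
    ∃ Ψ : Additive (Gamma0 p) →+ ℤ, IsParabolicHom (Gamma0 p) Ψ ∧
      ∀ γ, ((Ψ γ : ℤ) : ZMod n) = ψ γ

variable (p : ℕ) [Fact p.Prime]

/-- the action of an abstract Hecke operator on cusp forms. -/
noncomputable def evalEnd (τ : HeckeAlg) : Module.End ℂ (CuspForm (Gamma0 p) 2) :=
  ((CuspForm.heckeEvalForms p 2 τ : CuspForm.heckeAlgebra p 2 ∅) :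
    Module.End ℂ (CuspForm (Gamma0 p) 2))

/-- `τ` acts compatibly on all the `Hom(Γ₀(p), A)`. -/
def Good (n : ℕ) (ψ0 : Additive (Gamma0 p) →+ ZMod n) (τ : HeckeAlg) : Prop :=
  ∃ (Θz : (Additive (Gamma0 p) →+ ℤ) →+ (Additive (Gamma0 p) →+ ℤ))
    (Θc : (Additive (Gamma0 p) →+ ℂ) →+ (Additive (Gamma0 p) →+ ℂ))
    (Θn : (Additive (Gamma0 p) →+ ZMod n) →+ (Additive (Gamma0 p) →+ ZMod n)),
    (∀ ψ, Θc ((Int.castAddHom ℂ).comp ψ) = (Int.castAddHom ℂ).comp (Θz ψ)) ∧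
    (∀ ψ, Θn ((Int.castAddHom (ZMod n)).comp ψ) = (Int.castAddHom (ZMod n)).comp (Θz ψ)) ∧
    (∀ f, Θc (periodMap p f) = periodMap p (evalEnd p τ f)) ∧
    (∀ f, Θc (charInvolution p ℂ ℂ (periodMap p f)) =
      charInvolution p ℂ ℂ (periodMap p (evalEnd p τ f))) ∧
    Θn ψ0 = (MvPolynomial.aeval (eisensteinSystem p) τ : ℤ) • ψ0

theorem periodMap_zsmul (a : ℤ) (f : CuspForm (Gamma0 p) 2) :
    periodMap p (a • f) = a • periodMap p f :=
  map_zsmul (periodMapLinear p) a f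

theorem good_C (n : ℕ) (ψ0 : Additive (Gamma0 p) →+ ZMod n) (a : ℤ) :
    Good p n ψ0 (MvPolynomial.C a) := by
  have he : ∀ f, evalEnd p (MvPolynomial.C a) f = a • f := by
    intro f
    unfold evalEnd
    rw [CuspForm.heckeEvalForms_C, Subalgebra.coe_algebraMap, Module.algebraMap_end_apply]
  refine ⟨a • AddMonoidHom.id _, a • AddMonoidHom.id _, a • AddMonoidHom.id _, ?_, ?_, ?_, ?_, ?_⟩
  · intro ψ
    refine AddMonoidHom.ext fun γ => ?_
    simp
  · intro ψ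
    refine AddMonoidHom.ext fun γ => ?_
    simp
  · intro f
    rw [he, periodMap_zsmul]
    rfl
  · intro f
    rw [he, periodMap_zsmul, map_zsmul]
    rfl
  · rw [MvPolynomial.aeval_C]
    rfl

theorem good_add (n : ℕ) (ψ0 : Additive (Gamma0 p) →+ ZMod n) (τ τ' : HeckeAlg)
    (h : Good p n ψ0 τ) (h' : Good p n ψ0 τ') : Good p n ψ0 (τ + τ') := by
  obtain ⟨Θz, Θc, Θn, h1, h2, h3, h4, h5⟩ := h
  obtain ⟨Θz', Θc', Θn', h1', h2', h3', h4', h5'⟩ := h'
  have he : ∀ f, evalEnd p (τ + τ') f = evalEnd p τ f + evalEnd p τ' f := by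
    intro f
    unfold evalEnd
    rw [map_add, Subalgebra.coe_add, LinearMap.add_apply]
  refine ⟨Θz + Θz', Θc + Θc', Θn + Θn', ?_, ?_, ?_, ?_, ?_⟩
  · intro ψ
    rw [AddMonoidHom.add_apply, AddMonoidHom.add_apply, h1, h1']
    refine AddMonoidHom.ext fun γ => ?_
    simp
  · intro ψ
    rw [AddMonoidHom.add_apply, AddMonoidHom.add_apply, h2, h2']
    refine AddMonoidHom.ext fun γ => ?_
    simp
  · intro f
    rw [AddMonoidHom.add_apply, h3, h3', he, periodMap_add]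
  · intro f
    rw [AddMonoidHom.add_apply, h4, h4', he, periodMap_add, map_add]
  · rw [AddMonoidHom.add_apply, h5, h5', map_add, add_smul]

theorem good_mul (n : ℕ) (ψ0 : Additive (Gamma0 p) →+ ZMod n) (τ σ : HeckeAlg)
    (h : Good p n ψ0 τ) (D : HData (Gamma0 p))
    (hD1 : ∀ f, D.op ℂ (periodMap p f) = periodMap p (evalEnd p σ f))
    (hD2 : ∀ f, D.op ℂ (charInvolution p ℂ ℂ (periodMap p f)) =
      charInvolution p ℂ ℂ (periodMap p (evalEnd p σ f)))
    (hD3 : D.op _ ψ0 = (MvPolynomial.aeval (eisensteinSystem p) σ : ℤ) • ψ0) :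
    Good p n ψ0 (τ * σ) := by
  obtain ⟨Θz, Θc, Θn, h1, h2, h3, h4, h5⟩ := h
  have he : ∀ f, evalEnd p (τ * σ) f = evalEnd p τ (evalEnd p σ f) := by
    intro f
    unfold evalEnd
    rw [map_mul, Subalgebra.coe_mul, Module.End.mul_apply]
  refine ⟨Θz.comp (D.op ℤ), Θc.comp (D.op ℂ), Θn.comp (D.op _), ?_, ?_, ?_, ?_, ?_⟩
  · intro ψ
    rw [AddMonoidHom.comp_apply, AddMonoidHom.comp_apply, D.op_comp, h1]
  · intro ψ
    rw [AddMonoidHom.comp_apply, AddMonoidHom.comp_apply, D.op_comp, h2]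
  · intro f
    rw [AddMonoidHom.comp_apply, hD1, h3, he]
  · intro f
    rw [AddMonoidHom.comp_apply, hD2, h4, he]
  · rw [AddMonoidHom.comp_apply, hD3, map_zsmul, h5, map_mul, smul_smul, mul_comm]

theorem good_all (τ : HeckeAlg) :
    ∃ ψ0 : Additive (Gamma0 p) →+ ZMod (eisensteinNumerator p),
      IsParabolicHom (Gamma0 p) ψ0 ∧
      (∀ γ : Gamma0 p, IsOfFinOrder γ → ψ0 (Additive.ofMul γ) = 0) ∧
      (∃ γ, ψ0 γ = 1) ∧ Good p _ ψ0 τ := by
  obtain ⟨ψ0, hpar, hell, hsurj, hT, hU⟩ := exists_psi0 p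
  refine ⟨ψ0, hpar, hell, hsurj, ?_⟩
  have hp : p.Prime := Fact.out
  have hU' : ∀ (q : ℕ) [NeZero q] (hq : q.Prime) (h : q ∣ p), (dataU p q h).op _ ψ0 = ψ0 := by
    intro q _ hq h
    obtain rfl := (Nat.prime_dvd_prime_iff_eq hq hp).mp h
    exact hU
  induction τ using MvPolynomial.induction_on with
  | C a => exact good_C p _ ψ0 a
  | add τ τ' h h' => exact good_add p _ ψ0 τ τ' h h'
  | mul_X τ ℓ h =>
    have : Fact (ℓ : ℕ).Prime := ⟨ℓ.2⟩
    have : NeZero (ℓ : ℕ) := ⟨ℓ.2.ne_zero⟩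
    by_cases hℓ : (ℓ : ℕ) ∣ p
    · have he : evalEnd p (MvPolynomial.X ℓ) = CuspForm.heckeULin 2 hℓ := by
        unfold evalEnd
        have := CuspForm.heckeEvalForms_heckeGen_of_dvd (N := p) (k := 2) hℓ
        rw [show MvPolynomial.X ℓ = heckeGen ℓ from rfl, this, CuspForm.heckeAlgebra.coe_U]
      refine good_mul p _ ψ0 τ _ h (dataU p ℓ hℓ) ?_ ?_ ?_
      · intro f
        rw [he]
        exact (opU_periodMap ℓ hℓ f).1
      · intro f
        rw [he]
        exact (opU_periodMap ℓ hℓ f).2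
      · rw [MvPolynomial.aeval_X, eisensteinSystem_of_dvd hℓ, one_smul]
        exact hU' ℓ ℓ.2 hℓ
    · have he : evalEnd p (MvPolynomial.X ℓ) = CuspForm.heckeTLin 2 ℓ.2 hℓ := by
        unfold evalEnd
        have := CuspForm.heckeEvalForms_heckeGen_of_not_dvd (N := p) (k := 2) hℓ
        rw [show MvPolynomial.X ℓ = heckeGen ℓ from rfl, this, CuspForm.heckeAlgebra.coe_T]
      refine good_mul p _ ψ0 τ _ h (dataT p ℓ hℓ) ?_ ?_ ?_
      · intro f
        rw [he]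
        exact (opT_periodMap ℓ hℓ f).1
      · intro f
        rw [he]
        exact (opT_periodMap ℓ hℓ f).2
      · rw [MvPolynomial.aeval_X, eisensteinSystem_of_not_dvd hℓ, hT ℓ hℓ]
        refine AddMonoidHom.ext fun γ => ?_
        simp [add_comm]

/-- the lower bound, assuming the lifting property. -/
theorem lower_of_lift (hlift : LiftHyp p) (τ : HeckeAlg)
    (hτ : ∀ f : CuspForm (Gamma0 p) 2,
      ((CuspForm.heckeEvalForms p 2 τ : CuspForm.heckeAlgebra p 2 ∅) :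
        Module.End ℂ (CuspForm (Gamma0 p) 2)) f = 0) :
    (eisensteinNumerator p : ℤ) ∣ MvPolynomial.aeval (eisensteinSystem p) τ := by
  obtain ⟨ψ0, hpar, hell, ⟨γ0, hγ0⟩, Θz, Θc, Θn, h1, h2, h3, h4, h5⟩ := good_all p τ
  obtain ⟨Ψ, hΨpar, hΨ⟩ := hlift _ ψ0 hpar hell
  have hτ' : ∀ f, evalEnd p τ f = 0 := hτ
  have hzero : periodMap p (0 : CuspForm (Gamma0 p) 2) = 0 := map_zero (periodMapLinear p)
  -- the complexification of `Ψ` is in the range of the period pairing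
  have hmem : (Int.castAddHom ℂ).comp Ψ ∈ parabolicHoms ℂ (Gamma0 p) ℂ := by
    rw [mem_parabolicHoms_iff]
    intro γ hγ
    show ((Ψ (Additive.ofMul γ) : ℤ) : ℂ) = 0
    rw [hΨpar γ hγ, Int.cast_zero]
  rw [← (Fermat.Agent.S21.result p).2] at hmem
  obtain ⟨⟨f, g⟩, hfg⟩ := hmem
  obtain ⟨pml, hpml, hdef⟩ := periodHomPair_def p (existsPeriodMapLinear p)
  have hc : Θc ((Int.castAddHom ℂ).comp Ψ) = 0 := by
    rw [← hfg, hdef]
    simp only [LinearMap.coprod_apply, LinearMap.comp_apply, LinearMap.add_apply,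
      LinearMap.sub_apply, LinearMap.id_apply, hpml, map_add, map_sub, h3, h4, hτ', hzero,
      map_zero, add_zero, sub_zero]
  rw [h1] at hc
  have hz : Θz Ψ = 0 := by
    refine AddMonoidHom.ext fun γ => ?_
    have h7 : (((Θz Ψ) γ : ℤ) : ℂ) = 0 := DFunLike.congr_fun hc γ
    exact_mod_cast h7
  have hΨ0 : (Int.castAddHom (ZMod (eisensteinNumerator p))).comp Ψ = ψ0 :=
    AddMonoidHom.ext fun γ => hΨ γ
  rw [← hΨ0, h2, hz, hΨ0] at h5
  have h6 := DFunLike.congr_fun h5 γ0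
  rw [AddMonoidHom.zsmul_apply, hγ0] at h6
  rw [← ZMod.intCast_zmod_eq_zero_iff_dvd]
  simpa using h6.symm

end Fermat.Agent.S16
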