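import Fermat.Agent.S16.Psi0
import Fermat.Agent.S16.Lift
import Fermat.Agent.S16.Duality
import Fermat.Agent.GR.B.ES

/-!
# S16 (L): the lower bound `n ∣ eis τ` for every Hecke polynomial `τ` killing `S₂(Γ₀(p))`

Assembly: Hecke correspondences on `Hom(Γ₀(p), M)` (GR-B), Eichler-Shimura (S21), the parabolic
`ℤ`-lift (S16/Lift) and the Shimura homomorphism `ψ₀` (S16/Psi0).
-/

set_option autoImplicit false

open CongruenceSubgroup Matrix.SpecialLinearGroup UpperHalfPlane ModularCurve ModularCurve.Period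
open scoped MatrixGroups
open Fermat.Agent.GR.B CuspForm

namespace Fermat.Agent.S16.Psi

variable (p : ℕ) [Fact p.Prime]

theorem act_X (l : Nat.Primes) : act p (MvPolynomial.X l) = heckeP p l l.2 := by
  by_cases h : (l : ℕ) ∣ p
  · rw [act_X_self p l h, heckeP_of_dvd p l.2 h]
  · rw [act_X_of_ne p l h, heckeP_of_not_dvd p l.2 h]

/-- `τ` acts compatibly on `Hom(Γ₀(p), M)` for `M = ℤ, ℂ, ℤ/n`. -/
def Good (τ : HeckeAlg) : Prop :=
  ∃ (ΘZ : (Additive (Gamma0 p) →+ ℤ) →+ (Additive (Gamma0 p) →+ ℤ))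
    (ΘC : (Additive (Gamma0 p) →+ ℂ) →+ (Additive (Gamma0 p) →+ ℂ))
    (Θn : (Additive (Gamma0 p) →+ ZMod (eisensteinNumerator p)) →+
      (Additive (Gamma0 p) →+ ZMod (eisensteinNumerator p))),
    (∀ φ, ΘC ((Int.castAddHom ℂ).comp φ) = (Int.castAddHom ℂ).comp (ΘZ φ)) ∧
    (∀ φ, Θn ((Int.castAddHom (ZMod (eisensteinNumerator p))).comp φ) =
      (Int.castAddHom (ZMod (eisensteinNumerator p))).comp (ΘZ φ)) ∧
    (∀ f g, ΘC (periodHomPair p (f, g)) = periodHomPair p (act p τ f, act p τ g)) ∧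
    Θn (psi0 p) = eis p τ • psi0 p

theorem good_C (a : ℤ) : Good p (MvPolynomial.C a) := by
  refine ⟨a • AddMonoidHom.id _, a • AddMonoidHom.id _, a • AddMonoidHom.id _, ?_, ?_, ?_, ?_⟩
  · intro φ
    refine AddMonoidHom.ext fun γ => ?_
    simp
  · intro φ
    refine AddMonoidHom.ext fun γ => ?_
    simp
  · intro f g
    rw [act_C]
    simp only [AddMonoidHom.smul_apply, AddMonoidHom.id_apply, LinearMap.smul_apply,
      Module.End.one_apply]
    rw [← map_zsmul]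
    rfl
  · simp [eis]

theorem good_add {τ σ : HeckeAlg} (hτ : Good p τ) (hσ : Good p σ) : Good p (τ + σ) := by
  obtain ⟨Z1, C1, n1, a1, b1, c1, d1⟩ := hτ
  obtain ⟨Z2, C2, n2, a2, b2, c2, d2⟩ := hσ
  refine ⟨Z1 + Z2, C1 + C2, n1 + n2, ?_, ?_, ?_, ?_⟩
  · intro φ
    rw [AddMonoidHom.add_apply, AddMonoidHom.add_apply, a1, a2, AddMonoidHom.comp_add]
  · intro φ
    rw [AddMonoidHom.add_apply, AddMonoidHom.add_apply, b1, b2, AddMonoidHom.comp_add]
  · intro f g
    rw [AddMonoidHom.add_apply, c1, c2, ← map_add, act_add]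
    rfl
  · rw [AddMonoidHom.add_apply, d1, d2, map_add, add_smul]

theorem good_mul_X {τ : HeckeAlg} (l : Nat.Primes) (hτ : Good p τ) :
    Good p (τ * MvPolynomial.X l) := by
  obtain ⟨Z1, C1, n1, a1, b1, c1, d1⟩ := hτ
  refine ⟨Z1.comp ((repsP p l l.2).op ℤ), C1.comp ((repsP p l l.2).op ℂ),
    n1.comp ((repsP p l l.2).op _), ?_, ?_, ?_, ?_⟩
  · intro φ
    rw [AddMonoidHom.comp_apply, AddMonoidHom.comp_apply, Reps.op_comp, a1]
  · intro φ
    rw [AddMonoidHom.comp_apply, AddMonoidHom.comp_apply, Reps.op_comp, b1]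
  · intro f g
    rw [AddMonoidHom.comp_apply, ← periodHomPair_heckeP, c1, act_mul, act_X]
    rfl
  · rw [AddMonoidHom.comp_apply, op_psi0, map_zsmul, d1, map_mul, smul_smul, mul_comm]
    congr 2
    simp [eis]

theorem good (τ : HeckeAlg) : Good p τ :=
  MvPolynomial.induction_on τ (good_C p) (fun _ _ => good_add p) (fun _ l => good_mul_X p l)

/-- **(L)**: a Hecke polynomial which kills `S₂(Γ₀(p))` has Eisenstein value divisible by `n`. -/
theorem lower (τ : HeckeAlg)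
    (hτ : ∀ f : CuspForm (Gamma0 p) 2,
      ((heckeEvalForms p 2 τ : heckeAlgebra p 2 ∅) : Module.End ℂ _) f = 0) :
    (eisensteinNumerator p : ℤ) ∣ MvPolynomial.aeval (eisensteinSystem p) τ := by
  have hp : p.Prime := Fact.out
  have : NeZero p := ⟨hp.ne_zero⟩
  obtain ⟨ΘZ, ΘC, Θn, hC, hn, hper, hpsi⟩ := good p τ
  obtain ⟨Ψ, hΨpar, hΨ⟩ := Fermat.Agent.S16.exists_parabolic_lift p (eisensteinNumerator p)
    (psi0 p) (isParabolicHom_psi0 p) (psi0_eq_zero_of_isOfFinOrder p)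
  -- the complexification of `Ψ` is a period
  have hmem : (Int.castAddHom ℂ).comp Ψ ∈ parabolicHoms ℂ (Gamma0 p) ℂ := by
    rw [mem_parabolicHoms_iff]
    intro γ hγ
    rw [AddMonoidHom.comp_apply, hΨpar γ hγ, map_zero]
  rw [← (Fermat.Agent.S21.result p).2] at hmem
  obtain ⟨⟨f, g⟩, hfg⟩ := hmem
  have h1 : ΘC ((Int.castAddHom ℂ).comp Ψ) = 0 := by
    rw [← hfg, hper]
    have e1 : act p τ f = 0 := hτ f
    have e2 : act p τ g = 0 := hτ g
    rw [e1, e2]
    exact map_zero _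
  rw [hC] at h1
  have h2 : ΘZ Ψ = 0 := by
    refine AddMonoidHom.ext fun γ => ?_
    have := congrArg (fun φ : Additive (Gamma0 p) →+ ℂ => φ γ) h1
    simpa using this
  have h3 : (Int.castAddHom (ZMod (eisensteinNumerator p))).comp Ψ = psi0 p :=
    AddMonoidHom.ext fun γ => hΨ γ
  have h4 : eis p τ • psi0 p = 0 := by
    rw [← hpsi, ← h3, hn, h2]
    exact AddMonoidHom.comp_zero _
  obtain ⟨γ, hγ⟩ := exists_psi0_eq_one p
  have h5 := congrArg (fun φ : Additive (Gamma0 p) →+ ZMod (eisensteinNumerator p) =>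
    φ (Additive.ofMul γ)) h4
  simp only [AddMonoidHom.smul_apply, hγ, AddMonoidHom.zero_apply, zsmul_eq_mul, mul_one] at h5
  exact (ZMod.intCast_zmod_eq_zero_iff_dvd _ _).mp h5

end Fermat.Agent.S16.Psi
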