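import Fermat.Agent.S16.Trace

set_option autoImplicit false

namespace Fermat.Agent.S16

open UpperHalfPlane ModularForm CongruenceSubgroup PowerSeries

theorem coeff_sq_zmod2 (y : PowerSeries (ZMod 2)) (n : ℕ) :
    (y * y).coeff n = if 2 ∣ n then y.coeff (n / 2) else 0 := by
  have h : (PowerSeries.expand 2 two_ne_zero y).map (frobenius (ZMod 2) 2) = y ^ 2 :=
    MvPowerSeries.map_frobenius_expand (σ := Unit) (R := ZMod 2) 2 two_ne_zero (f := y)
  rw [← sq, ← h, ZMod.frobenius_zmod, PowerSeries.coeff_map, PowerSeries.coeff_expand]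
  simp

theorem coeff_sq_cast (y : ℕ → ℤ) (n : ℕ) :
    (((mk y * mk y).coeff n : ℤ) : ZMod 2) = if 2 ∣ n then ((y (n / 2) : ℤ) : ZMod 2) else 0 := by
  have h := coeff_sq_zmod2 ((mk y).map (Int.castRingHom (ZMod 2))) n
  rw [← map_mul, PowerSeries.coeff_map, PowerSeries.coeff_map, coeff_mk] at h
  simpa using h

/-- expansion of the square of `A + c y`. -/
theorem coeff_sq_expand (a y : ℕ → ℤ) (A c : ℤ) (h0 : a 0 = A) (hy0 : y 0 = 0)
    (hy : ∀ n, 1 ≤ n → a n = c * y n) (n : ℕ) (hn : 1 ≤ n) :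
    (mk a * mk a).coeff n = 2 * A * c * y n + c * c * (mk y * mk y).coeff n := by
  have h1 : mk a = C A + C c * mk y := by
    ext m
    rcases Nat.eq_zero_or_pos m with rfl | hm
    · simp [h0, hy0]
    · rw [map_add, coeff_C_mul, coeff_mk, coeff_mk, coeff_C, if_neg (by omega), hy m hm]
      ring
  have h2 : (C A + C c * mk y) * (C A + C c * mk y) =
      C (A * A) + C (2 * A * c) * mk y + C (c * c) * (mk y * mk y) := by
    simp only [map_mul, map_ofNat]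
    ring
  rw [h1, h2, map_add, map_add, coeff_C_mul, coeff_C_mul, coeff_C, if_neg (by omega), coeff_mk]
  ring

theorem formal_two (p : ℕ) (hp : p % 4 = 1) (a y : ℕ → ℤ) (A : ℤ) (hA : Odd A)
    (h0 : a 0 = A) (hy0 : y 0 = 0) (hy : ∀ n, 1 ≤ n → a n = 4 * y n)
    (hpp : ∀ n, a (n * p * p) = a n)
    (hK : ∀ n, 1 ≤ n → (p : ℤ) * (mk a * mk a).coeff n +
      (mk (fun m => a (m * p)) * mk (fun m => a (m * p))).coeff (n * p) =
      ((p : ℤ) + 1) * a 0 ^ 2 * (240 * (ArithmeticFunction.sigma 3 n : ℕ))) :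
    ∀ n, 1 ≤ n → (2 : ℤ) ∣ y n := by
  have hp1 : 1 ≤ p := by omega
  have hyy : ∀ m, y (m * p * p) = y m := by
    intro m
    rcases Nat.eq_zero_or_pos m with rfl | hm
    · simp
    · have h1 := hpp m
      have hm' : 1 ≤ m * p * p := Nat.mul_pos (Nat.mul_pos hm hp1) hp1
      rw [hy _ hm', hy _ hm] at h1
      linarith
  intro n hn
  have hnp : 1 ≤ n * p := Nat.mul_pos hn hp1
  have e1 := coeff_sq_expand a y A 4 h0 hy0 hy n hn
  have e2 := coeff_sq_expand (fun m => a (m * p)) (fun m => y (m * p)) A 4 (by simp [h0])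
    (by simp [hy0]) (fun m hm => hy _ (Nat.mul_pos hm hp1)) (n * p) hnp
  have h := hK n hn
  rw [e1, e2, h0] at h
  simp only [hyy] at h
  obtain ⟨t, ht⟩ : ∃ t : ℕ, p = 4 * t + 1 := ⟨p / 4, by omega⟩
  set c1 := (mk y * mk y).coeff n with hc1
  set c2 := (mk (fun m => y (m * p)) * mk (fun m => y (m * p))).coeff (n * p) with hc2
  set s : ℤ := ((ArithmeticFunction.sigma 3 n : ℕ) : ℤ) with hs
  have hpt : (p : ℤ) = 4 * t + 1 := by exact_mod_cast ht
  have h' : A * y n * (2 * t + 1) + (4 * t + 1) * c1 + c2 = 30 * (2 * t + 1) * A ^ 2 * s := by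
    rw [hpt] at h
    linarith
  have hc : ((c1 : ℤ) : ZMod 2) = ((c2 : ℤ) : ZMod 2) := by
    rw [hc1, hc2, coeff_sq_cast, coeff_sq_cast]
    have hodd : Nat.Coprime 2 p := by
      rw [Nat.coprime_two_left]
      exact Nat.odd_iff.mpr (by omega)
    by_cases h2 : 2 ∣ n
    · obtain ⟨m, rfl⟩ := h2
      rw [if_pos (dvd_mul_right 2 m), if_pos (Dvd.dvd.mul_right (dvd_mul_right 2 m) p)]
      have : 2 * m * p / 2 = m * p := by
        rw [mul_assoc]; simp
      rw [this, hyy]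
      simp
    · rw [if_neg h2, if_neg (fun hh => h2 (hodd.dvd_of_dvd_mul_right hh))]
  have h2 := congrArg (Int.cast : ℤ → ZMod 2) h'
  obtain ⟨r, hr⟩ := hA
  push_cast at h2
  rw [← hc, hr] at h2
  push_cast at h2
  have two0 : (2 : ZMod 2) = 0 := by decide
  have four0 : (4 : ZMod 2) = 0 := by decide
  have thirty0 : (30 : ZMod 2) = 0 := by decide
  rw [two0, four0, thirty0] at h2
  have h3 : ((y n : ℤ) : ZMod 2) + (2 : ZMod 2) * (c1 : ZMod 2) = 0 := by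
    linear_combination h2
  rw [two0, zero_mul, add_zero] at h3
  exact (ZMod.intCast_zmod_eq_zero_iff_dvd _ 2).mp h3

theorem formal_three (p : ℕ) (hpr : p.Prime) (hp : p % 3 = 1) (a y : ℕ → ℤ) (A : ℤ)
    (hA : ¬ (3 : ℤ) ∣ A)
    (h0 : a 0 = A) (hy0 : y 0 = 0) (hy : ∀ n, 1 ≤ n → a n = 3 * y n)
    (hpp : ∀ n, a (n * p * p) = a n)
    (hK : ∀ n, 1 ≤ n → (p : ℤ) * (mk a * mk a).coeff n +
      (mk (fun m => a (m * p)) * mk (fun m => a (m * p))).coeff (n * p) =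
      ((p : ℤ) + 1) * a 0 ^ 2 * (240 * (ArithmeticFunction.sigma 3 n : ℕ)))
    (hK' : ∀ n, 1 ≤ n → (p : ℤ) * (mk (fun m => a (m * p)) * mk (fun m => a (m * p))).coeff n +
      (mk a * mk a).coeff (n * p) =
      ((p : ℤ) + 1) * a 0 ^ 2 * (240 * (ArithmeticFunction.sigma 3 n : ℕ))) : False := by
  have hp1 : 1 ≤ p := by omega
  have hyy : ∀ m, y (m * p * p) = y m := by
    intro m
    rcases Nat.eq_zero_or_pos m with rfl | hm
    · simp
    · have h1 := hpp m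
      have hm' : 1 ≤ m * p * p := Nat.mul_pos (Nat.mul_pos hm hp1) hp1
      rw [hy _ hm', hy _ hm] at h1
      linarith
  have ea := fun n hn => coeff_sq_expand a y A 3 h0 hy0 hy n hn
  have eb := fun n hn => coeff_sq_expand (fun m => a (m * p)) (fun m => y (m * p)) A 3
    (by simp [h0]) (by simp [hy0]) (fun m hm => hy _ (Nat.mul_pos hm hp1)) n hn
  have h1 := hK p hp1
  have h2 := hK' 1 le_rfl
  rw [ea p hp1, eb (p * p) (Nat.mul_pos hp1 hp1), h0] at h1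
  rw [eb 1 le_rfl, ea (1 * p) (by omega), h0] at h2
  simp only [hyy, one_mul] at h1 h2
  have hs1 : ((ArithmeticFunction.sigma 3 1 : ℕ) : ℤ) = 1 := by simp
  have hsp : ((ArithmeticFunction.sigma 3 p : ℕ) : ℤ) = 1 + (p : ℤ) ^ 3 := by
    rw [ArithmeticFunction.sigma_apply, hpr.sum_divisors]
    push_cast; ring
  rw [hsp] at h1
  rw [hs1] at h2
  set c1 := (mk y * mk y).coeff p
  set c2 := (mk (fun m => y (m * p)) * mk (fun m => y (m * p))).coeff (p * p)
  set c3 := (mk (fun m => y (m * p)) * mk (fun m => y (m * p))).coeff 1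
  have h3 : (3 : ℤ) * ((p : ℤ) * c1 + c2 - (p : ℤ) * c3 - c1) =
      80 * (((p : ℤ) + 1) * (A ^ 2 * (p : ℤ) ^ 3)) := by
    linarith
  have h4 : (3 : ℤ) ∣ 80 * (((p : ℤ) + 1) * (A ^ 2 * (p : ℤ) ^ 3)) := ⟨_, h3.symm⟩
  have pr3 : Prime (3 : ℤ) := Int.prime_three
  rcases pr3.dvd_or_dvd h4 with h | h
  · norm_num at h
  rcases pr3.dvd_or_dvd h with h | h
  · omega
  rcases pr3.dvd_or_dvd h with h | h
  · exact hA (pr3.dvd_of_dvd_pow h)
  · have := pr3.dvd_of_dvd_pow h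
    omega

theorem exists_int_seq {q : PowerSeries ℂ} {A c : ℤ} (h0 : q.coeff 0 = A)
    (hn : ∀ n, 1 ≤ n → ∃ m : ℤ, q.coeff n = ((c * m : ℤ) : ℂ)) :
    ∃ a y : ℕ → ℤ, (∀ n, q.coeff n = a n) ∧ a 0 = A ∧ y 0 = 0 ∧ ∀ n, 1 ≤ n → a n = c * y n := by
  classical
  choose! m hm using hn
  refine ⟨fun n => if n = 0 then A else c * m n, fun n => if n = 0 then 0 else m n, ?_, by simp,
    by simp, ?_⟩
  · intro n
    rcases Nat.eq_zero_or_pos n with rfl | hn
    · simpa using h0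
    · have h : n ≠ 0 := by omega
      simp only [h, if_false]
      exact hm n hn
  · intro n hn
    have h : n ≠ 0 := by omega
    simp only [h, if_false]

/-- (3a) -/
theorem no_cong_three (p : ℕ) [Fact p.Prime] (hp : p % 3 = 1) (H : ModularForm (Gamma0 p) 2)
    (A : ℤ) (hA : ¬ (3 : ℤ) ∣ A) (h0 : (qExpansion 1 H).coeff 0 = A)
    (hn : ∀ n, 1 ≤ n → ∃ m : ℤ, (qExpansion 1 H).coeff n = ((3 * m : ℤ) : ℂ)) : False := by
  obtain ⟨a, y, ha, ha0, hy0, hy⟩ := exists_int_seq h0 hn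
  obtain ⟨hpp, hK, hK'⟩ := key_identity_int H a ha
  exact formal_three p Fact.out hp a y A hA ha0 hy0 hy hpp hK hK'

/-- (2b) -/
theorem cong_eight_of_cong_four (p : ℕ) [Fact p.Prime] (hp : p % 4 = 1)
    (H : ModularForm (Gamma0 p) 2) (A : ℤ) (hA : Odd A) (h0 : (qExpansion 1 H).coeff 0 = A)
    (hn : ∀ n, 1 ≤ n → ∃ m : ℤ, (qExpansion 1 H).coeff n = ((4 * m : ℤ) : ℂ)) :
    ∀ n, 1 ≤ n → ∃ m : ℤ, (qExpansion 1 H).coeff n = ((8 * m : ℤ) : ℂ) := by
  obtain ⟨a, y, ha, ha0, hy0, hy⟩ := exists_int_seq h0 hn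
  obtain ⟨hpp, hK, -⟩ := key_identity_int H a ha
  intro n hn1
  obtain ⟨m, hm⟩ := formal_two p hp a y A hA ha0 hy0 hy hpp hK n hn1
  refine ⟨m, ?_⟩
  rw [ha, hy n hn1, hm]
  push_cast; ring

end Fermat.Agent.S16
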