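import Mathlib
import Fermat.Prelude.Def_ModularForm_HeckeOperator
import Fermat.Agent.S23.Basic
import Fermat.Agent.S23.LevelRaise

set_option autoImplicit false

namespace Fermat.Agent.S16

open UpperHalfPlane ModularForm MatrixGroups CongruenceSubgroup
open Fermat.Agent.S23

/-- `V_N F (τ) = F (N τ)`. -/
noncomputable def Vp (N : ℕ) (F : ℍ → ℂ) : ℍ → ℂ := fun τ => F (ModularForm.heckeDiagMatrix N • τ)

theorem Vp_eq_smul_slash (N : ℕ) [NeZero N] (k : ℤ) (F : ℍ → ℂ) :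
    Vp N F = ((N : ℂ) ^ (k - 1))⁻¹ • (F ∣[k] heckeDiagMatrix N) := by
  have hN : (N : ℂ) ≠ 0 := Nat.cast_ne_zero.mpr (NeZero.ne N)
  ext τ
  rw [Pi.smul_apply, slash_heckeDiagMatrix_apply _ (NeZero.ne N), Vp, smul_eq_mul, ← mul_assoc,
    inv_mul_cancel₀ (zpow_ne_zero _ hN), one_mul]

theorem isMF_Vp (N : ℕ) [NeZero N] {k : ℤ} {F : ℍ → ℂ} (hF : IsMF 𝒮ℒ k F) :
    IsMF (G0 N) k (Vp N F) := by
  obtain ⟨a, rfl⟩ := hF
  rw [Vp_eq_smul_slash N k]
  exact ((IsMF.of (ModularForm.translate a (heckeDiagMatrix N))).mono (G0_le_conj N)).smul _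

theorem hasSum_Vp (N : ℕ) [NeZero N] {k : ℤ} (a : ModularForm 𝒮ℒ k) (τ : ℍ) :
    HasSum (fun n : ℕ => (if N ∣ n then (qExpansion 1 a).coeff (n / N) else 0) •
        Function.Periodic.qParam 1 (τ : ℂ) ^ n) (Vp N a τ) := by
  have hN : N ≠ 0 := NeZero.ne N
  have h1 := ModularForm.hasSum_qExpansion (f := a) one_pos
    one_mem_strictPeriods_SL (heckeDiagMatrix N • τ)
  rw [qParam_heckeDiag] at h1
  have hinj : Function.Injective (fun m : ℕ => N * m) := fun a b hab =>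
    Nat.eq_of_mul_eq_mul_left (Nat.pos_of_ne_zero hN) hab
  rw [← hinj.hasSum_iff]
  · have hfun : ((fun n : ℕ => (if N ∣ n then (qExpansion 1 a).coeff (n / N) else 0) •
          Function.Periodic.qParam 1 (τ : ℂ) ^ n) ∘ fun m : ℕ => N * m) =
        fun i => ((qExpansion 1 a).coeff i • (Function.Periodic.qParam 1 (τ : ℂ) ^ N) ^ i) := by
      funext m
      simp [hN, pow_mul]
    rw [hfun]
    exact h1
  · intro n hn
    have : ¬ N ∣ n := fun ⟨m, hm⟩ => hn ⟨m, hm.symm⟩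
    simp [this]

theorem coeff_Vp (N : ℕ) [NeZero N] {k : ℤ} {F : ℍ → ℂ} (hF : IsMF 𝒮ℒ k F) (n : ℕ) :
    (qExpansion 1 (Vp N F)).coeff n = if N ∣ n then (qExpansion 1 F).coeff (n / N) else 0 := by
  obtain ⟨b, hb⟩ := isMF_Vp N hF
  obtain ⟨a, rfl⟩ := hF
  rw [← hb]
  have h : ∀ τ : ℍ, HasSum (fun n : ℕ => (if N ∣ n then (qExpansion 1 a).coeff (n / N) else 0) •
        Function.Periodic.qParam 1 (τ : ℂ) ^ n) (b τ) := by
    intro τ
    rw [hb]
    exact hasSum_Vp N a τ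
  exact (ModularFormClass.qExpansion_coeff_unique one_pos
    (CongruenceSubgroup.one_mem_strictPeriods_Gamma0 N) (f := b) h n).symm

theorem coeff_E6 (n : ℕ) (hn : 1 ≤ n) :
    (qExpansion 1 E₆).coeff n = ((-504 * (ArithmeticFunction.sigma 5 n : ℕ) : ℤ) : ℂ) := by
  rw [EisensteinSeries.E_qExpansion_coeff _ ⟨3, rfl⟩, if_neg (by omega)]
  norm_num [show bernoulli 6 = 1 / 42 by decide +kernel]

end Fermat.Agent.S16
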