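import Fermat.Agent.S16.SturmMod
import Fermat.Agent.S16.VpForms
import Fermat.Agent.S16.OtherCusp
import Fermat.Agent.S20.OrbitCounts

set_option autoImplicit false

namespace Fermat.Agent.S16

open UpperHalfPlane ModularForm MatrixGroups CongruenceSubgroup
open Fermat.Agent.S23
open PowerSeries

theorem index_Gamma0_prime (p : ℕ) [Fact p.Prime] : (Gamma0 p).index = p + 1 := by
  have hp : p.Prime := Fact.out
  rw [Fermat.Agent.S20.AR.index_Gamma0 p hp.ne_zero, ModularCurve.dedekindPsi,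
    Nat.Prime.divisors hp, Finset.filter_true_of_mem, Finset.sum_pair hp.one_lt.ne]
  · rw [Nat.div_one, Nat.div_self hp.pos]
  · intro d hd
    simp only [Finset.mem_insert, Finset.mem_singleton] at hd
    rcases hd with rfl | rfl
    · exact squarefree_one
    · exact hp.squarefree

/-- No integral form of weight `w < 12 p / (p+1)` on `Γ0(p)` has order exactly `p` mod `l`. -/
theorem no_form (p : ℕ) [Fact p.Prime] (w : ℕ) (hw : w * (p + 1) < 12 * p) {Y : ℍ → ℂ}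
    (hY : IsMF (G0 p) (w : ℤ) Y) (b : ℕ → ℤ) (hb : ∀ n, (qExpansion 1 Y).coeff n = b n)
    (l : ℕ) (hl : l.Prime) (hlow : ∀ n, n < p → (l : ℤ) ∣ b n) (hpp : ¬ (l : ℤ) ∣ b p) : False :=
  hpp (sturm_mod p w hY b hb l hl (fun n hn => hlow n (by
    rw [index_Gamma0_prime] at hn
    omega)) p)

/-- powers of `A + M y`. -/
theorem dvd_coeff_pow (a : ℕ → ℤ) (M : ℤ) (hM : ∀ n, 1 ≤ n → M ∣ a n) (j n : ℕ) (hn : 1 ≤ n) :
    M ∣ ((mk a) ^ j).coeff n := by
  classical
  choose! y hy using hM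
  have h1 : mk a - C (a 0) = C M * mk (fun n => if n = 0 then 0 else y n) := by
    ext m
    rcases Nat.eq_zero_or_pos m with rfl | hm
    · simp
    · rw [map_sub, coeff_C_mul, coeff_mk, coeff_mk, coeff_C, if_neg (by omega), if_neg (by omega),
        hy m hm, sub_zero]
  obtain ⟨Z, hZ⟩ := sub_dvd_pow_sub_pow (mk a) (C (a 0)) j
  have h2 : (mk a) ^ j = C (a 0 ^ j) + C M * (mk (fun n => if n = 0 then 0 else y n) * Z) := by
    rw [map_pow, ← mul_assoc, ← h1, ← hZ]; ring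
  rw [h2, map_add, coeff_C, if_neg (by omega), zero_add, coeff_C_mul]
  exact dvd_mul_right _ _

theorem dvd_coeff_sq (a : ℕ → ℤ) (M : ℤ) (h2 : (2 : ℤ) ∣ M) (hM : ∀ n, 1 ≤ n → M ∣ a n) (n : ℕ)
    (hn : 1 ≤ n) : 2 * M ∣ ((mk a) ^ 2).coeff n := by
  classical
  choose! y hy using hM
  obtain ⟨M', rfl⟩ := h2
  set Y := mk (fun n => if n = 0 then 0 else y n) with hY
  have h1 : mk a = C (a 0) + C (2 * M') * Y := by
    ext m
    rcases Nat.eq_zero_or_pos m with rfl | hm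
    · simp [hY]
    · rw [map_add, coeff_C_mul, coeff_mk, hY, coeff_mk, coeff_C, if_neg (by omega),
        if_neg (by omega), hy m hm, zero_add]
  have h2 : (mk a) ^ 2 = C (a 0 ^ 2) + C (2 * (2 * M')) * (Y * (C (a 0) + C M' * Y)) := by
    rw [h1]
    simp only [map_mul, map_pow]
    have : (C (2 : ℤ) : PowerSeries ℤ) = 2 := by
      rw [show (2 : ℤ) = ((2 : ℕ) : ℤ) from rfl]; simp
    rw [this]
    ring
  rw [h2, map_add, coeff_C, if_neg (by omega), zero_add, coeff_C_mul]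
  exact dvd_mul_right _ _

/-- The general argument: `H^j - A^j V_p G` with `G = 1 + K (q + ...)` of level one, weight `2j`. -/
theorem no_cong_gen (p : ℕ) [Fact p.Prime] (H : ModularForm (Gamma0 p) 2) (a : ℕ → ℤ)
    (ha : ∀ n, (qExpansion 1 H).coeff n = a n) (j : ℕ) (hj : 2 * j * (p + 1) < 12 * p)
    {G : ℍ → ℂ} (hG : IsMF 𝒮ℒ ((2 * j : ℕ) : ℤ) G) (g : ℕ → ℤ)
    (hg : ∀ n, (qExpansion 1 G).coeff n = g n) (K : ℤ) (hg0 : g 0 = 1) (hg1 : g 1 = K)
    (hgK : ∀ n, 1 ≤ n → K ∣ g n) (l : ℕ) (hl : l.Prime) (c d : ℤ) (hc : c ≠ 0) (hcd : c * d = K)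
    (hpow : ∀ n, 1 ≤ n → c * l ∣ ((mk a) ^ j).coeff n) (hd : ¬ (l : ℤ) ∣ d * (a 0) ^ j) :
    False := by
  have hp : p.Prime := Fact.out
  set A := a 0 with hA
  -- the integral coefficients
  set x : ℕ → ℤ := fun n => ((mk a) ^ j).coeff n - A ^ j * (if p ∣ n then g (n / p) else 0) with hx
  have hx0 : x 0 = 0 := by
    simp only [hx, dvd_zero, if_true, Nat.zero_div, hg0, mul_one]
    rw [coeff_zero_eq_constantCoeff_apply, map_pow, ← coeff_zero_eq_constantCoeff_apply, coeff_mk]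
    ring
  have hxlow : ∀ n, 1 ≤ n → n < p → x n = ((mk a) ^ j).coeff n := by
    intro n h1 h2
    have : ¬ p ∣ n := fun h => absurd (Nat.le_of_dvd h1 h) (by omega)
    simp [hx, this]
  have hxp : x p = ((mk a) ^ j).coeff p - A ^ j * K := by
    simp [hx, Nat.div_self hp.pos, hg1]
  have hcx : ∀ n, c ∣ x n := by
    intro n
    rcases Nat.eq_zero_or_pos n with rfl | hn
    · rw [hx0]; exact dvd_zero _
    · apply dvd_sub ((dvd_mul_right c l).trans (hpow n hn))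
      apply Dvd.dvd.mul_left
      split_ifs with h
      · obtain ⟨m, rfl⟩ := h
        rw [Nat.mul_div_cancel_left _ hp.pos]
        have hm : 1 ≤ m := by
          rcases Nat.eq_zero_or_pos m with rfl | hm
          · simp at hn
          · exact hm
        exact (Dvd.intro _ hcd).trans (hgK m hm)
      · exact dvd_zero _
  choose b hb using hcx
  -- the form
  have hHn : Nice (H : ℍ → ℂ) := (IsMF.of H).nice_G0
  have hVG : IsMF (G0 p) ((2 * j : ℕ) : ℤ) (Vp p G) := isMF_Vp p hG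
  have hHj : IsMF (G0 p) ((2 * j : ℕ) : ℤ) ((H : ℍ → ℂ) ^ j) :=
    ((IsMF.of H).pow j).cast (by push_cast; ring)
  set Y : ℍ → ℂ := ((c : ℂ)⁻¹) • ((H : ℍ → ℂ) ^ j - ((A : ℂ) ^ j) • Vp p G) with hYdef
  have hY : IsMF (G0 p) ((2 * j : ℕ) : ℤ) Y := (hHj.sub (hVG.smul _)).smul _
  have hcC : (c : ℂ) ≠ 0 := Int.cast_ne_zero.mpr hc
  have hqH : qExpansion 1 (H : ℍ → ℂ) = (mk a).map (Int.castRingHom ℂ) := qx_eq_map_mk ha
  have hYb : ∀ n, (qExpansion 1 Y).coeff n = b n := by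
    intro n
    rw [hYdef, Nice.qx_smul _ ((hHn.pow j).sub (hVG.nice_G0.smul _)),
      Nice.qx_sub (hHn.pow j) (hVG.nice_G0.smul _), Nice.qx_smul _ hVG.nice_G0, Nice.qx_pow hHn,
      hqH, ← map_pow]
    simp only [map_smul, map_sub, smul_eq_mul, coeff_map, coeff_Vp p hG n]
    have h1 : ((x n : ℤ) : ℂ) = (c : ℂ) * b n := by rw [hb n]; push_cast; ring
    have h2 : ((x n : ℤ) : ℂ) = (Int.castRingHom ℂ) (((mk a) ^ j).coeff n) -
        (A : ℂ) ^ j * (if p ∣ n then (qExpansion 1 G).coeff (n / p) else 0) := by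
      simp only [hx]
      split_ifs <;> simp [hg]
    rw [← h2, h1]
    field_simp
  refine no_form p (2 * j) hj hY b hYb l hl (fun n hn => ?_) ?_
  · rcases Nat.eq_zero_or_pos n with rfl | hn1
    · have : b 0 = 0 := by
        have := hb 0
        rw [hx0] at this
        rcases mul_eq_zero.mp this.symm with h | h
        · exact absurd h hc
        · exact h
      rw [this]; exact dvd_zero _
    · have h1 := hpow n hn1
      rw [← hxlow n hn1 hn, hb n] at h1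
      exact (mul_dvd_mul_iff_left hc).mp h1
  · intro hlb
    apply hd
    have h1 := hpow p hp.pos
    have h2 : c * (l : ℤ) ∣ c * b p := mul_dvd_mul_left c hlb
    rw [← hb p, hxp] at h2
    have h3 : c * (l : ℤ) ∣ A ^ j * K := by
      have := dvd_sub h1 h2
      simpa using this
    rw [← hcd, show A ^ j * (c * d) = c * (d * A ^ j) by ring] at h3
    exact (mul_dvd_mul_iff_left hc).mp h3

/-- integral coefficients of `E₄`. -/
def e4c (n : ℕ) : ℤ := if n = 0 then 1 else 240 * (ArithmeticFunction.sigma 3 n : ℕ)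

/-- integral coefficients of `E₆`. -/
def e6c (n : ℕ) : ℤ := if n = 0 then 1 else -504 * (ArithmeticFunction.sigma 5 n : ℕ)

theorem coeff_E4_all (n : ℕ) : (qExpansion 1 E₄).coeff n = e4c n := by
  rcases Nat.eq_zero_or_pos n with rfl | hn
  · simpa [e4c] using EisensteinSeries.E_qExpansion_coeff_zero (k := 4) (by norm_num) ⟨2, rfl⟩
  · rw [coeff_E4 n hn, e4c, if_neg (by omega)]

theorem coeff_E6_all (n : ℕ) : (qExpansion 1 E₆).coeff n = e6c n := by
  rcases Nat.eq_zero_or_pos n with rfl | hn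
  · simpa [e6c] using EisensteinSeries.E_qExpansion_coeff_zero (k := 6) (by norm_num) ⟨3, rfl⟩
  · rw [coeff_E6 n hn, e6c, if_neg (by omega)]

theorem no_cong_w4 (p : ℕ) [Fact p.Prime] (H : ModularForm (Gamma0 p) 2) (a : ℕ → ℤ)
    (ha : ∀ n, (qExpansion 1 H).coeff n = a n) (l : ℕ) (hl : l.Prime) (c d : ℤ) (hc : c ≠ 0)
    (hcd : c * d = 240) (hpow : ∀ n, 1 ≤ n → c * l ∣ ((mk a) ^ 2).coeff n)
    (hd : ¬ (l : ℤ) ∣ d * (a 0) ^ 2) : False := by
  have hp : p.Prime := Fact.out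
  have hp2 := hp.two_le
  refine no_cong_gen p H a ha 2 (by omega) (G := E₄) ((IsMF.of E₄).cast (by norm_num)) e4c
    coeff_E4_all 240 (by simp [e4c]) (by simp [e4c]) (fun n hn => ?_) l hl c d hc hcd hpow hd
  rw [e4c, if_neg (by omega)]
  exact dvd_mul_right _ _

theorem no_cong_w6 (p : ℕ) [Fact p.Prime] (H : ModularForm (Gamma0 p) 2) (a : ℕ → ℤ)
    (ha : ∀ n, (qExpansion 1 H).coeff n = a n) (l : ℕ) (hl : l.Prime) (c d : ℤ) (hc : c ≠ 0)
    (hcd : c * d = -504) (hpow : ∀ n, 1 ≤ n → c * l ∣ ((mk a) ^ 3).coeff n)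
    (hd : ¬ (l : ℤ) ∣ d * (a 0) ^ 3) : False := by
  have hp : p.Prime := Fact.out
  have hp2 := hp.two_le
  refine no_cong_gen p H a ha 3 (by omega) (G := E₆) ((IsMF.of E₆).cast (by norm_num)) e6c
    coeff_E6_all (-504) (by simp [e6c]) (by simp [e6c]) (fun n hn => ?_) l hl c d hc hcd hpow hd
  rw [e6c, if_neg (by omega)]
  exact dvd_mul_right _ _

/-- (U-a), `l ≥ 5`. -/
theorem no_cong_prime (p : ℕ) [Fact p.Prime] (l : ℕ) (hl : l.Prime) (h5 : 5 ≤ l)
    (H : ModularForm (Gamma0 p) 2) (A : ℤ) (hA : ¬ (l : ℤ) ∣ A)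
    (h0 : (qExpansion 1 H).coeff 0 = A)
    (hn : ∀ n, 1 ≤ n → ∃ m : ℤ, (qExpansion 1 H).coeff n = (((l : ℤ) * m : ℤ) : ℂ)) : False := by
  obtain ⟨a, y, ha, ha0, -, hy⟩ := exists_int_seq h0 hn
  have hlZ : Prime (l : ℤ) := Nat.prime_iff_prime_int.mp hl
  have hM : ∀ n, 1 ≤ n → (l : ℤ) ∣ a n := fun n h => ⟨y n, hy n h⟩
  rcases Nat.eq_or_lt_of_le h5 with rfl | h6
  · refine no_cong_w6 p H a ha 5 hl 1 (-504) one_ne_zero (by norm_num)
      (fun n h => by simpa using dvd_coeff_pow a _ hM 3 n h) ?_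
    rw [ha0]
    intro h
    rcases hlZ.dvd_or_dvd h with h | h
    · norm_num at h
    · exact hA (hlZ.dvd_of_dvd_pow h)
  · refine no_cong_w4 p H a ha l hl 1 240 one_ne_zero (by norm_num)
      (fun n h => by simpa using dvd_coeff_pow a _ hM 2 n h) ?_
    rw [ha0]
    intro h
    rcases hlZ.dvd_or_dvd h with h | h
    · have h' : l ∣ 2 ^ 4 * 3 * 5 := by
        have : ((l : ℕ) : ℤ) ∣ ((240 : ℕ) : ℤ) := by exact_mod_cast h
        exact Int.natCast_dvd_natCast.mp this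
      rcases (Nat.Prime.dvd_mul hl).mp h' with h' | h'
      · rcases (Nat.Prime.dvd_mul hl).mp h' with h' | h'
        · have := (Nat.prime_dvd_prime_iff_eq hl Nat.prime_two).mp (hl.dvd_of_dvd_pow h')
          omega
        · have := (Nat.prime_dvd_prime_iff_eq hl Nat.prime_three).mp h'
          omega
      · have := (Nat.prime_dvd_prime_iff_eq hl Nat.prime_five).mp h'
        omega
    · exact hA (hlZ.dvd_of_dvd_pow h)

/-- (U-a), `9`. -/
theorem no_cong_nine (p : ℕ) [Fact p.Prime] (H : ModularForm (Gamma0 p) 2) (A : ℤ)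
    (hA : ¬ (3 : ℤ) ∣ A) (h0 : (qExpansion 1 H).coeff 0 = A)
    (hn : ∀ n, 1 ≤ n → ∃ m : ℤ, (qExpansion 1 H).coeff n = ((9 * m : ℤ) : ℂ)) : False := by
  obtain ⟨a, y, ha, ha0, -, hy⟩ := exists_int_seq h0 hn
  have hlZ : Prime (3 : ℤ) := Int.prime_three
  have hM : ∀ n, 1 ≤ n → (9 : ℤ) ∣ a n := fun n h => ⟨y n, hy n h⟩
  refine no_cong_w4 p H a ha 3 Nat.prime_three 3 80 (by norm_num) (by norm_num)
    (fun n h => by simpa using dvd_coeff_pow a _ hM 2 n h) ?_
  rw [ha0]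
  intro h
  rcases hlZ.dvd_or_dvd (by exact_mod_cast h) with h | h
  · norm_num at h
  · exact hA (hlZ.dvd_of_dvd_pow h)

/-- (U-a), `16`. -/
theorem no_cong_sixteen (p : ℕ) [Fact p.Prime] (H : ModularForm (Gamma0 p) 2) (A : ℤ)
    (hA : Odd A) (h0 : (qExpansion 1 H).coeff 0 = A)
    (hn : ∀ n, 1 ≤ n → ∃ m : ℤ, (qExpansion 1 H).coeff n = ((16 * m : ℤ) : ℂ)) : False := by
  obtain ⟨a, y, ha, ha0, -, hy⟩ := exists_int_seq h0 hn
  have hlZ : Prime (2 : ℤ) := Int.prime_two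
  have hM : ∀ n, 1 ≤ n → (16 : ℤ) ∣ a n := fun n h => ⟨y n, hy n h⟩
  refine no_cong_w4 p H a ha 2 Nat.prime_two 16 15 (by norm_num) (by norm_num)
    (fun n h => by simpa using dvd_coeff_sq a 16 (by norm_num) hM n h) ?_
  rw [ha0]
  intro h
  rcases hlZ.dvd_or_dvd (by exact_mod_cast h) with h | h
  · norm_num at h
  · exact (Int.not_even_iff_odd.mpr hA) (even_iff_two_dvd.mpr (hlZ.dvd_of_dvd_pow h))

end Fermat.Agent.S16
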