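import Fermat.Agent.S16.NoCong

set_option autoImplicit false

namespace Fermat.Agent.S16

open UpperHalfPlane ModularForm MatrixGroups CongruenceSubgroup
open Fermat.Agent.S23
open PowerSeries

/-- the formal congruence (helper71). -/
theorem formal_cong_A {R : Type*} [CommRing R] (A P Q D B Z : R)
    (hD : (1 + 240 * P) ^ 3 - (1 - 504 * Q) ^ 2 = 1728 * D) (hPQ : P - Q = 2 * Z) :
    ∃ W : R, 5 * (A + 8 * B) ^ 4 - 14 * A ^ 2 * (A + 8 * B) ^ 2 * (1 + 240 * P)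
      + 8 * A ^ 3 * (A + 8 * B) * (1 - 504 * Q) + A ^ 4 * (1 + 240 * P) ^ 2
        = 256 * A ^ 4 * D + 512 * W :=
  ⟨A ^ 4 * (-14 * D + 2925 * Z * (P + Q) - 522 * Q ^ 2 + 108000 * P ^ 3) + 2 * A ^ 2 * B ^ 2
    + 20 * A * B ^ 3 + 40 * B ^ 4 - 105 * A ^ 3 * B * P - 420 * A ^ 2 * B ^ 2 * P
    - 63 * A ^ 3 * B * Q,
    by linear_combination (-4) * A ^ 4 * hD + 748800 * A ^ 4 * (P + Q) * hPQ⟩

theorem isMFZ_add {N : ℕ} [NeZero N] {w : ℤ} {F G : ℍ → ℂ} {P Q : PowerSeries ℤ}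
    (hF : IsMFZ N w F P) (hG : IsMFZ N w G Q) : IsMFZ N w (F + G) (P + Q) :=
  ⟨hF.1.add hG.1, by rw [hF.1.nice_G0.qx_add hG.1.nice_G0, hF.2, hG.2, map_add]⟩

/-- `V_p` on integral sequences. -/
def vseq (p : ℕ) (c : ℕ → ℤ) : PowerSeries ℤ := mk fun n => if p ∣ n then c (n / p) else 0

theorem isMFZ_Vp (p : ℕ) [NeZero p] {k : ℤ} {F : ℍ → ℂ} (hF : IsMF 𝒮ℒ k F) (c : ℕ → ℤ)
    (hc : ∀ n, (qExpansion 1 F).coeff n = c n) : IsMFZ p k (Vp p F) (vseq p c) := by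
  refine ⟨isMF_Vp p hF, ?_⟩
  ext n
  rw [coeff_Vp p hF, coeff_map, vseq, coeff_mk]
  split_ifs <;> simp [hc]

theorem map_injective_int : Function.Injective (PowerSeries.map (Int.castRingHom ℂ)) :=
  PowerSeries.map_injective _ (RingHom.injective_int _)

/-- integral coefficients of `Δ`. -/
noncomputable def tauc (n : ℕ) : ℤ := (X * ModularCurve.dedekindEtaUnit : PowerSeries ℤ).coeff n

theorem tauc_zero : tauc 0 = 0 := by simp [tauc]

theorem tauc_one : tauc 1 = 1 := by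
  rw [tauc, show (1 : ℕ) = 0 + 1 from rfl, coeff_succ_X_mul, coeff_zero_eq_constantCoeff_apply,
    ModularCurve.constantCoeff_dedekindEtaUnit]

theorem coeff_discriminant_all (n : ℕ) :
    (qExpansion 1 ModularForm.discriminant).coeff n = tauc n := by
  rw [(isMFZ_discriminant 1).2, coeff_map, tauc]
  rfl

theorem isMF_discriminant : IsMF 𝒮ℒ 12 ModularForm.discriminant :=
  IsMF.of (CuspForm.toModularFormₗ CuspForm.discriminant)

/-- `s_3`, `s_5`. -/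
def s3c (n : ℕ) : ℤ := (ArithmeticFunction.sigma 3 n : ℕ)
def s5c (n : ℕ) : ℤ := (ArithmeticFunction.sigma 5 n : ℕ)

theorem vseq_e4c (p : ℕ) [NeZero p] : vseq p e4c = 1 + 240 * vseq p s3c := by
  have h240 : (240 : PowerSeries ℤ) = C 240 := (map_ofNat C 240).symm
  ext n
  rw [h240, map_add, coeff_C_mul, vseq, vseq, coeff_mk, coeff_mk, coeff_one]
  rcases Nat.eq_zero_or_pos n with rfl | hn
  · simp [e4c, s3c]
  · rw [if_neg (by omega : ¬ n = 0)]
    split_ifs with h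
    · obtain ⟨m, rfl⟩ := h
      have hp : 0 < p := Nat.pos_of_ne_zero (NeZero.ne p)
      rw [Nat.mul_div_cancel_left _ hp]
      have hm : m ≠ 0 := by rintro rfl; simp at hn
      simp [e4c, s3c, hm]
    · simp

theorem vseq_e6c (p : ℕ) [NeZero p] : vseq p e6c = 1 - 504 * vseq p s5c := by
  have h504 : (504 : PowerSeries ℤ) = C 504 := (map_ofNat C 504).symm
  ext n
  rw [h504, map_sub, coeff_C_mul, vseq, vseq, coeff_mk, coeff_mk, coeff_one]
  rcases Nat.eq_zero_or_pos n with rfl | hn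
  · simp [e6c, s5c]
  · rw [if_neg (by omega : ¬ n = 0)]
    split_ifs with h
    · obtain ⟨m, rfl⟩ := h
      have hp : 0 < p := Nat.pos_of_ne_zero (NeZero.ne p)
      rw [Nat.mul_div_cancel_left _ hp]
      have hm : m ≠ 0 := by rintro rfl; simp at hn
      simp [e6c, s5c, hm]
    · simp

theorem two_dvd_s3c_sub_s5c (n : ℕ) : (2 : ℤ) ∣ s3c n - s5c n := by
  rw [s3c, s5c, ArithmeticFunction.sigma_apply, ArithmeticFunction.sigma_apply]
  push_cast
  rw [← Finset.sum_sub_distrib]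
  apply Finset.dvd_sum
  intro d _
  have h : ((d : ℤ) ^ 3 - (d : ℤ) ^ 5) = (d : ℤ) ^ 3 * (1 - d) * (1 + d) := by ring
  rw [h]
  rcases Int.even_or_odd (d : ℤ) with hd | hd
  · exact Dvd.dvd.mul_right (Dvd.dvd.mul_right
      ((even_iff_two_dvd.mp hd).trans (dvd_pow_self _ (by norm_num))) _) _
  · apply Dvd.dvd.mul_left
    exact even_iff_two_dvd.mp (by simpa using Odd.add_odd odd_one hd)

theorem exists_vseq_sub (p : ℕ) : ∃ Z : PowerSeries ℤ, vseq p s3c - vseq p s5c = 2 * Z := by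
  choose z hz using two_dvd_s3c_sub_s5c
  refine ⟨vseq p z, ?_⟩
  have h2 : (2 : PowerSeries ℤ) = C 2 := (map_ofNat C 2).symm
  ext n
  rw [h2, map_sub, coeff_C_mul, vseq, vseq, vseq, coeff_mk, coeff_mk, coeff_mk]
  split_ifs
  · exact hz _
  · simp

theorem vseq_identity (p : ℕ) [NeZero p] :
    (1 + 240 * vseq p s3c) ^ 3 - (1 - 504 * vseq p s5c) ^ 2 = 1728 * vseq p tauc := by
  rw [← vseq_e4c, ← vseq_e6c]
  apply map_injective_int
  have h4 := isMFZ_Vp p (IsMF.of E₄) e4c coeff_E4_all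
  have h6 := isMFZ_Vp p (IsMF.of E₆) e6c coeff_E6_all
  have hΔ := isMFZ_Vp p isMF_discriminant tauc coeff_discriminant_all
  rw [map_sub, map_pow, map_pow, map_mul, ← h4.2, ← h6.2, ← hΔ.2,
    ← h4.1.nice_G0.qx_pow, ← h6.1.nice_G0.qx_pow,
    ← (h4.1.nice_G0.pow 3).qx_sub (h6.1.nice_G0.pow 2)]
  have hfun : Vp p (⇑E₄) ^ 3 - Vp p (⇑E₆) ^ 2 = (1728 : ℂ) • Vp p ModularForm.discriminant := by
    ext τ
    simp only [Pi.sub_apply, Pi.pow_apply, Pi.smul_apply, Vp, smul_eq_mul]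
    rw [ModularForm.discriminant_eq_E₄_cube_sub_E₆_sq]
    ring
  rw [hfun, hΔ.1.nice_G0.qx_smul, PowerSeries.smul_eq_C_mul]
  congr 1
  rw [map_ofNat, map_ofNat]

/-- (U-c) -/
theorem no_cong_eight (p : ℕ) [Fact p.Prime] (hp2 : p ≠ 2) (H : ModularForm (Gamma0 p) 2) (A : ℤ)
    (hA : Odd A) (h0 : (qExpansion 1 H).coeff 0 = A)
    (hn : ∀ n, 1 ≤ n → ∃ m : ℤ, (qExpansion 1 H).coeff n = ((8 * m : ℤ) : ℂ)) : False := by
  have hp : p.Prime := Fact.out
  have hp3 : 3 ≤ p := by have := hp.two_le; omega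
  obtain ⟨a, y, ha, ha0, hy0, hy⟩ := exists_int_seq h0 hn
  have h8 : (8 : PowerSeries ℤ) = C 8 := (map_ofNat C 8).symm
  have hser : mk a = C A + 8 * mk y := by
    ext m
    rw [h8]
    rcases Nat.eq_zero_or_pos m with rfl | hm
    · simp [ha0, hy0]
    · rw [map_add, coeff_C_mul, coeff_mk, coeff_mk, coeff_C, if_neg (by omega), hy m hm, zero_add]
  obtain ⟨Z, hZ⟩ := exists_vseq_sub p
  obtain ⟨W, hW⟩ := formal_cong_A (C A) (vseq p s3c) (vseq p s5c) (vseq p tauc) (mk y) Z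
    (vseq_identity p) hZ
  rw [← hser, ← vseq_e4c, ← vseq_e6c] at hW
  -- the forms
  have hH : IsMFZ p 2 H (mk a) := ⟨IsMF.of H, qx_eq_map_mk ha⟩
  have h4 := isMFZ_Vp p (IsMF.of E₄) e4c coeff_E4_all
  have h6 := isMFZ_Vp p (IsMF.of E₆) e6c coeff_E6_all
  have t1 := ((hH.pow 4).cast (show ((4 : ℕ) : ℤ) * 2 = 8 by norm_num)).smul 5
  have t2 := (((hH.pow 2).mul h4).cast (show ((2 : ℕ) : ℤ) * 2 + 4 = 8 by norm_num)).smul
    (-14 * A ^ 2)
  have t3 := ((hH.mul h6).cast (show (2 : ℤ) + 6 = 8 by norm_num)).smul (8 * A ^ 3)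
  have t4 := ((h4.pow 2).cast (show ((2 : ℕ) : ℤ) * 4 = 8 by norm_num)).smul (A ^ 4)
  have hX := isMFZ_add (isMFZ_add (isMFZ_add t1 t2) t3) t4
  set Xf : ℍ → ℂ := ((5 : ℤ) : ℂ) • (H : ℍ → ℂ) ^ 4 +
    ((-14 * A ^ 2 : ℤ) : ℂ) • ((H : ℍ → ℂ) ^ 2 * Vp p ⇑E₄) +
    ((8 * A ^ 3 : ℤ) : ℂ) • ((H : ℍ → ℂ) * Vp p ⇑E₆) + ((A ^ 4 : ℤ) : ℂ) • Vp p ⇑E₄ ^ 2 with hXf
  have hseries : C 5 * mk a ^ 4 + C (-14 * A ^ 2) * (mk a ^ 2 * vseq p e4c) +
      C (8 * A ^ 3) * (mk a * vseq p e6c) + C (A ^ 4) * vseq p e4c ^ 2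
      = C 256 * (C A ^ 4 * vseq p tauc + C 2 * W) := by
    have e5 : (C 5 : PowerSeries ℤ) = 5 := map_ofNat C 5
    have e14 : (C 14 : PowerSeries ℤ) = 14 := map_ofNat C 14
    have e8 : (C 8 : PowerSeries ℤ) = 8 := map_ofNat C 8
    have e256 : (C 256 : PowerSeries ℤ) = 256 := map_ofNat C 256
    have e2 : (C 2 : PowerSeries ℤ) = 2 := map_ofNat C 2
    simp only [map_mul, map_neg, map_pow, e5, e14, e8, e256, e2]
    linear_combination hW
  rw [hseries] at hX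
  set S : PowerSeries ℤ := C A ^ 4 * vseq p tauc + C 2 * W with hS
  have hY : IsMF (G0 p) ((8 : ℕ) : ℤ) ((256 : ℂ)⁻¹ • Xf) := (hX.1.smul _).cast (by norm_num)
  have hYb : ∀ n, (qExpansion 1 ((256 : ℂ)⁻¹ • Xf)).coeff n = (S.coeff n : ℤ) := by
    intro n
    rw [hX.1.nice_G0.qx_smul, hX.2]
    simp only [map_smul, smul_eq_mul, coeff_map, coeff_C_mul]
    simp
  have hScoeff : ∀ n, S.coeff n = A ^ 4 * (if p ∣ n then tauc (n / p) else 0) + 2 * W.coeff n := by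
    intro n
    rw [hS, ← map_pow, map_add, coeff_C_mul, coeff_C_mul, vseq, coeff_mk]
  refine no_form p 8 (by omega) hY (fun n => S.coeff n) hYb 2 Nat.prime_two (fun n hnp => ?_) ?_
  · simp only [hScoeff]
    have : (if p ∣ n then tauc (n / p) else 0) = 0 := by
      split_ifs with h
      · obtain ⟨m, rfl⟩ := h
        have hm : m = 0 := by
          by_contra hm
          have : p * 1 ≤ p * m := Nat.mul_le_mul_left p (Nat.pos_of_ne_zero hm)
          omega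
        subst hm
        simp [tauc_zero]
      · rfl
    rw [this, mul_zero, zero_add]
    exact dvd_mul_right _ _
  · simp only [hScoeff, dvd_refl, if_true, Nat.div_self hp.pos, tauc_one, mul_one]
    intro h
    have h1 : (2 : ℤ) ∣ A ^ 4 := by
      have h2 : ((2 : ℕ) : ℤ) ∣ 2 * W.coeff p := dvd_mul_right _ _
      have := (Int.dvd_add_left h2).mp h
      exact_mod_cast this
    exact (Int.not_even_iff_odd.mpr hA) (even_iff_two_dvd.mpr (Int.prime_two.dvd_of_dvd_pow h1))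

end Fermat.Agent.S16
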