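import Fermat.Agent.GR.B.ESDefs
import Fermat.Prelude.Def_ModularCurve_ModularUnit
import Fermat.Prelude.Def_HeckeGalois_EichlerShimura

/-!
# S16 (Lc): the Shimura homomorphism `ψ₀ : Γ₀(p) → ℤ/n`, `n = (p-1)/gcd(p-1,12)`

`ψ₀ γ = log (d(γ) mod p)`, where `log : (ℤ/p)ˣ → ℤ/n` is a surjection killing the 12-torsion.
It is parabolic, kills elements of finite order, takes the value `1`, and is an eigenvector of the
Hecke correspondences with the Eisenstein eigenvalues.
-/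

set_option autoImplicit false

open CongruenceSubgroup Matrix.SpecialLinearGroup UpperHalfPlane ModularCurve ModularCurve.Period
open scoped MatrixGroups
open Fermat.Agent.GR.B

namespace Fermat.Agent.S16.Psi

variable (p : ℕ) [Fact p.Prime]

theorem card_units_eq : Nat.card (ZMod p)ˣ = p - 1 := by
  rw [Nat.card_eq_fintype_card, ZMod.card_units]

theorem num_dvd_card : eisensteinNumerator p ∣ Nat.card (ZMod p)ˣ := by
  rw [card_units_eq]; exact eisensteinNumerator_dvd p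

/-- the logarithm `(ℤ/p)ˣ → ℤ/n`. -/
noncomputable def logn : (ZMod p)ˣ →* Multiplicative (ZMod (eisensteinNumerator p)) :=
  (AddMonoidHom.toMultiplicative
    (ZMod.castHom (num_dvd_card p) (ZMod (eisensteinNumerator p))).toAddMonoidHom).comp
    (zmodCyclicMulEquiv (inferInstance : IsCyclic (ZMod p)ˣ)).symm.toMonoidHom

theorem logn_surjective : Function.Surjective (logn p) := by
  intro y
  obtain ⟨x, hx⟩ := ZMod.castHom_surjective (num_dvd_card p) (Multiplicative.toAdd y)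
  refine ⟨zmodCyclicMulEquiv (inferInstance : IsCyclic (ZMod p)ˣ) (Multiplicative.ofAdd x), ?_⟩
  simp only [logn, MonoidHom.comp_apply, MulEquiv.coe_toMonoidHom, MulEquiv.symm_apply_apply]
  exact congrArg Multiplicative.ofAdd hx

theorem num_dvd_of_dvd (x : ℕ) (h : p - 1 ∣ 12 * x) : eisensteinNumerator p ∣ x := by
  have hp : 1 < p := (Fact.out : p.Prime).one_lt
  have hg : 0 < Nat.gcd (p - 1) 12 := Nat.gcd_pos_of_pos_right _ (by norm_num)
  have hcop := Nat.coprime_div_gcd_div_gcd hg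
  obtain ⟨u, hu⟩ := Nat.gcd_dvd_left (p - 1) 12
  obtain ⟨v, hv⟩ := Nat.gcd_dvd_right (p - 1) 12
  have e1 : (p - 1) / Nat.gcd (p - 1) 12 = u :=
    Nat.div_eq_of_eq_mul_right hg hu
  have e2 : 12 / Nat.gcd (p - 1) 12 = v :=
    Nat.div_eq_of_eq_mul_right hg hv
  rw [e1, e2] at hcop
  rw [eisensteinNumerator, e1]
  have h3 : Nat.gcd (p - 1) 12 * u ∣ Nat.gcd (p - 1) 12 * (v * x) := by
    rw [← hu, ← mul_assoc, ← hv]; exact h
  exact hcop.dvd_of_dvd_mul_left (Nat.dvd_of_mul_dvd_mul_left hg h3)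

theorem logn_eq_one_of_pow (u : (ZMod p)ˣ) (hu : u ^ 12 = 1) : logn p u = 1 := by
  have hp : 1 < p := (Fact.out : p.Prime).one_lt
  have : NeZero (Nat.card (ZMod p)ˣ) := ⟨by rw [card_units_eq]; omega⟩
  set e := (zmodCyclicMulEquiv (inferInstance : IsCyclic (ZMod p)ˣ)).symm with he
  set x : ZMod (Nat.card (ZMod p)ˣ) := Multiplicative.toAdd (e u) with hx
  have h1 : (12 : ℕ) • x = 0 := by
    have : e (u ^ 12) = 1 := by rw [hu, map_one]
    rw [map_pow] at this
    have h2 := congrArg Multiplicative.toAdd this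
    rwa [toAdd_pow, toAdd_one] at h2
  have h2 : ((12 * x.val : ℕ) : ZMod (Nat.card (ZMod p)ˣ)) = 0 := by
    rw [Nat.cast_mul, ZMod.natCast_zmod_val, ← h1, nsmul_eq_mul]
  rw [ZMod.natCast_eq_zero_iff] at h2
  have h3 := num_dvd_of_dvd p _ ((dvd_of_eq (card_units_eq p).symm).trans h2)
  have h4 : (ZMod.castHom (num_dvd_card p) (ZMod (eisensteinNumerator p))) x = 0 := by
    rw [ZMod.castHom_apply, ← ZMod.natCast_val, ZMod.natCast_eq_zero_iff]
    exact h3
  exact congrArg Multiplicative.ofAdd h4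

/-- `γ ↦ d(γ) mod p` as a homomorphism to the units. -/
noncomputable def dHom : Gamma0 p →* (ZMod p)ˣ := (Gamma0Map p).toHomUnits

theorem coe_dHom (γ : Gamma0 p) : ((dHom p γ : (ZMod p)ˣ) : ZMod p) = (((γ : SL(2, ℤ)) 1 1 : ℤ) : ZMod p) :=
  rfl

/-- The Shimura homomorphism. -/
noncomputable def psi0 : Additive (Gamma0 p) →+ ZMod (eisensteinNumerator p) :=
  MonoidHom.toAdditiveLeft ((logn p).comp (dHom p))

theorem psi0_apply (γ : Gamma0 p) :
    psi0 p (Additive.ofMul γ) = Multiplicative.toAdd (logn p (dHom p γ)) := rfl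

theorem cast_c (γ : Gamma0 p) : (((γ : SL(2, ℤ)) 1 0 : ℤ) : ZMod p) = 0 := Gamma0_mem.mp γ.2

theorem a_mul_d (γ : Gamma0 p) :
    (((γ : SL(2, ℤ)) 0 0 : ℤ) : ZMod p) * (((γ : SL(2, ℤ)) 1 1 : ℤ) : ZMod p) = 1 := by
  have h := (γ : SL(2, ℤ)).det_coe
  rw [Matrix.det_fin_two] at h
  have h2 := congrArg (Int.cast : ℤ → ZMod p) h
  push_cast at h2
  rw [cast_c, mul_zero, sub_zero] at h2
  exact h2

theorem psi0_eq_zero_of_pow (γ : Gamma0 p)
    (h : (((γ : SL(2, ℤ)) 1 1 : ℤ) : ZMod p) ^ 12 = 1) : psi0 p (Additive.ofMul γ) = 0 := by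
  rw [psi0_apply, logn_eq_one_of_pow p (dHom p γ) (by
    apply Units.ext
    rw [Units.val_pow_eq_pow_val, coe_dHom, h, Units.val_one])]
  rfl

theorem cast_trace (γ : Gamma0 p) :
    ((((γ : SL(2, ℤ)) : Matrix (Fin 2) (Fin 2) ℤ).trace : ℤ) : ZMod p) =
      (((γ : SL(2, ℤ)) 0 0 : ℤ) : ZMod p) + (((γ : SL(2, ℤ)) 1 1 : ℤ) : ZMod p) := by
  rw [Matrix.trace_fin_two]
  push_cast
  rfl

theorem isParabolicHom_psi0 : IsParabolicHom (Gamma0 p) (psi0 p) := by
  intro γ hγ
  apply psi0_eq_zero_of_pow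
  have h1 := a_mul_d p γ
  have h2 := congrArg (Int.cast : ℤ → ZMod p) hγ
  push_cast at h2
  rw [cast_trace] at h2
  set a := (((γ : SL(2, ℤ)) 0 0 : ℤ) : ZMod p)
  set d := (((γ : SL(2, ℤ)) 1 1 : ℤ) : ZMod p)
  have h3 : (a - d) ^ 2 = 0 := by linear_combination h2 - 4 * h1
  have h4 : a = d := sub_eq_zero.mp (pow_eq_zero_iff (two_ne_zero) |>.mp h3)
  have h5 : d ^ 2 = 1 := by rw [← h1, h4]; ring
  calc d ^ 12 = (d ^ 2) ^ 6 := by ring
    _ = 1 := by rw [h5, one_pow]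

/-! ### elements of finite order -/

theorem mul_self_eq (M : Matrix (Fin 2) (Fin 2) ℤ) (hdet : M.det = 1) :
    M * M = M.trace • M - 1 := by
  rw [Matrix.det_fin_two] at hdet
  ext i j
  rw [Matrix.sub_apply, Matrix.smul_apply, smul_eq_mul, Matrix.mul_apply, Fin.sum_univ_two,
    Matrix.trace_fin_two]
  fin_cases i <;> fin_cases j <;> simp <;> linarith

theorem trace_pow_succ_succ (M : Matrix (Fin 2) (Fin 2) ℤ) (hdet : M.det = 1) (k : ℕ) :
    (M ^ (k + 2)).trace = M.trace * (M ^ (k + 1)).trace - (M ^ k).trace := by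
  rw [pow_add, pow_two, mul_self_eq M hdet, mul_sub, mul_one, Matrix.mul_smul, ← pow_succ,
    Matrix.trace_sub, Matrix.trace_smul, smul_eq_mul]

theorem abs_trace_pow (M : Matrix (Fin 2) (Fin 2) ℤ) (hdet : M.det = 1) (ht : 3 ≤ |M.trace|)
    (k : ℕ) : |(M ^ k).trace| < |(M ^ (k + 1)).trace| ∧ 2 ≤ |(M ^ k).trace| := by
  induction k with
  | zero =>
    simp only [pow_zero, zero_add, pow_one, Matrix.trace_one, Fintype.card_fin]
    norm_num
    linarith
  | succ k ih =>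
    obtain ⟨h1, h2⟩ := ih
    refine ⟨?_, by linarith⟩
    rw [trace_pow_succ_succ M hdet]
    have h3 := abs_sub_abs_le_abs_sub (M.trace * (M ^ (k + 1)).trace) ((M ^ k).trace)
    rw [abs_mul] at h3
    nlinarith [abs_nonneg (M ^ (k + 1)).trace]

theorem abs_trace_le_of_isOfFinOrder (g : SL(2, ℤ)) (hg : IsOfFinOrder g) :
    |(g : Matrix (Fin 2) (Fin 2) ℤ).trace| ≤ 2 := by
  by_contra hcon
  have ht : 3 ≤ |(g : Matrix (Fin 2) (Fin 2) ℤ).trace| := by omega
  obtain ⟨k, hk, hgk⟩ := isOfFinOrder_iff_pow_eq_one.mp hg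
  obtain ⟨k, rfl⟩ : ∃ j, k = j + 1 := ⟨k - 1, by omega⟩
  have h1 := abs_trace_pow (g : Matrix (Fin 2) (Fin 2) ℤ) g.det_coe ht k
  have h2 : ((g : Matrix (Fin 2) (Fin 2) ℤ) ^ (k + 1)) = 1 := by
    rw [← Matrix.SpecialLinearGroup.coe_pow, hgk, Matrix.SpecialLinearGroup.coe_one]
  rw [h2] at h1
  simp only [Matrix.trace_one, Fintype.card_fin] at h1
  norm_num at h1
  linarith

theorem psi0_eq_zero_of_isOfFinOrder (γ : Gamma0 p) (hγ : IsOfFinOrder γ) :
    psi0 p (Additive.ofMul γ) = 0 := by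
  have hfin : IsOfFinOrder (γ : SL(2, ℤ)) := by
    obtain ⟨k, hk, hgk⟩ := isOfFinOrder_iff_pow_eq_one.mp hγ
    refine isOfFinOrder_iff_pow_eq_one.mpr ⟨k, hk, ?_⟩
    rw [← Subgroup.coe_pow, hgk, Subgroup.coe_one]
  have ht := abs_trace_le_of_isOfFinOrder _ hfin
  apply psi0_eq_zero_of_pow
  have h1 := a_mul_d p γ
  have h2 := cast_trace p γ
  set t := ((γ : SL(2, ℤ)) : Matrix (Fin 2) (Fin 2) ℤ).trace
  set a := (((γ : SL(2, ℤ)) 0 0 : ℤ) : ZMod p)
  set d := (((γ : SL(2, ℤ)) 1 1 : ℤ) : ZMod p)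
  have h3 : d ^ 2 = (t : ZMod p) * d - 1 := by rw [h2]; linear_combination -h1
  rw [abs_le] at ht
  obtain ⟨ht1, ht2⟩ := ht
  have hcases : t = -2 ∨ t = -1 ∨ t = 0 ∨ t = 1 ∨ t = 2 := by omega
  rcases hcases with h | h | h | h | h <;> rw [h] at h3 <;> push_cast at h3
  · have h4 : (d + 1) ^ 2 = 0 := by linear_combination h3
    have h5 : d = -1 := by
      have := pow_eq_zero_iff (two_ne_zero) |>.mp h4
      linear_combination this
    rw [h5]; norm_num
  · have h4 : d ^ 3 = 1 := by linear_combination (d - 1) * h3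
    calc d ^ 12 = (d ^ 3) ^ 4 := by ring
      _ = 1 := by rw [h4, one_pow]
  · have h4 : d ^ 4 = 1 := by linear_combination (d ^ 2 - 1) * h3
    calc d ^ 12 = (d ^ 4) ^ 3 := by ring
      _ = 1 := by rw [h4, one_pow]
  · have h4 : d ^ 3 = -1 := by linear_combination (d + 1) * h3
    calc d ^ 12 = (d ^ 3) ^ 4 := by ring
      _ = 1 := by rw [h4]; norm_num
  · have h4 : (d - 1) ^ 2 = 0 := by linear_combination h3
    have h5 : d = 1 := by
      have := pow_eq_zero_iff (two_ne_zero) |>.mp h4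
      linear_combination this
    rw [h5]; norm_num

/-! ### surjectivity -/

theorem dHom_surjective : Function.Surjective (dHom p) := by
  intro u
  have hp : p.Prime := Fact.out
  have hcop : IsCoprime (((u : ZMod p).val : ℕ) : ℤ) (p : ℤ) := by
    rw [Nat.isCoprime_iff_coprime]
    exact ZMod.val_coe_unit_coprime u
  obtain ⟨a, b, hab⟩ := hcop
  let g : SL(2, ℤ) := ⟨!![a, -b; (p : ℤ), (((u : ZMod p).val : ℕ) : ℤ)], by
    rw [Matrix.det_fin_two_of]; linarith⟩
  have hg : g ∈ Gamma0 p := by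
    rw [Gamma0_mem]
    simp [g]
  refine ⟨⟨g, hg⟩, ?_⟩
  apply Units.ext
  rw [coe_dHom]
  simp [g]

theorem exists_psi0_eq_one : ∃ γ : Gamma0 p, psi0 p (Additive.ofMul γ) = 1 := by
  obtain ⟨u, hu⟩ := logn_surjective p (Multiplicative.ofAdd 1)
  obtain ⟨γ, hγ⟩ := dHom_surjective p u
  exact ⟨γ, by rw [psi0_apply, hγ, hu]; rfl⟩

/-! ### Hecke eigen-relations -/

/-- reading off the diagonal entries of `α γ = γ' α'` for integral upper triangular `α, α'`. -/
theorem entries_of_rel {α α' : GL (Fin 2) ℝ} {a b d a' b' d' : ℤ}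
    (hα : (α : Matrix (Fin 2) (Fin 2) ℝ) = !![(a : ℝ), (b : ℝ); 0, (d : ℝ)])
    (hα' : (α' : Matrix (Fin 2) (Fin 2) ℝ) = !![(a' : ℝ), (b' : ℝ); 0, (d' : ℝ)])
    (g g' : SL(2, ℤ)) (h : α * mapGL ℝ g = mapGL ℝ g' * α') :
    a * g 0 0 + b * g 1 0 = g' 0 0 * a' ∧ d * g 1 1 = g' 1 0 * b' + g' 1 1 * d' := by
  have h2 := congrArg (fun M : GL (Fin 2) ℝ => (M : Matrix (Fin 2) (Fin 2) ℝ)) h
  simp only [Matrix.GeneralLinearGroup.coe_mul, hα, hα'] at h2
  constructor
  · have h3 := congrFun (congrFun h2 0) 0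
    simp [Matrix.mul_apply, Fin.sum_univ_two] at h3
    exact_mod_cast h3
  · have h3 := congrFun (congrFun h2 1) 1
    simp [Matrix.mul_apply, Fin.sum_univ_two] at h3
    exact_mod_cast h3

/-- abstract eigen-relation. -/
theorem op_psi0_of (H : Reps p) (δ : H.ι → (ZMod p)ˣ)
    (hδ : ∀ (γ : Gamma0 p) (i : H.ι), δ i * dHom p γ = dHom p (H.coc γ i) * δ (H.perm γ i)) :
    H.op (ZMod (eisensteinNumerator p)) (psi0 p) = Fintype.card H.ι • psi0 p := by
  refine AddMonoidHom.ext fun γ => ?_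
  induction γ using Additive.rec with
  | ofMul γ =>
    rw [Reps.op_apply, AddMonoidHom.nsmul_apply]
    have h1 : ∀ i, psi0 p (Additive.ofMul (H.coc γ i)) =
        psi0 p (Additive.ofMul γ) + (Multiplicative.toAdd (logn p (δ i)) -
          Multiplicative.toAdd (logn p (δ (H.perm γ i)))) := by
      intro i
      have h2 := congrArg (fun u => Multiplicative.toAdd (logn p u)) (hδ γ i)
      simp only [map_mul, toAdd_mul] at h2
      rw [psi0_apply, psi0_apply]
      linear_combination -h2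
    simp only [h1, Finset.sum_add_distrib, Finset.sum_sub_distrib, Finset.sum_const,
      Finset.card_univ]
    rw [Equiv.sum_comp (H.perm γ) (fun i => Multiplicative.toAdd (logn p (δ i))), sub_self,
      add_zero]

open P2MW.S_ModularForm_heckeT_slash_eq_self_of_mem_Gamma0.ModularForm.HeckeSlashInvariance in
theorem exists_entries_heckeRep (l : ℕ) (hl : l ≠ 0) (x : OnePoint (ZMod l)) :
    ∃ a b d : ℤ, (heckeRep l x : Matrix (Fin 2) (Fin 2) ℝ) = !![(a : ℝ), (b : ℝ); 0, (d : ℝ)] ∧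
      d = x.elim 1 (fun _ => (l : ℤ)) := by
  induction x using OnePoint.rec with
  | infty =>
    refine ⟨l, 0, 1, ?_, rfl⟩
    rw [heckeRep_infty, ModularForm.val_heckeDiagMatrix hl]
    simp
  | coe j =>
    refine ⟨1, j.val, l, ?_, rfl⟩
    rw [heckeRep_coe, ModularForm.val_heckeMatrix hl]
    simp

theorem op_psi0_T (l : ℕ) [Fact l.Prime] (hlp : ¬ l ∣ p) :
    (repsT l hlp).op (ZMod (eisensteinNumerator p)) (psi0 p) = (l + 1) • psi0 p := by
  have hl : l.Prime := Fact.out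
  have hp : p.Prime := Fact.out
  have hcop : Nat.Coprime l p := (Nat.coprime_primes hl hp).mpr (fun h => hlp (h ▸ dvd_rfl))
  have hcard : Fintype.card (repsT (N := p) l hlp).ι = l + 1 := by
    change Fintype.card (Option (ZMod l)) = l + 1
    rw [Fintype.card_option, ZMod.card]
  rw [← hcard]
  refine op_psi0_of p (repsT l hlp)
    (fun x : OnePoint (ZMod l) => x.elim 1 (fun _ => ZMod.unitOfCoprime l hcop)) ?_
  intro γ x
  have hδ : ∀ y : OnePoint (ZMod l),
      (((y.elim 1 (fun _ => ZMod.unitOfCoprime l hcop) : (ZMod p)ˣ)) : ZMod p) =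
        ((y.elim 1 (fun _ => (l : ℤ)) : ℤ) : ZMod p) := by
    intro y
    induction y using OnePoint.rec with
    | infty => simp
    | coe j => simp
  obtain ⟨a, b, d, h1, hd⟩ := exists_entries_heckeRep l hl.ne_zero x
  obtain ⟨a', b', d', h1', hd'⟩ :=
    exists_entries_heckeRep l hl.ne_zero ((repsT (N := p) l hlp).perm γ x)
  have h2 := (entries_of_rel h1 h1' _ _ ((repsT (N := p) l hlp).rel γ x)).2
  have h3 := congrArg (Int.cast : ℤ → ZMod p) h2
  push_cast at h3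
  rw [cast_c, zero_mul, zero_add, hd, hd'] at h3
  apply Units.ext
  rw [Units.val_mul, Units.val_mul, coe_dHom, coe_dHom]
  exact (congrArg₂ (· * ·) (hδ x) rfl).trans (h3.trans (congrArg₂ (· * ·) rfl
    (hδ ((repsT (N := p) l hlp).perm γ x)).symm))

theorem op_psi0_U (l : ℕ) [NeZero l] (hlp : l ∣ p) :
    (repsU l hlp).op (ZMod (eisensteinNumerator p)) (psi0 p) = psi0 p := by
  have hp : p.Prime := Fact.out
  have hl1 : l = 1 ∨ l = p := (Nat.dvd_prime hp).mp hlp
  have hcard : Fintype.card (repsU (N := p) l hlp).ι = l := by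
    change Fintype.card (ZMod l) = l
    rw [ZMod.card]
  have key : (repsU l hlp).op (ZMod (eisensteinNumerator p)) (psi0 p) =
      Fintype.card (repsU (N := p) l hlp).ι • psi0 p := by
    refine op_psi0_of p (repsU l hlp) (fun _ => 1) ?_
    intro γ x
    have h1 : ((ModularForm.heckeMatrix l x.val : GL (Fin 2) ℝ) : Matrix (Fin 2) (Fin 2) ℝ) =
        !![((1 : ℤ) : ℝ), ((x.val : ℤ) : ℝ); 0, ((l : ℤ) : ℝ)] := by
      rw [ModularForm.val_heckeMatrix (NeZero.ne l)]; simp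
    have h1' : ((ModularForm.heckeMatrix l ((repsU (N := p) l hlp).perm γ x).val : GL (Fin 2) ℝ) :
        Matrix (Fin 2) (Fin 2) ℝ) =
        !![((1 : ℤ) : ℝ), ((((repsU (N := p) l hlp).perm γ x).val : ℤ) : ℝ); 0, ((l : ℤ) : ℝ)] := by
      rw [ModularForm.val_heckeMatrix (NeZero.ne l)]; simp
    have h2 := (entries_of_rel h1 h1' _ _ ((repsU (N := p) l hlp).rel γ x)).1
    have h3 := congrArg (Int.cast : ℤ → ZMod p) h2
    push_cast at h3
    rw [cast_c, mul_zero, add_zero, one_mul, mul_one] at h3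
    have h4 := a_mul_d p γ
    have h5 := a_mul_d p ((repsU (N := p) l hlp).coc γ x)
    apply Units.ext
    rw [one_mul, mul_one, coe_dHom, coe_dHom]
    rw [← h3] at h5
    calc (((γ : SL(2, ℤ)) 1 1 : ℤ) : ZMod p)
        = ((((γ : SL(2, ℤ)) 0 0 : ℤ) : ZMod p) *
            (((((repsU (N := p) l hlp).coc γ x : Gamma0 p) : SL(2, ℤ)) 1 1 : ℤ) : ZMod p)) *
            (((γ : SL(2, ℤ)) 1 1 : ℤ) : ZMod p) := by rw [h5, one_mul]
      _ = (((((repsU (N := p) l hlp).coc γ x : Gamma0 p) : SL(2, ℤ)) 1 1 : ℤ) : ZMod p) := by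
          linear_combination
            (((((repsU (N := p) l hlp).coc γ x : Gamma0 p) : SL(2, ℤ)) 1 1 : ℤ) : ZMod p) * h4
  rw [key, hcard]
  rcases hl1 with h | h
  · rw [h, one_smul]
  · refine AddMonoidHom.ext fun γ => ?_
    rw [AddMonoidHom.nsmul_apply, nsmul_eq_mul, h]
    have h6 : ((p : ℕ) : ZMod (eisensteinNumerator p)) = 1 := by
      have h7 : ((p - 1 : ℕ) : ZMod (eisensteinNumerator p)) = 0 :=
        (ZMod.natCast_eq_zero_iff _ _).mpr (eisensteinNumerator_dvd p)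
      rw [Nat.cast_sub hp.one_lt.le, Nat.cast_one] at h7
      linear_combination h7
    rw [h6, one_mul]

/-- The eigen-relations of `ψ₀`. -/
theorem op_psi0 (l : Nat.Primes) :
    (repsP p l l.2).op (ZMod (eisensteinNumerator p)) (psi0 p) = eisensteinSystem p l • psi0 p := by
  by_cases h : (l : ℕ) ∣ p
  · have : NeZero (l : ℕ) := ⟨l.2.ne_zero⟩
    have h1 : repsP p l l.2 = repsU (l : ℕ) h := dif_pos h
    rw [h1, op_psi0_U, eisensteinSystem_of_dvd h, one_smul]
  · have : Fact (l : ℕ).Prime := ⟨l.2⟩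
    have h1 : repsP p l l.2 = repsT (l : ℕ) h := dif_neg h
    rw [h1, op_psi0_T, eisensteinSystem_of_not_dvd h, add_comm, ← Nat.cast_one (R := ℤ),
      ← Nat.cast_add, natCast_zsmul]

end Fermat.Agent.S16.Psi
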