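import Fermat.Agent.S16.Duality

set_option autoImplicit false
set_option linter.unusedSectionVars false

open CuspForm ModularCurve ModularFormClass CongruenceSubgroup

namespace Fermat.Agent.S16

noncomputable section

variable (p : ℕ) [Fact p.Prime]

theorem eis_surjective : Function.Surjective (eis p) := fun c =>
  ⟨MvPolynomial.C c, by simp [eis]⟩

theorem mem_eisensteinIdeal_iff (τ : HeckeAlg) : τ ∈ eisensteinIdeal p ↔ eis p τ = 0 :=
  mem_eigenIdeal_iff _ _

/-- **(R)** the cardinality of `𝕋_L / I` from the two divisibilities. -/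
theorem card_quotient_eq (n : ℕ)
    (hL : ∀ τ : HeckeAlg, rho p τ = 0 → (n : ℤ) ∣ eis p τ)
    (hU : ∀ m : ℤ, (∀ τ : HeckeAlg, rho p τ = 0 → m ∣ eis p τ) → m ∣ n) :
    Nat.card (TT p ⧸ Ideal.map (rho p) (eisensteinIdeal p)) = n := by
  let ψ : HeckeAlg →+* ZMod n := (Int.castRingHom (ZMod n)).comp (eis p).toRingHom
  have hψ : ∀ τ, ψ τ = ((eis p τ : ℤ) : ZMod n) := fun τ => rfl
  have hker : RingHom.ker (rho p) ≤ RingHom.ker ψ := by
    intro τ hτ
    rw [RingHom.mem_ker] at hτ ⊢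
    rw [hψ]
    exact (ZMod.intCast_zmod_eq_zero_iff_dvd _ _).mpr (hL τ hτ)
  let ψbar : TT p →+* ZMod n := RingHom.liftOfSurjective (rho p) (rho_surjective p) ⟨ψ, hker⟩
  have hψbar : ∀ τ, ψbar (rho p τ) = ψ τ := fun τ =>
    RingHom.liftOfRightInverse_comp_apply _ _ _ ⟨ψ, hker⟩ τ
  have hsurj : Function.Surjective ψbar := by
    intro x
    obtain ⟨c, rfl⟩ := ZMod.intCast_surjective x
    obtain ⟨τ, rfl⟩ := eis_surjective p c
    exact ⟨rho p τ, hψbar τ⟩
  -- the generator of `eis (ker rho)`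
  obtain ⟨m, hm⟩ : ∃ m : ℤ, Ideal.map (eis p).toRingHom (RingHom.ker (rho p)) = Ideal.span {m} :=
    ⟨_, (Ideal.span_singleton_generator _).symm⟩
  have hmem : ∀ c : ℤ, c ∈ Ideal.map (eis p).toRingHom (RingHom.ker (rho p)) ↔
      ∃ τ, rho p τ = 0 ∧ eis p τ = c := by
    intro c
    rw [Ideal.mem_map_iff_of_surjective (eis p).toRingHom (eis_surjective p)]
    rfl
  have hmn : m ∣ n := by
    apply hU
    intro τ hτ
    rw [← Ideal.mem_span_singleton, ← hm, hmem]
    exact ⟨τ, hτ, rfl⟩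
  have hkerbar : RingHom.ker ψbar = Ideal.map (rho p) (eisensteinIdeal p) := by
    apply le_antisymm
    · intro t ht
      obtain ⟨τ, rfl⟩ := rho_surjective p t
      rw [RingHom.mem_ker, hψbar, hψ, ZMod.intCast_zmod_eq_zero_iff_dvd] at ht
      have h1 : eis p τ ∈ Ideal.map (eis p).toRingHom (RingHom.ker (rho p)) := by
        rw [hm, Ideal.mem_span_singleton]
        exact hmn.trans ht
      obtain ⟨j, hj0, hj⟩ := (hmem _).mp h1
      have h2 : rho p τ = rho p (τ - j) := by rw [map_sub, hj0, sub_zero]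
      rw [h2]
      apply Ideal.mem_map_of_mem
      rw [mem_eisensteinIdeal_iff, map_sub, hj, sub_self]
    · rw [Ideal.map_le_iff_le_comap]
      intro τ hτ
      rw [mem_eisensteinIdeal_iff] at hτ
      rw [Ideal.mem_comap, RingHom.mem_ker, hψbar, hψ, hτ, Int.cast_zero]
  rw [← hkerbar, Nat.card_congr (RingHom.quotientKerEquivOfSurjective hsurj).toEquiv, Nat.card_zmod]

end

end Fermat.Agent.S16
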