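import Mathlib
import Fermat.Prelude.Thm_ModularForm_sturm_bound_Gamma0
import Fermat.Agent.S23.Basic
import Fermat.Agent.Lib.LevelOneQExp

set_option autoImplicit false

open UpperHalfPlane ModularForm CongruenceSubgroup
open scoped MatrixGroups Manifold
open Fermat.Agent.S23

namespace Fermat.Agent.S16

/-- Power series with pairwise distinct orders are linearly independent. -/
theorem eq_zero_of_sum_X_pow_mul {k : Type*} [CommRing k] [IsDomain k] {ι : Type*} [Fintype ι]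
    (o : ι → ℕ) (ho : Function.Injective o) (U : ι → PowerSeries k)
    (hU : ∀ i, PowerSeries.constantCoeff (U i) ≠ 0) (c : ι → k)
    (h : ∑ i, PowerSeries.C (c i) * (PowerSeries.X ^ o i * U i) = 0) : ∀ i, c i = 0 := by
  classical
  by_contra hne
  push Not at hne
  obtain ⟨j, hj⟩ := hne
  have hB : (Finset.univ.filter (fun i => c i ≠ 0)).Nonempty := ⟨j, by simp [hj]⟩
  obtain ⟨i₀, hi₀, hmin⟩ := Finset.exists_min_image _ o hB
  have hc : c i₀ ≠ 0 := by simpa using hi₀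
  have h1 := congrArg (PowerSeries.coeff (o i₀)) h
  rw [map_sum, Finset.sum_eq_single i₀] at h1
  · rw [PowerSeries.coeff_C_mul, PowerSeries.coeff_X_pow_mul', if_pos le_rfl, Nat.sub_self,
      PowerSeries.coeff_zero_eq_constantCoeff_apply, map_zero] at h1
    exact (mul_ne_zero hc (hU i₀)) h1
  · intro i _ hi
    rw [PowerSeries.coeff_C_mul, PowerSeries.coeff_X_pow_mul']
    by_cases hci : c i = 0
    · simp [hci]
    · have h2 : o i₀ ≤ o i := hmin i (by simp [hci])
      have h3 : o i₀ ≠ o i := fun h => hi (ho h).symm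
      rw [if_neg (by omega), mul_zero]
  · intro h; exact absurd (Finset.mem_univ _) h

/-- An underdetermined integral linear system has a solution which is nonzero mod `l`. -/
theorem exists_primitive_kernel {α β : Type*} [Fintype α] [Fintype β] [DecidableEq β]
    (A : Matrix α β ℤ) (hn : Fintype.card α < Fintype.card β) (hm : 0 < Fintype.card α)
    (l : ℕ) (hl : l.Prime) :
    ∃ t : β → ℤ, A.mulVec t = 0 ∧ ∃ i, ¬ (l : ℤ) ∣ t i := by
  obtain ⟨t, ht0, hAt, -⟩ := Int.Matrix.exists_ne_zero_int_vec_norm_le A hn hm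
  have hne : (Finset.univ : Finset β).Nonempty := by
    rw [Finset.univ_nonempty_iff, ← Fintype.card_pos_iff]; omega
  obtain ⟨g, hg, hg1⟩ := Finset.extract_gcd t hne
  have hd : (Finset.univ : Finset β).gcd t ≠ 0 := by
    intro h0
    apply ht0
    funext i
    rw [hg i (Finset.mem_univ _), h0, zero_mul]; rfl
  have htg : t = (Finset.univ : Finset β).gcd t • g := by
    funext i; rw [hg i (Finset.mem_univ _)]; rfl
  refine ⟨g, ?_, ?_⟩
  · rw [htg, Matrix.mulVec_smul] at hAt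
    exact (smul_eq_zero.mp hAt).resolve_left hd
  · by_contra hall
    push Not at hall
    have : (l : ℤ) ∣ (Finset.univ : Finset β).gcd g := Finset.dvd_gcd fun b _ => hall b
    rw [hg1] at this
    have h2 := Int.natCast_dvd_natCast.mp (by simpa using this : ((l : ℕ) : ℤ) ∣ ((1 : ℕ) : ℤ))
    exact hl.one_lt.ne' (Nat.dvd_one.mp h2)

/-- `F` is a modular form of weight `w` on `Γ₀(N)` whose `q`-expansion is the integral series
`P`. -/
def IsMFZ (N : ℕ) (w : ℤ) (F : ℍ → ℂ) (P : PowerSeries ℤ) : Prop :=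
  IsMF (G0 N) w F ∧ qExpansion 1 F = P.map (Int.castRingHom ℂ)

namespace IsMFZ

variable {N : ℕ} [NeZero N] {w w₁ w₂ : ℤ} {F G : ℍ → ℂ} {P Q : PowerSeries ℤ}

omit [NeZero N] in
theorem cast (h : w₁ = w₂) (hF : IsMFZ N w₁ F P) : IsMFZ N w₂ F P := h ▸ hF

theorem mul (hF : IsMFZ N w₁ F P) (hG : IsMFZ N w₂ G Q) : IsMFZ N (w₁ + w₂) (F * G) (P * Q) :=
  ⟨hF.1.mul hG.1, by rw [hF.1.nice_G0.qx_mul hG.1.nice_G0, hF.2, hG.2, map_mul]⟩

theorem pow (hF : IsMFZ N w F P) (n : ℕ) : IsMFZ N (n * w) (F ^ n) (P ^ n) :=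
  ⟨hF.1.pow n, by rw [hF.1.nice_G0.qx_pow, hF.2, map_pow]⟩

theorem smul (c : ℤ) (hF : IsMFZ N w F P) :
    IsMFZ N w ((c : ℂ) • F) (PowerSeries.C c * P) :=
  ⟨hF.1.smul _, by
    rw [hF.1.nice_G0.qx_smul, hF.2, map_mul, PowerSeries.map_C, PowerSeries.smul_eq_C_mul]
    rfl⟩

theorem sum {ι : Type*} (s : Finset ι) {F : ι → ℍ → ℂ} {P : ι → PowerSeries ℤ}
    (h : ∀ i ∈ s, IsMFZ N w (F i) (P i)) : IsMFZ N w (∑ i ∈ s, F i) (∑ i ∈ s, P i) :=
  ⟨IsMF.sum s fun i hi => (h i hi).1, by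
    rw [Nice.qx_sum s fun i hi => (h i hi).1.nice_G0, map_sum]
    exact Finset.sum_congr rfl fun i hi => (h i hi).2⟩

theorem eq_zero_of_sturm (K : ℕ) (hF : IsMFZ N (K : ℤ) F P)
    (h : ∀ n, n ≤ K * (Gamma0 N).index / 12 → P.coeff n = 0) : P = 0 := by
  obtain ⟨⟨f, rfl⟩, hq⟩ := hF
  have hf : f = 0 := by
    refine ModularForm.sturm_bound_Gamma0 N f fun n hn => ?_
    have h1 : ((K : ℤ) * ((Gamma0 N).index : ℤ)).toNat = K * (Gamma0 N).index := by
      exact_mod_cast Int.toNat_natCast (K * (Gamma0 N).index)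
    rw [h1] at hn
    rw [hq, PowerSeries.coeff_map, h n hn]
    simp
  have h0 : P.map (Int.castRingHom ℂ) = 0 := by
    rw [← hq, hf]
    exact qExpansion_zero 1
  ext n
  have := congrArg (PowerSeries.coeff n) h0
  simpa using this

end IsMFZ

theorem isMFZ_E4 (N : ℕ) [NeZero N] : IsMFZ N 4 E₄ ModularCurve.eisenstein4 :=
  ⟨(IsMF.of E₄).mono (G0_le_SL N), Fermat.Agent.Lib.LevelOneQExp.qExpansion_E4⟩

theorem isMFZ_discriminant (N : ℕ) [NeZero N] :
    IsMFZ N 12 ModularForm.discriminant (PowerSeries.X * ModularCurve.dedekindEtaUnit) :=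
  ⟨(IsMF.of (CuspForm.toModularFormₗ CuspForm.discriminant)).mono (G0_le_SL N), by
    rw [Fermat.Agent.Lib.LevelOneQExp.qExpansion_discriminant, map_mul, PowerSeries.map_X]⟩

/-- a nonzero power series is `X ^ d * U` with `U 0 ≠ 0`. -/
theorem exists_eq_X_pow_mul {k : Type*} [CommRing k] {P : PowerSeries k} (hP : P ≠ 0) :
    ∃ (d : ℕ) (U : PowerSeries k),
      P = PowerSeries.X ^ d * U ∧ PowerSeries.constantCoeff U ≠ 0 := by
  classical
  have hex : ∃ n, P.coeff n ≠ 0 := by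
    by_contra h
    push Not at h
    exact hP (PowerSeries.ext h)
  refine ⟨Nat.find hex, PowerSeries.mk fun n => P.coeff (n + Nat.find hex), ?_, ?_⟩
  · ext n
    rw [PowerSeries.coeff_X_pow_mul']
    split_ifs with h
    · rw [PowerSeries.coeff_mk, Nat.sub_add_cancel h]
    · have := Nat.find_min hex (not_le.mp h)
      simpa using this
  · rw [← PowerSeries.coeff_zero_eq_constantCoeff_apply, PowerSeries.coeff_mk, zero_add]
    exact Nat.find_spec hex

theorem sturm_mod_aux (N : ℕ) [NeZero N] (w : ℕ) {F : ℍ → ℂ} {P : PowerSeries ℤ}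
    (hF : IsMFZ N (w : ℤ) F P) (l : ℕ) [hl : Fact l.Prime]
    (h : ∀ n, 12 * n ≤ w * (Gamma0 N).index →
      (P.map (Int.castRingHom (ZMod l))).coeff n = 0) :
    P.map (Int.castRingHom (ZMod l)) = 0 := by
  classical
  by_contra hne
  obtain ⟨d, U, hPU, hU⟩ := exists_eq_X_pow_mul hne
  obtain ⟨idx, hidx⟩ : ∃ idx, idx = (Gamma0 N).index := ⟨_, rfl⟩
  rw [← hidx] at h
  have hd : w * idx < 12 * d := by
    by_contra hcon
    have := h d (not_lt.mp hcon)
    rw [hPU, PowerSeries.coeff_X_pow_mul', if_pos le_rfl, Nat.sub_self,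
      PowerSeries.coeff_zero_eq_constantCoeff_apply] at this
    exact hU this
  obtain ⟨D, hD⟩ : ∃ D, D = 4 * d := ⟨_, rfl⟩
  obtain ⟨m, hm⟩ : ∃ m, m = 12 * (D * idx + 1) := ⟨_, rfl⟩
  obtain ⟨K, hK⟩ : ∃ K, K = 12 * D + 4 * w * m := ⟨_, rfl⟩
  obtain ⟨S, hS⟩ : ∃ S, S = K * idx / 12 := ⟨_, rfl⟩
  have hDpos : 0 < D := by omega
  have hcount : S + 1 < D * (m + 1) := by
    have h1 : 12 * S ≤ K * idx := by rw [hS]; exact Nat.mul_div_le _ _
    have e1 : K * idx = 12 * (D * idx) + 4 * (w * idx) * m := by rw [hK]; ring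
    have e2 : (4 * (w * idx) + 1) * m ≤ 12 * D * m := Nat.mul_le_mul_right m (by omega)
    have e3 : (4 * (w * idx) + 1) * m = 4 * (w * idx) * m + m := by ring
    have e4 : D * (m + 1) = D * m + D := by ring
    have e5 : 12 * D * m = 12 * (D * m) := by ring
    omega
  let c : Fin D × Fin (m + 1) → ℕ := fun i => 3 * (D - i.1) + w * (m - i.2)
  let G : Fin D × Fin (m + 1) → ℍ → ℂ := fun i =>
    ModularForm.discriminant ^ (i.1 : ℕ) * F ^ (4 * (i.2 : ℕ)) * (E₄ : ℍ → ℂ) ^ c i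
  let PP : Fin D × Fin (m + 1) → PowerSeries ℤ := fun i =>
    (PowerSeries.X * ModularCurve.dedekindEtaUnit) ^ (i.1 : ℕ) * P ^ (4 * (i.2 : ℕ)) *
      ModularCurve.eisenstein4 ^ c i
  have hG : ∀ i, IsMFZ N (K : ℤ) (G i) (PP i) := by
    intro i
    refine ((((isMFZ_discriminant N).pow i.1).mul (hF.pow (4 * i.2))).mul
      ((isMFZ_E4 N).pow (c i))).cast ?_
    obtain ⟨x, hx⟩ : ∃ x, D = i.1 + x := ⟨D - i.1, by omega⟩
    obtain ⟨y, hy⟩ : ∃ y, m = i.2 + y := ⟨m - i.2, by omega⟩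
    have hc : c i = 3 * x + w * y := by
      show 3 * (D - i.1) + w * (m - i.2) = _
      rw [show D - i.1 = x by omega, show m - i.2 = y by omega]
    have hx' : (D : ℤ) = i.1 + x := by exact_mod_cast hx
    have hy' : (m : ℤ) = i.2 + y := by exact_mod_cast hy
    rw [hc, hK]
    push_cast
    linear_combination (-12 : ℤ) * hx' - 4 * (w : ℤ) * hy'
  let A : Matrix (Fin (S + 1)) (Fin D × Fin (m + 1)) ℤ := fun n i => (PP i).coeff (n : ℕ)
  obtain ⟨t, hAt, i₁, hi₁⟩ := exists_primitive_kernel A (by simpa using hcount) (by simp) l hl.out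
  have hsum : IsMFZ N (K : ℤ) (∑ i, (t i : ℂ) • G i) (∑ i, PowerSeries.C (t i) * PP i) :=
    IsMFZ.sum _ fun i _ => (hG i).smul (t i)
  have hzero : ∑ i, PowerSeries.C (t i) * PP i = 0 := by
    refine hsum.eq_zero_of_sturm K fun n hn => ?_
    rw [← hidx, ← hS] at hn
    have := congrFun hAt ⟨n, Nat.lt_succ_of_le hn⟩
    rw [map_sum]
    simp only [PowerSeries.coeff_C_mul]
    simpa [Matrix.mulVec, dotProduct, A, mul_comm] using this
  have hmod := congrArg (PowerSeries.map (Int.castRingHom (ZMod l))) hzero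
  rw [map_sum, map_zero] at hmod
  have hDb : ∀ b : ℕ, D * b = d * (4 * b) := fun b => by rw [hD]; ring
  have hinj : Function.Injective (fun i : Fin D × Fin (m + 1) => (i.1 : ℕ) + D * (i.2 : ℕ)) := by
    intro i j hij
    simp only at hij
    have h1 : (i.1 : ℕ) = j.1 := by
      have := congrArg (· % D) hij
      simpa [Nat.add_mul_mod_self_left, Nat.mod_eq_of_lt i.1.2, Nat.mod_eq_of_lt j.1.2] using this
    have h2 : (i.2 : ℕ) = j.2 := by
      rw [h1] at hij
      exact Nat.eq_of_mul_eq_mul_left hDpos (Nat.add_left_cancel hij)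
    exact Prod.ext (Fin.ext h1) (Fin.ext h2)
  have hη : PowerSeries.constantCoeff
      (ModularCurve.dedekindEtaUnit.map (Int.castRingHom (ZMod l))) = 1 := by
    rw [← PowerSeries.coeff_zero_eq_constantCoeff_apply, PowerSeries.coeff_map,
      PowerSeries.coeff_zero_eq_constantCoeff_apply, ModularCurve.constantCoeff_dedekindEtaUnit,
      map_one]
  have he4 : PowerSeries.constantCoeff
      (ModularCurve.eisenstein4.map (Int.castRingHom (ZMod l))) = 1 := by
    rw [← PowerSeries.coeff_zero_eq_constantCoeff_apply, PowerSeries.coeff_map,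
      PowerSeries.coeff_zero_eq_constantCoeff_apply, ModularCurve.constantCoeff_eisenstein4,
      map_one]
  have key := eq_zero_of_sum_X_pow_mul (k := ZMod l)
    (fun i : Fin D × Fin (m + 1) => (i.1 : ℕ) + D * (i.2 : ℕ)) hinj
    (fun i => (ModularCurve.dedekindEtaUnit.map (Int.castRingHom (ZMod l))) ^ (i.1 : ℕ) *
      U ^ (4 * (i.2 : ℕ)) * (ModularCurve.eisenstein4.map (Int.castRingHom (ZMod l))) ^ c i)
    (fun i => by
      simp [hη, he4, hU])
    (fun i => (t i : ZMod l)) (by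
      rw [← hmod]
      refine Finset.sum_congr rfl fun i _ => ?_
      simp only [PP, map_mul, map_pow, PowerSeries.map_C, PowerSeries.map_X, hPU, hDb]
      rw [mul_pow, mul_pow, ← pow_mul, pow_add]
      simp only [eq_intCast]
      ring) i₁
  exact hi₁ ((ZMod.intCast_zmod_eq_zero_iff_dvd (t i₁) l).mp key)

/-- **Sturm's bound modulo a prime** for `Γ₀(N)`. -/
theorem sturm_mod (N : ℕ) [NeZero N] (w : ℕ) {F : ℍ → ℂ} (hF : IsMF (G0 N) (w : ℤ) F)
    (a : ℕ → ℤ) (ha : ∀ n, (qExpansion 1 F).coeff n = a n) (l : ℕ) (hl : l.Prime)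
    (h : ∀ n, 12 * n ≤ w * (CongruenceSubgroup.Gamma0 N).index → (l : ℤ) ∣ a n) :
    ∀ n, (l : ℤ) ∣ a n := by
  have : Fact l.Prime := ⟨hl⟩
  have hZ : IsMFZ N (w : ℤ) F (PowerSeries.mk a) := ⟨hF, by ext n; simp [ha]⟩
  have h0 := sturm_mod_aux N w hZ l fun n hn => by
    rw [PowerSeries.coeff_map, PowerSeries.coeff_mk]
    exact (ZMod.intCast_zmod_eq_zero_iff_dvd (a n) l).mpr (h n hn)
  intro n
  have := congrArg (PowerSeries.coeff n) h0
  rw [PowerSeries.coeff_map, PowerSeries.coeff_mk, map_zero] at this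
  exact (ZMod.intCast_zmod_eq_zero_iff_dvd (a n) l).mp this

end Fermat.Agent.S16
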