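import Mathlib
import Fermat.Prelude.Def_ModularForm_HeckeOperatorForms
import Fermat.Prelude.Thm_ModularFormClass_qCoeff_heckeU
import Fermat.Prelude.Thm_UpperHalfPlane_qCoeff_heckeU
import Fermat.Prelude.Sol.S_ModularForm_heckeT_slash_eq_self_of_mem_Gamma0
import Fermat.Agent.S23.Basic

set_option autoImplicit false

namespace Fermat.Agent.S16

open UpperHalfPlane ModularForm MatrixGroups CongruenceSubgroup Matrix.SpecialLinearGroup
open Fermat.Agent.S23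
open scoped ModularForm Manifold Pointwise

/-- the Fricke matrix `[[0,-1],[p,0]]`. -/
noncomputable def Wm (p : ℕ) [NeZero p] : GL (Fin 2) ℝ :=
  Matrix.GeneralLinearGroup.mkOfDetNeZero !![0, -1; (p : ℝ), 0]
    (by simp [Matrix.det_fin_two_of, NeZero.ne p])

@[simp] theorem val_Wm (p : ℕ) [NeZero p] :
    ((Wm p : GL (Fin 2) ℝ) : Matrix (Fin 2) (Fin 2) ℝ) = !![0, -1; (p : ℝ), 0] := rfl

theorem G0_le_conj_Wm (p : ℕ) [NeZero p] :
    G0 p ≤ ConjAct.toConjAct (Wm p)⁻¹ • G0 p := by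
  have hN : p ≠ 0 := NeZero.ne p
  have hNR : (p : ℝ) ≠ 0 := by exact_mod_cast hN
  rintro _ ⟨γ, hγ, rfl⟩
  rw [map_inv, Subgroup.mem_inv_pointwise_smul_iff, ConjAct.toConjAct_smul]
  have hγ' : (p : ℤ) ∣ γ 1 0 := by
    have := (Gamma0_mem).mp hγ
    exact (ZMod.intCast_zmod_eq_zero_iff_dvd _ _).mp this
  obtain ⟨c', hc'⟩ := hγ'
  have hdet : γ 0 0 * γ 1 1 - γ 0 1 * γ 1 0 = 1 := by
    have := γ.det_coe
    rw [Matrix.det_fin_two] at this
    exact this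
  obtain ⟨δ, h00, h01, h10', h11⟩ : ∃ δ : SL(2, ℤ), δ 0 0 = γ 1 1 ∧ δ 0 1 = - c' ∧
      δ 1 0 = - p * γ 0 1 ∧ δ 1 1 = γ 0 0 := by
    refine ⟨⟨!![γ 1 1, - c'; - p * γ 0 1, γ 0 0], ?_⟩, rfl, rfl, rfl, rfl⟩
    rw [Matrix.det_fin_two_of]
    rw [hc'] at hdet
    linarith
  refine ⟨δ, ?_, ?_⟩
  · show δ ∈ Gamma0 p
    rw [Gamma0_mem, h10']
    simp
  rw [eq_mul_inv_iff_mul_eq]
  apply Matrix.GeneralLinearGroup.ext
  intro i j
  have h10 : ((γ 1 0 : ℤ) : ℝ) = p * c' := by rw [hc']; push_cast; ring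
  fin_cases i <;> fin_cases j <;>
    simp [Matrix.mul_apply, Fin.sum_univ_two, mapGL_coe_matrix, h10,
      h00, h01, h10', h11] <;>
    ring

theorem isMF_slash_Wm {p : ℕ} [NeZero p] {k : ℤ} {F : ℍ → ℂ} (hF : IsMF (G0 p) k F) :
    IsMF (G0 p) k (F ∣[k] Wm p) := by
  obtain ⟨a, rfl⟩ := hF
  exact (IsMF.of (ModularForm.translate a (Wm p))).mono (G0_le_conj_Wm p)

theorem isMF_heckeU {p : ℕ} [NeZero p] {k : ℤ} {F : ℍ → ℂ} (hF : IsMF (G0 p) k F) :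
    IsMF (G0 p) k (heckeU k p F) := by
  obtain ⟨a, rfl⟩ := hF
  exact ⟨ModularForm.heckeULin k (dvd_refl p) a, rfl⟩

theorem isMF_slash_eq {Γ : Subgroup (GL (Fin 2) ℝ)} {k : ℤ} {F : ℍ → ℂ} (hF : IsMF Γ k F)
    {γ : GL (Fin 2) ℝ} (hγ : γ ∈ Γ) : F ∣[k] γ = F := by
  obtain ⟨a, rfl⟩ := hF
  exact a.slash_action_eq' γ hγ

theorem mapGL_entry (g : SL(2, ℤ)) (i j : Fin 2) :
    (mapGL ℝ g : GL (Fin 2) ℝ) i j = ((g i j : ℤ) : ℝ) := by
  simp

theorem mapGL_mem_G0 {p : ℕ} {g : SL(2, ℤ)} (h : (p : ℤ) ∣ g 1 0) :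
    (mapGL ℝ g : GL (Fin 2) ℝ) ∈ G0 p := by
  refine ⟨g, ?_, rfl⟩
  show g ∈ Gamma0 p
  rw [Gamma0_mem]
  exact (ZMod.intCast_zmod_eq_zero_iff_dvd _ _).mpr h

theorem Wm_mul_S (p : ℕ) [NeZero p] :
    Wm p * mapGL ℝ ModularGroup.S = mapGL ℝ (-1 : SL(2, ℤ)) * heckeMatrix p 0 := by
  apply Matrix.GeneralLinearGroup.ext
  intro i j
  fin_cases i <;> fin_cases j <;>
    simp [Matrix.mul_apply, Fin.sum_univ_two, ModularGroup.coe_S,
      val_heckeMatrix (NeZero.ne p)]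

theorem heckeMatrix_zero_mul_S (p : ℕ) [NeZero p] :
    heckeMatrix p 0 * mapGL ℝ ModularGroup.S = Wm p := by
  apply Matrix.GeneralLinearGroup.ext
  intro i j
  fin_cases i <;> fin_cases j <;>
    simp [Matrix.mul_apply, Fin.sum_univ_two, ModularGroup.coe_S,
      val_heckeMatrix (NeZero.ne p)]

theorem slash_heckeMatrix_S {p : ℕ} [Fact p.Prime] {k : ℤ} {F : ℍ → ℂ}
    (hF : ∀ γ ∈ G0 p, F ∣[k] γ = F) {x : ZMod p} (hx : x ≠ 0) :
    (F ∣[k] heckeMatrix p x.val) ∣[k] (mapGL ℝ ModularGroup.S : GL (Fin 2) ℝ) =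
      F ∣[k] heckeMatrix p (-x⁻¹).val := by
  have hp : p ≠ 0 := (Fact.out : p.Prime).ne_zero
  obtain ⟨e, he⟩ : (p : ℤ) ∣ -1 - ((-x⁻¹).val : ℤ) * (x.val : ℤ) := by
    rw [← ZMod.intCast_zmod_eq_zero_iff_dvd]
    push_cast
    rw [ZMod.natCast_zmod_val, ZMod.natCast_zmod_val]
    field_simp
    ring
  obtain ⟨g', hg', hmul⟩ :=
    P2MW.S_ModularForm_heckeT_slash_eq_self_of_mem_Gamma0.ModularForm.HeckeSlashInvariance.heckeMatrix_mul_of_eq
      hp ModularGroup.S x.val (-x⁻¹).val e (by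
        simp only [ModularGroup.coe_S]
        simp [-ZMod.natCast_val]
        linarith)
  rw [← SlashAction.slash_mul, hmul, SlashAction.slash_mul, hF _ (mapGL_mem_G0 (by rw [hg']; exact dvd_mul_right _ _))]

/-- `F|W + U_p F`: (a multiple of) the trace of `F|W` to level one. -/
noncomputable def trW (p : ℕ) [NeZero p] (k : ℤ) (F : ℍ → ℂ) : ℍ → ℂ :=
  F ∣[k] Wm p + heckeU k p F

theorem sum_neg_inv {p : ℕ} [Fact p.Prime] {M : Type*} [AddCommMonoid M] (g : ZMod p → M) :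
    ∑ x ∈ (Finset.univ : Finset (ZMod p)).erase 0, g (-x⁻¹) =
      ∑ x ∈ (Finset.univ : Finset (ZMod p)).erase 0, g x := by
  refine Finset.sum_nbij' (fun x => -x⁻¹) (fun x => -x⁻¹) ?_ ?_ ?_ ?_ ?_
  · intro x hx
    simpa using hx
  · intro x hx
    simpa using hx
  · intro x _
    simp
  · intro x _
    simp
  · intro x _
    rfl

theorem trW_slash_S {p : ℕ} [Fact p.Prime] {k : ℤ} {F : ℍ → ℂ}
    (hF : ∀ γ ∈ G0 p, F ∣[k] γ = F) :
    trW p k F ∣[k] ModularGroup.S = trW p k F := by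
  show trW p k F ∣[k] (mapGL ℝ ModularGroup.S : GL (Fin 2) ℝ) = trW p k F
  unfold trW
  rw [P2MW.S_ModularForm_heckeT_slash_eq_self_of_mem_Gamma0.ModularForm.HeckeSlashInvariance.heckeU_eq_sum_zmod,
    ← Finset.add_sum_erase _ _ (Finset.mem_univ (0 : ZMod p))]
  rw [SlashAction.add_slash, SlashAction.add_slash, SlashAction.sum_slash]
  have h1 : (F ∣[k] Wm p) ∣[k] (mapGL ℝ ModularGroup.S : GL (Fin 2) ℝ) =
      F ∣[k] heckeMatrix p (0 : ZMod p).val := by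
    rw [← SlashAction.slash_mul, Wm_mul_S, SlashAction.slash_mul,
      hF _ (mapGL_mem_G0 (by simp)), ZMod.val_zero]
  have h2 : (F ∣[k] heckeMatrix p (0 : ZMod p).val) ∣[k] (mapGL ℝ ModularGroup.S : GL (Fin 2) ℝ) =
      F ∣[k] Wm p := by
    rw [← SlashAction.slash_mul, ZMod.val_zero, heckeMatrix_zero_mul_S]
  have h3 : ∑ x ∈ (Finset.univ : Finset (ZMod p)).erase 0,
      (F ∣[k] heckeMatrix p x.val) ∣[k] (mapGL ℝ ModularGroup.S : GL (Fin 2) ℝ) =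
      ∑ x ∈ (Finset.univ : Finset (ZMod p)).erase 0, F ∣[k] heckeMatrix p x.val := by
    rw [← sum_neg_inv (fun x => F ∣[k] heckeMatrix p x.val)]
    refine Finset.sum_congr rfl fun x hx => ?_
    exact slash_heckeMatrix_S hF (Finset.ne_of_mem_erase hx)
  rw [h1, h2, h3]
  abel

theorem isMF_trW {p : ℕ} [Fact p.Prime] {k : ℤ} {F : ℍ → ℂ} (hF : IsMF (G0 p) k F) :
    IsMF 𝒮ℒ k (trW p k F) := by
  have h0 : IsMF (G0 p) k (trW p k F) := (isMF_slash_Wm hF).add (isMF_heckeU hF)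
  have hS := trW_slash_S (p := p) (k := k) (F := F) (fun γ hγ => isMF_slash_eq hF hγ)
  have hT : trW p k F ∣[k] ModularGroup.T = trW p k F :=
    isMF_slash_eq h0 (mapGL_mem_G0 (by simp [ModularGroup.coe_T]))
  have hinv := SlashInvariantForm.slash_action_generators_SL2Z hS hT
  obtain ⟨a, ha⟩ := h0
  refine ⟨{ toFun := trW p k F
            slash_action_eq' := ?_
            holo' := ha ▸ a.holo'
            bdd_at_cusps' := ?_ }, rfl⟩
  · rintro _ ⟨g, rfl⟩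
    exact hinv g
  · intro c hc
    have := a.bdd_at_cusps' ((Subgroup.IsArithmetic.isCusp_iff_isCusp_SL2Z (G0 p)).mpr hc)
    rw [← ha]
    exact this

theorem det_Wm (p : ℕ) [NeZero p] : ((Wm p).det : ℝ) = p := by
  rw [Matrix.GeneralLinearGroup.val_det_apply, val_Wm, Matrix.det_fin_two_of]
  ring

theorem det_Wm_pos (p : ℕ) [NeZero p] : 0 < ((Wm p).det : ℝ) := by
  rw [det_Wm]; exact_mod_cast Nat.pos_of_ne_zero (NeZero.ne p)

theorem denom_Wm (p : ℕ) [NeZero p] (τ : ℍ) : denom (Wm p) τ = p * τ := by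
  simp [denom, val_Wm]

theorem coe_Wm_smul (p : ℕ) [NeZero p] (τ : ℍ) :
    ((Wm p • τ : ℍ) : ℂ) = -1 / (p * τ) := by
  rw [UpperHalfPlane.coe_smul_of_det_pos (det_Wm_pos p)]
  simp [num, denom, val_Wm]

theorem σ_Wm (p : ℕ) [NeZero p] : σ (Wm p) = .refl ℝ ℂ := by
  rw [σ, if_pos (det_Wm_pos p)]

theorem slash_Wm_apply (p : ℕ) [NeZero p] (k : ℤ) (F : ℍ → ℂ) (τ : ℍ) :
    (F ∣[k] Wm p) τ = F (Wm p • τ) * (p : ℂ) ^ (k - 1) * ((p : ℂ) * τ) ^ (-k) := by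
  rw [ModularForm.slash_apply, σ_Wm, det_Wm, denom_Wm]
  simp

theorem Wm_smul_Wm_smul (p : ℕ) [NeZero p] (τ : ℍ) : Wm p • Wm p • τ = τ := by
  apply UpperHalfPlane.ext
  rw [coe_Wm_smul, coe_Wm_smul]
  have hp : (p : ℂ) ≠ 0 := by exact_mod_cast NeZero.ne p
  have hτ : (τ : ℂ) ≠ 0 := ne_zero τ
  field_simp

theorem slash_Wm_Wm_two (p : ℕ) [NeZero p] (F : ℍ → ℂ) :
    (F ∣[(2 : ℤ)] Wm p) ∣[(2 : ℤ)] Wm p = F := by
  ext τ
  rw [slash_Wm_apply, slash_Wm_apply, Wm_smul_Wm_smul, coe_Wm_smul]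
  have hp : (p : ℂ) ≠ 0 := by exact_mod_cast NeZero.ne p
  have hτ : (τ : ℂ) ≠ 0 := ne_zero τ
  norm_num [zpow_neg]
  field_simp

theorem eq_zero_of_isMF_SL_two {F : ℍ → ℂ} (h : IsMF 𝒮ℒ 2 F) : F = 0 := by
  obtain ⟨a, rfl⟩ := h
  have := rank_zero_iff_forall_zero.mp ModularForm.levelOne_weight_two_rank_zero a
  rw [this]; rfl

/-- in weight two the Fricke involution is `-U_p`. -/
theorem slash_Wm_two {p : ℕ} [Fact p.Prime] {F : ℍ → ℂ} (hF : IsMF (G0 p) 2 F) :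
    F ∣[(2 : ℤ)] Wm p = - heckeU 2 p F := by
  have := eq_zero_of_isMF_SL_two (isMF_trW hF)
  unfold trW at this
  exact eq_neg_of_add_eq_zero_left this

theorem heckeU_heckeU_two {p : ℕ} [Fact p.Prime] {F : ℍ → ℂ} (hF : IsMF (G0 p) 2 F) :
    heckeU 2 p (heckeU 2 p F) = F := by
  have h1 := slash_Wm_two hF
  have h2 := slash_Wm_two (isMF_slash_Wm hF)
  rw [slash_Wm_Wm_two, h1, heckeU_neg, neg_neg] at h2
  exact h2.symm

/-- `p H² + U_p((U_p H)²)` has level one. -/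
theorem isMF_trace_sq {p : ℕ} [Fact p.Prime] {F : ℍ → ℂ} (hF : IsMF (G0 p) 2 F) :
    IsMF 𝒮ℒ 4 ((p : ℂ) • (F * F) + heckeU 4 p (heckeU 2 p F * heckeU 2 p F)) := by
  have hG := isMF_heckeU hF
  have hGG : IsMF (G0 p) 4 (heckeU 2 p F * heckeU 2 p F) := (hG.mul hG).cast (by norm_num)
  have h := isMF_trW hGG
  have h1 : (heckeU 2 p F * heckeU 2 p F) ∣[(4 : ℤ)] Wm p = (p : ℂ) • (F * F) := by
    rw [show (4 : ℤ) = 2 + 2 by norm_num, ModularForm.mul_slash, slash_Wm_two hG,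
      heckeU_heckeU_two hF, det_Wm]
    ext τ
    simp
  unfold trW at h
  rwa [h1] at h

theorem eq_smul_E4 {X : ℍ → ℂ} (h : IsMF 𝒮ℒ 4 X) :
    X = ((qExpansion 1 X).coeff 0) • ⇑E₄ := by
  obtain ⟨a, rfl⟩ := h
  have hr : Module.finrank ℂ (ModularForm 𝒮ℒ 4) = 1 :=
    Module.rank_eq_one_iff_finrank_eq_one.mp ModularForm.levelOne_weight_four_rank_one
  have hE : (E₄ : ModularForm 𝒮ℒ 4) ≠ 0 := EisensteinSeries.E_ne_zero (by norm_num) ⟨2, rfl⟩
  obtain ⟨c, hc⟩ := (finrank_eq_one_iff_of_nonzero' E₄ hE).mp hr a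
  have hc' : (a : ℍ → ℂ) = c • ⇑E₄ := by rw [← hc]; rfl
  have h0 : (qExpansion 1 (a : ℍ → ℂ)).coeff 0 = c := by
    rw [hc', Nice.qx_smul c (IsMF.of E₄).nice_SL]
    simp [EisensteinSeries.E_qExpansion_coeff_zero (by norm_num : 3 ≤ 4) ⟨2, rfl⟩]
  rw [h0, hc']

theorem coeff_heckeU {F : ℍ → ℂ} (hF : Nice F) (k : ℤ) {p : ℕ} (hp : p ≠ 0) (n : ℕ) :
    (qExpansion 1 (heckeU k p F)).coeff n = (qExpansion 1 F).coeff (n * p) :=
  UpperHalfPlane.qCoeff_heckeU hF.per hF.holo hF.bdd k hp n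

theorem key_identity {p : ℕ} [Fact p.Prime] {F : ℍ → ℂ} (hF : IsMF (G0 p) 2 F) (n : ℕ) :
    (p : ℂ) * (qExpansion 1 F * qExpansion 1 F).coeff n +
      (qExpansion 1 (heckeU 2 p F) * qExpansion 1 (heckeU 2 p F)).coeff (n * p) =
    ((p : ℂ) + 1) * ((qExpansion 1 F).coeff 0) ^ 2 * (qExpansion 1 E₄).coeff n := by
  have hp : p ≠ 0 := (Fact.out : p.Prime).ne_zero
  have nF : Nice F := hF.nice_G0
  have hG := isMF_heckeU hF
  have nG : Nice (heckeU 2 p F) := hG.nice_G0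
  have hGG : IsMF (G0 p) 4 (heckeU 2 p F * heckeU 2 p F) := (hG.mul hG).cast (by norm_num)
  have nU : Nice (heckeU 4 p (heckeU 2 p F * heckeU 2 p F)) := (isMF_heckeU hGG).nice_G0
  have hX := isMF_trace_sq hF
  have hq : ∀ m, (qExpansion 1 ((p : ℂ) • (F * F) +
      heckeU 4 p (heckeU 2 p F * heckeU 2 p F))).coeff m =
      (p : ℂ) * (qExpansion 1 F * qExpansion 1 F).coeff m +
      (qExpansion 1 (heckeU 2 p F) * qExpansion 1 (heckeU 2 p F)).coeff (m * p) := by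
    intro m
    rw [Nice.qx_add ((nF.mul nF).smul _) nU, Nice.qx_smul _ (nF.mul nF), Nice.qx_mul nF nF,
      map_add, coeff_heckeU (nG.mul nG) 4 hp, Nice.qx_mul nG nG]
    simp
  have h1 := eq_smul_E4 hX
  have h2 := congrArg (fun Y => (qExpansion 1 Y).coeff n) h1
  rw [hq n, Nice.qx_smul _ (IsMF.of E₄).nice_SL, hq 0] at h2
  rw [h2]
  have h3 : (qExpansion 1 (heckeU 2 p F)).coeff 0 = (qExpansion 1 F).coeff 0 := by
    rw [coeff_heckeU nF 2 hp]; simp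
  simp only [zero_mul, PowerSeries.coeff_zero_eq_constantCoeff, map_mul] at h3 ⊢
  rw [h3, map_smul, smul_eq_mul]
  ring

theorem coeff_E4 (n : ℕ) (hn : 1 ≤ n) :
    (qExpansion 1 E₄).coeff n = ((240 * (ArithmeticFunction.sigma 3 n : ℕ) : ℤ) : ℂ) := by
  rw [EisensteinSeries.E_qExpansion_coeff _ ⟨2, rfl⟩, if_neg (by omega)]
  norm_num [show bernoulli 4 = -1 / 30 by decide +kernel]

theorem qx_eq_map_mk {F : ℍ → ℂ} {a : ℕ → ℤ} (ha : ∀ n, (qExpansion 1 F).coeff n = a n) :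
    qExpansion 1 F = (PowerSeries.mk a).map (Int.castRingHom ℂ) := by
  ext n
  simp [ha]

/-- the integral form of the trace identity, for `H` and for `U_p H`. -/
theorem key_identity_int {p : ℕ} [Fact p.Prime] (H : ModularForm (Gamma0 p) 2) (a : ℕ → ℤ)
    (ha : ∀ n, (qExpansion 1 H).coeff n = a n) :
    (∀ n, a (n * p * p) = a n) ∧
    (∀ n, 1 ≤ n → (p : ℤ) * (PowerSeries.mk a * PowerSeries.mk a).coeff n +
      (PowerSeries.mk (fun m => a (m * p)) * PowerSeries.mk (fun m => a (m * p))).coeff (n * p) =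
      ((p : ℤ) + 1) * a 0 ^ 2 * (240 * (ArithmeticFunction.sigma 3 n : ℕ))) ∧
    (∀ n, 1 ≤ n → (p : ℤ) * (PowerSeries.mk (fun m => a (m * p)) *
        PowerSeries.mk (fun m => a (m * p))).coeff n +
      (PowerSeries.mk a * PowerSeries.mk a).coeff (n * p) =
      ((p : ℤ) + 1) * a 0 ^ 2 * (240 * (ArithmeticFunction.sigma 3 n : ℕ))) := by
  have hp : p ≠ 0 := (Fact.out : p.Prime).ne_zero
  have hH : IsMF (G0 p) 2 H := IsMF.of H
  have nH : Nice H := hH.nice_G0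
  have hG := isMF_heckeU hH
  have hb : ∀ n, (qExpansion 1 (heckeU 2 p H)).coeff n = ((a (n * p) : ℤ) : ℂ) := fun n => by
    rw [coeff_heckeU nH 2 hp, ha]
  have hUU := heckeU_heckeU_two hH
  have qa := qx_eq_map_mk ha
  have qb := qx_eq_map_mk (a := fun m => a (m * p)) hb
  refine ⟨fun n => ?_, fun n hn => ?_, fun n hn => ?_⟩
  · have h1 : (qExpansion 1 (heckeU 2 p (heckeU 2 p H))).coeff n = ((a (n * p * p) : ℤ) : ℂ) := by
      rw [coeff_heckeU hG.nice_G0 2 hp, hb]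
    rw [hUU, ha] at h1
    exact_mod_cast h1.symm
  · have h := key_identity hH n
    rw [qa, qb, ← map_mul, ← map_mul, PowerSeries.coeff_map, PowerSeries.coeff_map,
      PowerSeries.coeff_map, coeff_E4 n hn] at h
    simp only [PowerSeries.coeff_mk, eq_intCast] at h
    exact_mod_cast h
  · have h := key_identity hG n
    rw [hUU, qa, qb, ← map_mul, ← map_mul, PowerSeries.coeff_map, PowerSeries.coeff_map,
      PowerSeries.coeff_map, coeff_E4 n hn] at h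
    simp only [PowerSeries.coeff_mk, eq_intCast, zero_mul] at h
    exact_mod_cast h

end Fermat.Agent.S16
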